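import Mathlib

set_option autoImplicit false
set_option linter.unusedSectionVars false

namespace Fermat.Agent.S21

noncomputable section

section generic

variable {G : Type*} [Group G] (Γ : Subgroup G)

/-- The element `(out x)⁻¹ * g * out (g⁻¹ • x)` of `Γ`. -/
def shapEl (g : G) (x : G ⧸ Γ) : Γ :=
  ⟨(Quotient.out x)⁻¹ * (g * Quotient.out (g⁻¹ • x)), by
    rw [← QuotientGroup.eq]
    have h1 : (QuotientGroup.mk (g * Quotient.out (g⁻¹ • x)) : G ⧸ Γ) =
        g • (QuotientGroup.mk (Quotient.out (g⁻¹ • x)) : G ⧸ Γ) := rfl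
    rw [h1, QuotientGroup.out_eq', QuotientGroup.out_eq', smul_inv_smul]⟩

theorem shapEl_mul (g h : G) (x : G ⧸ Γ) :
    shapEl Γ (g * h) x = shapEl Γ g x * shapEl Γ h (g⁻¹ • x) := by
  apply Subtype.ext
  simp only [shapEl, Subgroup.coe_mul, mul_inv_rev, mul_smul]
  group

variable {Γ}

/-- The combined cocycle attached to a homomorphism `ψ` and a function `v`. -/
def coc (ψ : Additive Γ →+ ℂ) (v : G ⧸ Γ → ℂ) (g : G) (x : G ⧸ Γ) : ℂ :=
  ψ (Additive.ofMul (shapEl Γ g x)) + v (g⁻¹ • x) - v x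

theorem coc_mul (ψ : Additive Γ →+ ℂ) (v : G ⧸ Γ → ℂ) (g h : G) (x : G ⧸ Γ) :
    coc ψ v (g * h) x = coc ψ v g x + coc ψ v h (g⁻¹ • x) := by
  simp only [coc, shapEl_mul, ofMul_mul, map_add, mul_inv_rev, mul_smul]
  ring

theorem coc_one (ψ : Additive Γ →+ ℂ) (v : G ⧸ Γ → ℂ) (x : G ⧸ Γ) : coc ψ v 1 x = 0 := by
  have h := coc_mul ψ v 1 1 x
  simp only [mul_one, inv_one, one_smul] at h
  linear_combination -h

theorem coc_inv (ψ : Additive Γ →+ ℂ) (v : G ⧸ Γ → ℂ) (g : G)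
    (hg : ∀ x, coc ψ v g x = 0) (x : G ⧸ Γ) : coc ψ v g⁻¹ x = 0 := by
  have h := coc_mul ψ v g g⁻¹ (g • x)
  rw [mul_inv_cancel, coc_one, hg, inv_smul_smul, zero_add] at h
  exact h.symm

theorem coc_eq_zero_of_closure (ψ : Additive Γ →+ ℂ) (v : G ⧸ Γ → ℂ) (T : Set G)
    (hT : Subgroup.closure T = ⊤) (h : ∀ s ∈ T, ∀ x, coc ψ v s x = 0) (g : G) :
    ∀ x, coc ψ v g x = 0 := by
  have hg : g ∈ Subgroup.closure T := by rw [hT]; trivial
  induction hg using Subgroup.closure_induction with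
  | mem s hs => exact h s hs
  | one => exact coc_one ψ v
  | mul a b _ _ ha hb =>
    intro x
    rw [coc_mul, ha, hb, add_zero]
  | inv a _ ha => exact coc_inv ψ v a ha

end generic

section generic2

variable {G : Type*} [Group G] {Γ : Subgroup G}

theorem out_mk_one_mem : (Quotient.out (QuotientGroup.mk 1 : G ⧸ Γ)) ∈ Γ := by
  have h : (QuotientGroup.mk (Quotient.out (QuotientGroup.mk 1 : G ⧸ Γ)) : G ⧸ Γ) =
      QuotientGroup.mk 1 := QuotientGroup.out_eq' _
  have := QuotientGroup.eq.mp h.symm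
  simpa using this

theorem smul_mk_one_of_mem {γ : G} (hγ : γ ∈ Γ) :
    γ • (QuotientGroup.mk 1 : G ⧸ Γ) = QuotientGroup.mk 1 := by
  show (QuotientGroup.mk (γ * 1) : G ⧸ Γ) = QuotientGroup.mk 1
  rw [QuotientGroup.eq]
  simpa using hγ

theorem coc_mk_one (ψ : Additive Γ →+ ℂ) (v : G ⧸ Γ → ℂ) (γ : Γ) :
    coc ψ v (γ : G) (QuotientGroup.mk 1) = ψ (Additive.ofMul γ) := by
  have hfix : (γ : G)⁻¹ • (QuotientGroup.mk 1 : G ⧸ Γ) = QuotientGroup.mk 1 :=
    smul_mk_one_of_mem (Γ.inv_mem γ.2)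
  unfold coc
  rw [hfix, add_sub_cancel_right]
  set γ0 : Γ := ⟨_, out_mk_one_mem (Γ := Γ)⟩ with hγ0
  have h : shapEl Γ (γ : G) (QuotientGroup.mk 1) = γ0⁻¹ * (γ * γ0) := by
    apply Subtype.ext
    simp only [shapEl, hfix, Subgroup.coe_mul, Subgroup.coe_inv, hγ0]
  rw [h]
  simp only [ofMul_mul, ofMul_inv, map_add, map_neg]
  ring

/-- Key injectivity: if the combined cocycle vanishes on a generating set, then `ψ = 0` and `v`
is constant. -/
theorem eq_zero_of_coc_eq_zero (ψ : Additive Γ →+ ℂ) (v : G ⧸ Γ → ℂ) (T : Set G)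
    (hT : Subgroup.closure T = ⊤) (h : ∀ s ∈ T, ∀ x, coc ψ v s x = 0) :
    ψ = 0 ∧ ∀ x, v x = v (QuotientGroup.mk 1) := by
  have hall := coc_eq_zero_of_closure ψ v T hT h
  have hψ : ψ = 0 := by
    ext γ
    have := coc_mk_one ψ v (Additive.toMul γ)
    rw [hall] at this
    exact this.symm
  refine ⟨hψ, fun x => ?_⟩
  induction x using QuotientGroup.induction_on with
  | H g =>
    have h1 := hall g⁻¹ (QuotientGroup.mk 1)
    unfold coc at h1
    rw [hψ] at h1
    simp only [AddMonoidHom.zero_apply, zero_add, inv_inv] at h1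
    have h2 : g • (QuotientGroup.mk 1 : G ⧸ Γ) = QuotientGroup.mk g := by
      show (QuotientGroup.mk (g * 1) : G ⧸ Γ) = _
      rw [mul_one]
    rw [h2] at h1
    linear_combination h1

end generic2


section linalg

variable {V : Type*} [AddCommGroup V] [Module ℂ V] [FiniteDimensional ℂ V]

open Module LinearMap

/-- dimension of the `-1`-eigenspace of an involution via the trace. -/
theorem finrank_ker_one_add_of_sq (A : V →ₗ[ℂ] V) (hA : A ∘ₗ A = LinearMap.id) :
    2 * (finrank ℂ (LinearMap.ker (LinearMap.id + A)) : ℂ) =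
      (finrank ℂ V : ℂ) - LinearMap.trace ℂ V A := by
  set P : V →ₗ[ℂ] V := (1 / 2 : ℂ) • (LinearMap.id - A) with hP
  have hproj : LinearMap.IsProj (LinearMap.ker (LinearMap.id + A)) P := by
    constructor
    · intro x
      rw [LinearMap.mem_ker]
      have h1 : A (A x) = x := by
        have := congrArg (fun f => f x) hA
        simpa using this
      simp only [hP, LinearMap.smul_apply, LinearMap.sub_apply, LinearMap.add_apply,
        LinearMap.id_apply, map_smul, map_sub, h1]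
      module
    · intro x hx
      rw [LinearMap.mem_ker] at hx
      simp only [LinearMap.add_apply, LinearMap.id_apply] at hx
      have h2 : A x = -x := by
        rw [eq_neg_iff_add_eq_zero, add_comm]; exact hx
      simp only [hP, LinearMap.smul_apply, LinearMap.sub_apply, LinearMap.id_apply, h2]
      module
  have htr := hproj.trace
  rw [← htr, hP, map_smul, map_sub]
  have : LinearMap.trace ℂ V LinearMap.id = (finrank ℂ V : ℂ) := LinearMap.trace_id ℂ V
  rw [this]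
  simp only [smul_eq_mul]
  ring

/-- dimension of the kernel of `1 + B + B²` for `B³ = 1` via traces. -/
theorem finrank_ker_one_add_add_of_cube (B : V →ₗ[ℂ] V) (hB : B ∘ₗ B ∘ₗ B = LinearMap.id) :
    3 * (finrank ℂ (LinearMap.ker (LinearMap.id + B + B ∘ₗ B)) : ℂ) =
      2 * (finrank ℂ V : ℂ) - LinearMap.trace ℂ V B - LinearMap.trace ℂ V (B ∘ₗ B) := by
  set P : V →ₗ[ℂ] V := (1 / 3 : ℂ) • ((2 : ℂ) • LinearMap.id - B - B ∘ₗ B) with hP
  have h3 : ∀ x, B (B (B x)) = x := fun x => by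
    have := congrArg (fun f => f x) hB
    simpa using this
  have hproj : LinearMap.IsProj (LinearMap.ker (LinearMap.id + B + B ∘ₗ B)) P := by
    constructor
    · intro x
      rw [LinearMap.mem_ker]
      simp only [hP, LinearMap.smul_apply, LinearMap.sub_apply, LinearMap.add_apply,
        LinearMap.id_apply, LinearMap.comp_apply, map_smul, map_sub, h3]
      module
    · intro x hx
      rw [LinearMap.mem_ker] at hx
      simp only [LinearMap.add_apply, LinearMap.id_apply, LinearMap.comp_apply] at hx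
      have h2 : B (B x) = -x - B x := by
        rw [eq_sub_iff_add_eq, eq_neg_iff_add_eq_zero]
        rw [← hx]; abel
      simp only [hP, LinearMap.smul_apply, LinearMap.sub_apply, LinearMap.id_apply,
        LinearMap.comp_apply, h2]
      module
  have htr := hproj.trace
  rw [← htr, hP, map_smul, map_sub, map_sub, map_smul]
  have : LinearMap.trace ℂ V LinearMap.id = (finrank ℂ V : ℂ) := LinearMap.trace_id ℂ V
  rw [this]
  simp only [smul_eq_mul]
  ring

end linalg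


section perm

variable {X : Type*} [Fintype X] [DecidableEq X]

theorem trace_funLeft_perm (σ : Equiv.Perm X) :
    LinearMap.trace ℂ (X → ℂ) (LinearMap.funLeft ℂ ℂ σ) = (Nat.card {x // σ x = x} : ℂ) := by
  have h1 : LinearMap.funLeft ℂ ℂ σ = Matrix.toLin' (σ.permMatrix ℂ) := by
    apply LinearMap.ext
    intro v
    rw [Matrix.toLin'_apply, Matrix.permMatrix_mulVec]
    rfl
  rw [h1, Matrix.trace_toLin'_eq, Matrix.trace_permutation]
  congr 1

end perm

section action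

variable {G : Type*} [Group G] {X : Type*} [MulAction G X]

/-- the operator `w ↦ (x ↦ w (g⁻¹ • x))` -/
def opA (g : G) : (X → ℂ) →ₗ[ℂ] (X → ℂ) := LinearMap.funLeft ℂ ℂ (fun x => g⁻¹ • x)

@[simp] theorem opA_apply (g : G) (w : X → ℂ) (x : X) : opA g w x = w (g⁻¹ • x) := rfl

theorem opA_mul (g h : G) : (opA g : (X → ℂ) →ₗ[ℂ] (X → ℂ)) ∘ₗ opA h = opA (g * h) := by
  apply LinearMap.ext; intro w; funext x
  simp [mul_smul]

theorem trace_opA [Fintype X] [DecidableEq X] (g : G) :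
    LinearMap.trace ℂ (X → ℂ) (opA g) = (Nat.card (MulAction.fixedBy X g) : ℂ) := by
  have h := trace_funLeft_perm (MulAction.toPerm (g⁻¹) : Equiv.Perm X)
  have h1 : (opA g : (X → ℂ) →ₗ[ℂ] (X → ℂ)) = LinearMap.funLeft ℂ ℂ (MulAction.toPerm (g⁻¹) : Equiv.Perm X) := rfl
  rw [h1, h]
  congr 1
  apply Nat.card_congr
  refine Equiv.subtypeEquivRight fun x => ?_
  simp only [MulAction.toPerm_apply, MulAction.mem_fixedBy]
  constructor
  · intro hx
    have := congrArg (fun y => g • y) hx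
    simpa using this.symm
  · intro hx
    have := congrArg (fun y => g⁻¹ • y) hx
    simpa using this.symm

end action


open Module

section assembly

variable {G : Type*} [Group G] (Γ : Subgroup G)

/-- a central element of `Γ` acts trivially on `G ⧸ Γ`. -/
theorem central_smul {z : G} (hzΓ : z ∈ Γ) (hzc : ∀ g, g * z = z * g) (x : G ⧸ Γ) : z • x = x := by
  induction x using QuotientGroup.induction_on with
  | H g =>
    show (QuotientGroup.mk (z * g) : G ⧸ Γ) = QuotientGroup.mk g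
    rw [← hzc g, QuotientGroup.mk_mul_of_mem g hzΓ]

theorem coc_central {z : G} (hzΓ : z ∈ Γ) (hzc : ∀ g, g * z = z * g) (hz2 : z * z = 1)
    (ψ : Additive Γ →+ ℂ) (v : G ⧸ Γ → ℂ) (x : G ⧸ Γ) : coc ψ v z x = 0 := by
  have hzinv : z⁻¹ = z := by
    rw [inv_eq_iff_mul_eq_one]; exact hz2
  have hfix : z⁻¹ • x = x := by rw [hzinv]; exact central_smul Γ hzΓ hzc x
  unfold coc
  rw [hfix, add_sub_cancel_right]
  have h : shapEl Γ z x = ⟨z, hzΓ⟩ := by
    apply Subtype.ext
    simp only [shapEl, hfix]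
    rw [← hzc, inv_mul_cancel_left]
  rw [h]
  have h2 : ψ (Additive.ofMul (⟨z, hzΓ⟩ : Γ)) + ψ (Additive.ofMul (⟨z, hzΓ⟩ : Γ)) = 0 := by
    rw [← map_add, ← ofMul_mul]
    have : (⟨z, hzΓ⟩ : Γ) * ⟨z, hzΓ⟩ = 1 := Subtype.ext hz2
    rw [this]
    simp
  have h3 : (2 : ℂ) * ψ (Additive.ofMul (⟨z, hzΓ⟩ : Γ)) = 0 := by rw [two_mul]; exact h2
  exact (mul_eq_zero.mp h3).resolve_left two_ne_zero

variable [DecidableEq (G ⧸ Γ)]

/-- extension by zero at the base point -/
def ext0 (v' : {x : G ⧸ Γ // x ≠ QuotientGroup.mk 1} → ℂ) : G ⧸ Γ → ℂ :=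
  fun x => if h : x = QuotientGroup.mk 1 then 0 else v' ⟨x, h⟩

theorem ext0_base (v' : {x : G ⧸ Γ // x ≠ QuotientGroup.mk 1} → ℂ) :
    ext0 Γ v' (QuotientGroup.mk 1) = 0 := by
  simp [ext0]

theorem ext0_add (v w : {x : G ⧸ Γ // x ≠ QuotientGroup.mk 1} → ℂ) (x : G ⧸ Γ) :
    ext0 Γ (v + w) x = ext0 Γ v x + ext0 Γ w x := by
  unfold ext0; split_ifs <;> simp

theorem ext0_smul (c : ℂ) (v : {x : G ⧸ Γ // x ≠ QuotientGroup.mk 1} → ℂ) (x : G ⧸ Γ) :
    ext0 Γ (c • v) x = c * ext0 Γ v x := by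
  unfold ext0; split_ifs <;> simp

/-- the value of the combined cocycle at `g`, as a linear map in `(ψ, v')` -/
def thetaMap (g : G) :
    ((Additive Γ →+ ℂ) × ({x : G ⧸ Γ // x ≠ QuotientGroup.mk 1} → ℂ)) →ₗ[ℂ] (G ⧸ Γ → ℂ) where
  toFun p := coc p.1 (ext0 Γ p.2) g
  map_add' p q := by
    funext x
    simp only [coc, Prod.fst_add, Prod.snd_add, AddMonoidHom.add_apply, ext0_add, Pi.add_apply]
    ring
  map_smul' c p := by
    funext x
    simp only [coc, Prod.smul_fst, Prod.smul_snd, AddMonoidHom.smul_apply, ext0_smul,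
      Pi.smul_apply, smul_eq_mul, RingHom.id_apply]
    ring

theorem thetaMap_apply (g : G) (p) : thetaMap Γ g p = coc p.1 (ext0 Γ p.2) g := rfl


variable [Fintype (G ⧸ Γ)]

theorem hom_bound_generic (z s u : G) (hzΓ : z ∈ Γ) (hzc : ∀ g, g * z = z * g)
    (hz2 : z * z = 1) (hs : s * s = z) (hu : u * u * u = z)
    (hgen : Subgroup.closure ({s, u} : Set G) = ⊤) :
    FiniteDimensional ℂ (Additive Γ →+ ℂ) ∧
      6 * finrank ℂ (Additive Γ →+ ℂ) + 3 * Nat.card (MulAction.fixedBy (G ⧸ Γ) s) +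
        4 * Nat.card (MulAction.fixedBy (G ⧸ Γ) u) ≤ Nat.card (G ⧸ Γ) + 6 := by
  classical
  have hzinv : z⁻¹ = z := by rw [inv_eq_iff_mul_eq_one]; exact hz2
  have hztriv : ∀ x : G ⧸ Γ, z⁻¹ • x = x := fun x => by
    rw [hzinv]; exact central_smul Γ hzΓ hzc x
  -- the two operators
  have hA2 : (opA s : (G ⧸ Γ → ℂ) →ₗ[ℂ] (G ⧸ Γ → ℂ)) ∘ₗ opA s = LinearMap.id := by
    rw [opA_mul, hs]
    apply LinearMap.ext; intro w; funext x
    simp [hztriv]
  have hB3 : (opA u : (G ⧸ Γ → ℂ) →ₗ[ℂ] (G ⧸ Γ → ℂ)) ∘ₗ opA u ∘ₗ opA u = LinearMap.id := by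
    rw [opA_mul, opA_mul, ← mul_assoc, hu]
    apply LinearMap.ext; intro w; funext x
    simp [hztriv]
  set K2 := LinearMap.ker (LinearMap.id + opA s : (G ⧸ Γ → ℂ) →ₗ[ℂ] (G ⧸ Γ → ℂ)) with hK2
  set K3 := LinearMap.ker
    (LinearMap.id + opA u + opA u ∘ₗ opA u : (G ⧸ Γ → ℂ) →ₗ[ℂ] (G ⧸ Γ → ℂ)) with hK3
  have hm2 : ∀ p, thetaMap Γ s p ∈ K2 := by
    intro p
    rw [hK2, LinearMap.mem_ker]
    funext x
    simp only [LinearMap.add_apply, LinearMap.id_apply, Pi.add_apply, opA_apply, thetaMap_apply,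
      Pi.zero_apply]
    rw [← coc_mul, hs]
    exact coc_central Γ hzΓ hzc hz2 _ _ _
  have hm3 : ∀ p, thetaMap Γ u p ∈ K3 := by
    intro p
    rw [hK3, LinearMap.mem_ker]
    funext x
    simp only [LinearMap.add_apply, LinearMap.id_apply, Pi.add_apply, opA_apply, thetaMap_apply,
      Pi.zero_apply, LinearMap.comp_apply]
    have h1 := coc_mul p.1 (ext0 Γ p.2) (u * u) u x
    have h2 := coc_mul p.1 (ext0 Γ p.2) u u x
    rw [hu, coc_central Γ hzΓ hzc hz2, mul_inv_rev, mul_smul] at h1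
    rw [h2] at h1
    linear_combination -h1
  set Θ : ((Additive Γ →+ ℂ) × ({x : G ⧸ Γ // x ≠ QuotientGroup.mk 1} → ℂ)) →ₗ[ℂ] (K2 × K3) :=
    LinearMap.prod (LinearMap.codRestrict K2 (thetaMap Γ s) hm2)
      (LinearMap.codRestrict K3 (thetaMap Γ u) hm3) with hΘ
  have hinj : Function.Injective Θ := by
    rw [← LinearMap.ker_eq_bot, LinearMap.ker_eq_bot']
    intro p hp
    have hp2 : thetaMap Γ s p = 0 := by
      have := congrArg (fun q : K2 × K3 => (q.1 : G ⧸ Γ → ℂ)) hp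
      simpa [hΘ] using this
    have hp3 : thetaMap Γ u p = 0 := by
      have := congrArg (fun q : K2 × K3 => (q.2 : G ⧸ Γ → ℂ)) hp
      simpa [hΘ] using this
    have key := eq_zero_of_coc_eq_zero p.1 (ext0 Γ p.2) {s, u} hgen (by
      intro t ht x
      rcases ht with rfl | ht
      · exact congrFun hp2 x
      · rw [Set.mem_singleton_iff] at ht
        subst ht
        exact congrFun hp3 x)
    obtain ⟨h1, h2⟩ := key
    apply Prod.ext
    · exact h1
    · funext x'
      have := h2 x'.1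
      rw [ext0_base] at this
      simpa [ext0, x'.2] using this
  -- finite-dimensionality
  have hfd : FiniteDimensional ℂ (Additive Γ →+ ℂ) := by
    have hinj' : Function.Injective (Θ ∘ₗ LinearMap.inl ℂ (Additive Γ →+ ℂ)
        ({x : G ⧸ Γ // x ≠ QuotientGroup.mk 1} → ℂ)) :=
      hinj.comp LinearMap.inl_injective
    exact FiniteDimensional.of_injective _ hinj'
  refine ⟨hfd, ?_⟩
  -- dimension count
  have hle := LinearMap.finrank_le_finrank_of_injective hinj
  rw [Module.finrank_prod, Module.finrank_prod, Module.finrank_fintype_fun_eq_card,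
    Fintype.card_subtype_compl, Fintype.card_subtype_eq] at hle
  have hd2 := finrank_ker_one_add_of_sq (opA s : (G ⧸ Γ → ℂ) →ₗ[ℂ] (G ⧸ Γ → ℂ)) hA2
  have hd3 := finrank_ker_one_add_add_of_cube (opA u : (G ⧸ Γ → ℂ) →ₗ[ℂ] (G ⧸ Γ → ℂ)) hB3
  rw [Module.finrank_fintype_fun_eq_card, trace_opA] at hd2
  have htr2 : LinearMap.trace ℂ (G ⧸ Γ → ℂ) (opA u ∘ₗ opA u) =
      (Nat.card (MulAction.fixedBy (G ⧸ Γ) (u * u)) : ℂ) := by
    rw [opA_mul, trace_opA]
  rw [Module.finrank_fintype_fun_eq_card, trace_opA, htr2] at hd3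
  have hfix : Nat.card (MulAction.fixedBy (G ⧸ Γ) (u * u)) =
      Nat.card (MulAction.fixedBy (G ⧸ Γ) u) := by
    apply Nat.card_congr
    refine Equiv.subtypeEquivRight fun x => ?_
    simp only [MulAction.mem_fixedBy]
    constructor
    · intro hx
      have h3 : (u * u * u) • x = x := by
        rw [hu, ← hzinv]; exact hztriv x
      calc u • x = u • ((u * u) • x) := by rw [hx]
        _ = (u * u * u) • x := by rw [← mul_smul, ← mul_assoc]
        _ = x := h3
    · intro hx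
      rw [mul_smul, hx, hx]
  rw [hfix] at hd3
  have hcard : Nat.card (G ⧸ Γ) = Fintype.card (G ⧸ Γ) := Nat.card_eq_fintype_card
  have e2 : 2 * finrank ℂ K2 + Nat.card (MulAction.fixedBy (G ⧸ Γ) s) = Fintype.card (G ⧸ Γ) := by
    have : ((2 * finrank ℂ K2 + Nat.card (MulAction.fixedBy (G ⧸ Γ) s) : ℕ) : ℂ) =
        ((Fintype.card (G ⧸ Γ) : ℕ) : ℂ) := by
      push_cast; rw [hd2]; ring
    exact_mod_cast this
  have e3 : 3 * finrank ℂ K3 + 2 * Nat.card (MulAction.fixedBy (G ⧸ Γ) u) =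
      2 * Fintype.card (G ⧸ Γ) := by
    have : ((3 * finrank ℂ K3 + 2 * Nat.card (MulAction.fixedBy (G ⧸ Γ) u) : ℕ) : ℂ) =
        ((2 * Fintype.card (G ⧸ Γ) : ℕ) : ℂ) := by
      push_cast; rw [hd3]; ring
    exact_mod_cast this
  have hpos : 0 < Fintype.card (G ⧸ Γ) := Fintype.card_pos_iff.mpr ⟨QuotientGroup.mk 1⟩
  rw [hcard]
  omega

end assembly

section sl2

open CongruenceSubgroup ModularGroup
open scoped MatrixGroups

theorem sl2_S_mul_S : (S * S : SL(2, ℤ)) = -1 := by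
  ext i j
  simp only [Matrix.SpecialLinearGroup.coe_mul, Matrix.SpecialLinearGroup.coe_neg,
    Matrix.SpecialLinearGroup.coe_one, coe_S, Matrix.mul_fin_two]
  fin_cases i <;> fin_cases j <;> simp

theorem sl2_ST_cube : (S * T * (S * T) * (S * T) : SL(2, ℤ)) = -1 := by
  ext i j
  simp only [Matrix.SpecialLinearGroup.coe_mul, Matrix.SpecialLinearGroup.coe_neg,
    Matrix.SpecialLinearGroup.coe_one, coe_S, coe_T, Matrix.mul_fin_two]
  fin_cases i <;> fin_cases j <;> simp

theorem sl2_closure_S_ST : Subgroup.closure ({S, S * T} : Set SL(2, ℤ)) = ⊤ := by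
  rw [eq_top_iff, ← SpecialLinearGroup.SL2Z_generators, Subgroup.closure_le]
  rintro g (rfl | hg)
  · exact Subgroup.subset_closure (by simp)
  · rw [Set.mem_singleton_iff] at hg
    subst hg
    have h1 : (S : SL(2, ℤ)) ∈ Subgroup.closure ({S, S * T} : Set SL(2, ℤ)) :=
      Subgroup.subset_closure (by simp)
    have h2 : (S * T : SL(2, ℤ)) ∈ Subgroup.closure ({S, S * T} : Set SL(2, ℤ)) :=
      Subgroup.subset_closure (by simp)
    have := Subgroup.mul_mem _ (Subgroup.inv_mem _ h1) h2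
    simpa using this

theorem neg_one_mem_Gamma0 (N : ℕ) : (-1 : SL(2, ℤ)) ∈ Gamma0 N := by
  rw [Gamma0_mem]
  simp

theorem hom_finrank_bound (N : ℕ) [NeZero N] :
    FiniteDimensional ℂ (Additive (Gamma0 N) →+ ℂ) ∧
      6 * finrank ℂ (Additive (Gamma0 N) →+ ℂ) +
          3 * Nat.card (MulAction.fixedBy (SL(2, ℤ) ⧸ Gamma0 N) S) +
          4 * Nat.card (MulAction.fixedBy (SL(2, ℤ) ⧸ Gamma0 N) (S * T)) ≤
        Nat.card (SL(2, ℤ) ⧸ Gamma0 N) + 6 := by
  classical
  have : (Gamma0 N).FiniteIndex := inferInstance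
  have : Finite (SL(2, ℤ) ⧸ Gamma0 N) := Subgroup.finite_quotient_of_finiteIndex
  have : Fintype (SL(2, ℤ) ⧸ Gamma0 N) := Fintype.ofFinite _
  exact hom_bound_generic (Gamma0 N) (-1) S (S * T) (neg_one_mem_Gamma0 N)
    (fun g => by rw [mul_neg, neg_mul, mul_one, one_mul]) (by rw [neg_mul_neg, one_mul])
    sl2_S_mul_S sl2_ST_cube sl2_closure_S_ST

end sl2

end

end Fermat.Agent.S21
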