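import Mathlib
import Fermat.Prelude.Def_ModularCurve_PeriodMap
import Fermat.Prelude.Def_ModularCurve_GenusNumerics
import Fermat.Agent.S21.HomBound
import Fermat.Agent.S20.Psi
import Fermat.Agent.S20.FixPoints
import Fermat.Agent.S20.Cusps

set_option autoImplicit false
set_option linter.unusedSectionVars false

namespace Fermat.Agent.S21.PHB18

open Fermat.Agent.S21

noncomputable section

open Module

section poly

variable {V : Type*} [AddCommGroup V] [Module ℂ V]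

/-- `(1 - A) Q = n - ∑_{j<n} A^j` with `Q = ∑_{j<n} ∑_{i<j} A^i`. -/
theorem one_sub_mul_dsum (A : V →ₗ[ℂ] V) (n : ℕ) :
    (1 - A) * (∑ j ∈ Finset.range n, ∑ i ∈ Finset.range j, A ^ i) =
      (n : V →ₗ[ℂ] V) - ∑ j ∈ Finset.range n, A ^ j := by
  rw [Finset.mul_sum]
  have h : ∀ j ∈ Finset.range n, (1 - A) * ∑ i ∈ Finset.range j, A ^ i = 1 - A ^ j :=
    fun j _ => mul_neg_geom_sum A j
  rw [Finset.sum_congr rfl h, Finset.sum_sub_distrib]
  simp

/-- if the `n`-fold orbit sum of `w` vanishes, `w` is in the range of `1 - A`. -/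
theorem eq_one_sub_apply_of_sum_eq_zero (A : V →ₗ[ℂ] V) (n : ℕ) (hn : 0 < n) (w : V)
    (hw : (∑ j ∈ Finset.range n, A ^ j) w = 0) :
    w = (1 - A) (((n : ℂ)⁻¹ • ∑ j ∈ Finset.range n, ∑ i ∈ Finset.range j, A ^ i) w) := by
  have hn' : (n : ℂ) ≠ 0 := Nat.cast_ne_zero.mpr hn.ne'
  rw [LinearMap.smul_apply, map_smul, ← Module.End.mul_apply, one_sub_mul_dsum,
    LinearMap.sub_apply, hw, sub_zero]
  have : ((n : V →ₗ[ℂ] V)) w = (n : ℂ) • w := by
    simp [Nat.cast_smul_eq_nsmul]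
  rw [this, smul_smul, inv_mul_cancel₀ hn', one_smul]

end poly

section cocpow

variable {G : Type*} [Group G] {Γ : Subgroup G}

theorem coc_pow_sum (ψ : Additive Γ →+ ℂ) (v : G ⧸ Γ → ℂ) (t : G) (n : ℕ) (x : G ⧸ Γ) :
    coc ψ v (t ^ n) x = ∑ j ∈ Finset.range n, coc ψ v t ((t ^ j)⁻¹ • x) := by
  induction n with
  | zero => simp [coc_one]
  | succ n ih =>
    rw [pow_succ, coc_mul, ih, Finset.sum_range_succ]

theorem opA_pow {X : Type*} [MulAction G X] (t : G) (j : ℕ) :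
    (opA t : (X → ℂ) →ₗ[ℂ] (X → ℂ)) ^ j = opA (t ^ j) := by
  induction j with
  | zero =>
    apply LinearMap.ext; intro w; funext x
    simp
  | succ j ih =>
    rw [pow_succ, ih, pow_succ, ← opA_mul]
    rfl

theorem sum_opA_pow_apply {X : Type*} [MulAction G X] (t : G) (n : ℕ) (w : X → ℂ) (x : X) :
    ((∑ j ∈ Finset.range n, (opA t : (X → ℂ) →ₗ[ℂ] (X → ℂ)) ^ j) w) x =
      ∑ j ∈ Finset.range n, w ((t ^ j)⁻¹ • x) := by
  rw [LinearMap.sum_apply, Finset.sum_apply]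
  refine Finset.sum_congr rfl fun j _ => ?_
  rw [opA_pow, opA_apply]

end cocpow

section aug

variable {G : Type*} [Group G] {X : Type*} [MulAction G X] [Fintype X] [DecidableEq X]

/-- a submodule containing all `w - g w` for `g` in a generating set contains all `w - g w`. -/
theorem sub_opA_mem_of_closure (J : Submodule ℂ (X → ℂ)) (T : Set G)
    (hT : Subgroup.closure T = ⊤)
    (h : ∀ s ∈ T, ∀ w : X → ℂ, w - opA s w ∈ J) (g : G) : ∀ w : X → ℂ, w - opA g w ∈ J := by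
  have hg : g ∈ Subgroup.closure T := by rw [hT]; trivial
  induction hg using Subgroup.closure_induction with
  | mem s hs => exact h s hs
  | one =>
    intro w
    have : (opA (1 : G) : (X → ℂ) →ₗ[ℂ] (X → ℂ)) w = w := by
      funext x; simp
    rw [this, sub_self]; exact J.zero_mem
  | mul a b _ _ ha hb =>
    intro w
    have e : w - opA (a * b) w = (w - opA a w) + ((w - opA b w) - ((w - opA b w) - opA a (w - opA b w))) := by
      rw [← opA_mul]
      simp only [LinearMap.comp_apply, map_sub]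
      abel
    rw [e]
    exact J.add_mem (ha w) (J.sub_mem (hb w) (ha _))
  | inv a _ ha =>
    intro w
    have e : w - opA a⁻¹ w = -((opA a⁻¹ w) - opA a (opA a⁻¹ w)) := by
      have : opA a (opA a⁻¹ w) = w := by
        funext x; simp
      rw [this]; abel
    rw [e]
    exact J.neg_mem (ha _)

theorem mem_of_sum_eq_zero [MulAction.IsPretransitive G X] (J : Submodule ℂ (X → ℂ))
    (h : ∀ (g : G) (w : X → ℂ), w - opA g w ∈ J) (x0 : X) (w : X → ℂ)
    (hw : ∑ x, w x = 0) : w ∈ J := by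
  have hsingle : ∀ x : X, (Pi.single x0 (1 : ℂ) : X → ℂ) - Pi.single x 1 ∈ J := by
    intro x
    obtain ⟨g, hg⟩ := MulAction.exists_smul_eq G x0 x
    have e : opA g (Pi.single x0 (1 : ℂ) : X → ℂ) = Pi.single x 1 := by
      funext y
      rw [opA_apply]
      by_cases hy : y = x
      · subst hy
        rw [← hg, inv_smul_smul]; simp
      · rw [Pi.single_eq_of_ne hy, Pi.single_eq_of_ne]
        intro hc
        apply hy
        rw [← hg, ← hc, smul_inv_smul]
    have := h g (Pi.single x0 (1 : ℂ))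
    rwa [e] at this
  have hdecomp : w = -∑ x, w x • ((Pi.single x0 (1 : ℂ) : X → ℂ) - Pi.single x 1) := by
    funext y
    simp only [Pi.neg_apply, Finset.sum_apply, Pi.smul_apply, Pi.sub_apply, smul_eq_mul,
      mul_sub, Finset.sum_sub_distrib]
    rw [← Finset.sum_mul, hw, zero_mul, zero_sub, neg_neg]
    simp [Pi.single_apply]
  rw [hdecomp]
  exact J.neg_mem (J.sum_mem fun x _ => J.smul_mem _ (hsingle x))

theorem card_le_finrank_add_one (J : Submodule ℂ (X → ℂ))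
    (h : ∀ w : X → ℂ, ∑ x, w x = 0 → w ∈ J) : Fintype.card X ≤ finrank ℂ J + 1 := by
  set σ : (X → ℂ) →ₗ[ℂ] ℂ := ∑ x, LinearMap.proj x with hσ
  have hker : LinearMap.ker σ ≤ J := by
    intro w hw
    apply h
    rw [LinearMap.mem_ker, hσ, LinearMap.sum_apply] at hw
    simpa using hw
  have h1 := LinearMap.finrank_range_add_finrank_ker σ
  rw [Module.finrank_fintype_fun_eq_card] at h1
  have h2 : finrank ℂ (LinearMap.range σ) ≤ 1 := by
    have := Submodule.finrank_le (LinearMap.range σ)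
    rwa [Module.finrank_self] at this
  have h3 := Submodule.finrank_mono hker
  omega

end aug

section orbits

variable {G : Type*} [Group G] {X : Type*} [MulAction G X] [Fintype X] [DecidableEq X]

theorem card_orbits_le_finrank (t : G) :
    Nat.card (MulAction.orbitRel.Quotient (Subgroup.zpowers t) X) ≤
      finrank ℂ (LinearMap.ker (LinearMap.id - opA t : (X → ℂ) →ₗ[ℂ] (X → ℂ))) := by
  classical
  set Ω := MulAction.orbitRel.Quotient (Subgroup.zpowers t) X with hΩ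
  have : Finite Ω := Quotient.finite _
  have : Fintype Ω := Fintype.ofFinite _
  let mk : X → Ω := Quotient.mk''
  have hmk : Function.Surjective mk := Quotient.mk''_surjective
  set L : (Ω → ℂ) →ₗ[ℂ] (X → ℂ) := LinearMap.funLeft ℂ ℂ mk with hL
  have hLinj : Function.Injective L := LinearMap.funLeft_injective_of_surjective ℂ ℂ mk hmk
  have hmem : ∀ f, L f ∈ LinearMap.ker (LinearMap.id - opA t : (X → ℂ) →ₗ[ℂ] (X → ℂ)) := by
    intro f
    rw [LinearMap.mem_ker]
    funext x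
    simp only [LinearMap.sub_apply, LinearMap.id_apply, Pi.sub_apply, opA_apply, Pi.zero_apply,
      hL, LinearMap.funLeft_apply]
    have : mk (t⁻¹ • x) = mk x := by
      apply Quotient.sound
      show t⁻¹ • x ∈ MulAction.orbit (Subgroup.zpowers t) x
      exact ⟨⟨t⁻¹, Subgroup.inv_mem _ (Subgroup.mem_zpowers t)⟩, rfl⟩
    rw [this, sub_self]
  have hinj : Function.Injective (LinearMap.codRestrict _ L hmem) := by
    intro a b hab
    apply hLinj
    have := congrArg Subtype.val hab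
    simpa using this
  have h := LinearMap.finrank_le_finrank_of_injective hinj
  rw [Module.finrank_fintype_fun_eq_card] at h
  rw [Nat.card_eq_fintype_card]
  exact h

end orbits

section main

variable {G : Type*} [Group G] (Γ : Subgroup G) [DecidableEq (G ⧸ Γ)] [Fintype (G ⧸ Γ)]

theorem par_bound_generic (z s u : G) (hzΓ : z ∈ Γ) (hzc : ∀ g, g * z = z * g)
    (hz2 : z * z = 1) (hs : s * s = z) (hu : u * u * u = z)
    (hgen : Subgroup.closure ({s, u} : Set G) = ⊤)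
    (P : Submodule ℂ (Additive Γ →+ ℂ))
    (hP : ∀ ψ ∈ P, ∀ (m : ℕ) (g : G) (h : g⁻¹ * ((s⁻¹ * u) ^ m * g) ∈ Γ),
      ψ (Additive.ofMul (⟨_, h⟩ : Γ)) = 0) :
    6 * finrank ℂ P + 3 * Nat.card (MulAction.fixedBy (G ⧸ Γ) s) +
        4 * Nat.card (MulAction.fixedBy (G ⧸ Γ) u) +
        6 * finrank ℂ (LinearMap.ker
          (LinearMap.id - opA (s⁻¹ * u) : (G ⧸ Γ → ℂ) →ₗ[ℂ] (G ⧸ Γ → ℂ)))
      ≤ Nat.card (G ⧸ Γ) + 12 := by
  classical
  obtain ⟨hfd, -⟩ := hom_bound_generic Γ z s u hzΓ hzc hz2 hs hu hgen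
  set t : G := s⁻¹ * u with ht
  have hzinv : z⁻¹ = z := by rw [inv_eq_iff_mul_eq_one]; exact hz2
  have hztriv : ∀ x : G ⧸ Γ, z⁻¹ • x = x := fun x => by
    rw [hzinv]; exact central_smul Γ hzΓ hzc x
  have hA2 : (opA s : (G ⧸ Γ → ℂ) →ₗ[ℂ] (G ⧸ Γ → ℂ)) ∘ₗ opA s = LinearMap.id := by
    rw [opA_mul, hs]
    apply LinearMap.ext; intro w; funext x
    simp [hztriv]
  have hB3 : (opA u : (G ⧸ Γ → ℂ) →ₗ[ℂ] (G ⧸ Γ → ℂ)) ∘ₗ opA u ∘ₗ opA u = LinearMap.id := by
    rw [opA_mul, opA_mul, ← mul_assoc, hu]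
    apply LinearMap.ext; intro w; funext x
    simp [hztriv]
  set K2 := LinearMap.ker (LinearMap.id + opA s : (G ⧸ Γ → ℂ) →ₗ[ℂ] (G ⧸ Γ → ℂ)) with hK2
  set K3 := LinearMap.ker
    (LinearMap.id + opA u + opA u ∘ₗ opA u : (G ⧸ Γ → ℂ) →ₗ[ℂ] (G ⧸ Γ → ℂ)) with hK3
  set Kt := LinearMap.ker
    (LinearMap.id - opA t : (G ⧸ Γ → ℂ) →ₗ[ℂ] (G ⧸ Γ → ℂ)) with hKt
  have hm2 : ∀ p, thetaMap Γ s p ∈ K2 := by
    intro p
    rw [hK2, LinearMap.mem_ker]
    funext x
    simp only [LinearMap.add_apply, LinearMap.id_apply, Pi.add_apply, opA_apply, thetaMap_apply,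
      Pi.zero_apply]
    rw [← coc_mul, hs]
    exact coc_central Γ hzΓ hzc hz2 _ _ _
  have hm3 : ∀ p, thetaMap Γ u p ∈ K3 := by
    intro p
    rw [hK3, LinearMap.mem_ker]
    funext x
    simp only [LinearMap.add_apply, LinearMap.id_apply, Pi.add_apply, opA_apply, thetaMap_apply,
      Pi.zero_apply, LinearMap.comp_apply]
    have h1 := coc_mul p.1 (ext0 Γ p.2) (u * u) u x
    have h2 := coc_mul p.1 (ext0 Γ p.2) u u x
    rw [hu, coc_central Γ hzΓ hzc hz2, mul_inv_rev, mul_smul] at h1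
    rw [h2] at h1
    linear_combination -h1
  set Θ : ((Additive Γ →+ ℂ) × ({x : G ⧸ Γ // x ≠ QuotientGroup.mk 1} → ℂ)) →ₗ[ℂ] (K2 × K3) :=
    LinearMap.prod (LinearMap.codRestrict K2 (thetaMap Γ s) hm2)
      (LinearMap.codRestrict K3 (thetaMap Γ u) hm3) with hΘ
  have hinj : Function.Injective Θ := by
    rw [← LinearMap.ker_eq_bot, LinearMap.ker_eq_bot']
    intro p hp
    have hp2 : thetaMap Γ s p = 0 := by
      have := congrArg (fun q : K2 × K3 => (q.1 : G ⧸ Γ → ℂ)) hp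
      simpa [hΘ] using this
    have hp3 : thetaMap Γ u p = 0 := by
      have := congrArg (fun q : K2 × K3 => (q.2 : G ⧸ Γ → ℂ)) hp
      simpa [hΘ] using this
    have key := eq_zero_of_coc_eq_zero p.1 (ext0 Γ p.2) {s, u} hgen (by
      intro t ht x
      rcases ht with rfl | ht
      · exact congrFun hp2 x
      · rw [Set.mem_singleton_iff] at ht
        subst ht
        exact congrFun hp3 x)
    obtain ⟨h1, h2⟩ := key
    apply Prod.ext
    · exact h1
    · funext x'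
      have := h2 x'.1
      rw [ext0_base] at this
      simpa [ext0, x'.2] using this
  -- the period of `t`
  set n : ℕ := orderOf (MulAction.toPermHom G (G ⧸ Γ) t) with hn
  have hnpos : 0 < n := orderOf_pos _
  have htn : ∀ x : G ⧸ Γ, (t ^ n)⁻¹ • x = x := by
    intro x
    have h1 : MulAction.toPermHom G (G ⧸ Γ) (t ^ n) = 1 := by
      rw [map_pow, hn, pow_orderOf_eq_one]
    have h2 : (t ^ n) • x = x := by
      have := congrArg (fun σ : Equiv.Perm (G ⧸ Γ) => σ x) h1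
      simpa using this
    rw [inv_smul_eq_iff, h2]
  set At : (G ⧸ Γ → ℂ) →ₗ[ℂ] (G ⧸ Γ → ℂ) := opA t with hAt
  set Qn : (G ⧸ Γ → ℂ) →ₗ[ℂ] (G ⧸ Γ → ℂ) :=
    (n : ℂ)⁻¹ • ∑ j ∈ Finset.range n, ∑ i ∈ Finset.range j, At ^ i with hQn
  -- inclusion of the parabolic pairs
  set ιP : (P × ({x : G ⧸ Γ // x ≠ QuotientGroup.mk 1} → ℂ)) →ₗ[ℂ]
      ((Additive Γ →+ ℂ) × ({x : G ⧸ Γ // x ≠ QuotientGroup.mk 1} → ℂ)) :=
    LinearMap.prodMap P.subtype LinearMap.id with hιP
  have hιinj : Function.Injective ιP := by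
    intro a b hab
    have h1 := congrArg Prod.fst hab
    have h2 := congrArg Prod.snd hab
    simp only [hιP, LinearMap.prodMap_apply, LinearMap.id_apply, Submodule.subtype_apply] at h1 h2
    exact Prod.ext (Subtype.ext h1) h2
  -- orbit sums vanish on parabolic pairs
  have hsum : ∀ p : P × ({x : G ⧸ Γ // x ≠ QuotientGroup.mk 1} → ℂ),
      (∑ j ∈ Finset.range n, At ^ j) (thetaMap Γ t (ιP p)) = 0 := by
    intro p
    funext x
    rw [hAt, sum_opA_pow_apply, Pi.zero_apply]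
    simp only [thetaMap_apply]
    rw [← coc_pow_sum]
    unfold coc
    rw [htn x, add_sub_cancel_right]
    have hmem : (Quotient.out x)⁻¹ * (t ^ n * Quotient.out x) ∈ Γ := by
      have := (shapEl Γ (t ^ n) x).2
      simp only [shapEl, htn x] at this
      exact this
    have hsh : shapEl Γ (t ^ n) x = ⟨_, hmem⟩ := by
      apply Subtype.ext
      simp only [shapEl, htn x]
    rw [hsh]
    exact hP _ (by simp [hιP]) n (Quotient.out x) hmem
  have hsolve : ∀ p : P × ({x : G ⧸ Γ // x ≠ QuotientGroup.mk 1} → ℂ),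
      thetaMap Γ t (ιP p) = (1 - At) (Qn (thetaMap Γ t (ιP p))) :=
    fun p => eq_one_sub_apply_of_sum_eq_zero At n hnpos _ (hsum p)
  -- relation between the cocycle values at `s`, `u`, `t`
  have hrel : ∀ q, thetaMap Γ t q = opA s⁻¹ (thetaMap Γ u q - thetaMap Γ s q) := by
    intro q
    funext x
    simp only [thetaMap_apply, opA_apply, Pi.sub_apply, inv_inv]
    have h1 := coc_mul q.1 (ext0 Γ q.2) s⁻¹ u x
    have h2 := coc_mul q.1 (ext0 Γ q.2) s⁻¹ s x
    rw [inv_mul_cancel, coc_one, inv_inv] at h2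
    rw [inv_inv] at h1
    rw [ht, h1]
    linear_combination -h2
  -- the big map
  set F : ((K2 × K3) × (G ⧸ Γ → ℂ)) →ₗ[ℂ] (G ⧸ Γ → ℂ) :=
    (opA s⁻¹ ∘ₗ (K3.subtype ∘ₗ LinearMap.snd ℂ K2 K3 - K2.subtype ∘ₗ LinearMap.fst ℂ K2 K3)) ∘ₗ
        LinearMap.fst ℂ (K2 × K3) (G ⧸ Γ → ℂ) -
      (1 - At) ∘ₗ LinearMap.snd ℂ (K2 × K3) (G ⧸ Γ → ℂ) with hF
  have hFapply : ∀ a : K2, ∀ b : K3, ∀ w : G ⧸ Γ → ℂ,
      F ((a, b), w) = opA s⁻¹ ((b : G ⧸ Γ → ℂ) - (a : G ⧸ Γ → ℂ)) - (w - At w) := by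
    intro a b w
    simp [hF]
  set Λ : ((P × ({x : G ⧸ Γ // x ≠ QuotientGroup.mk 1} → ℂ)) × Kt) →ₗ[ℂ]
      ((K2 × K3) × (G ⧸ Γ → ℂ)) :=
    LinearMap.prod ((Θ ∘ₗ ιP) ∘ₗ LinearMap.fst ℂ _ _)
      ((Qn ∘ₗ thetaMap Γ t ∘ₗ ιP) ∘ₗ LinearMap.fst ℂ _ _ + Kt.subtype ∘ₗ LinearMap.snd ℂ _ _)
    with hΛ
  have hΛinj : Function.Injective Λ := by
    rw [← LinearMap.ker_eq_bot, LinearMap.ker_eq_bot']
    rintro ⟨p, k⟩ hpk
    have h1 := congrArg Prod.fst hpk
    have h2 := congrArg Prod.snd hpk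
    simp only [hΛ, LinearMap.prod_apply, Function.prod, LinearMap.comp_apply, LinearMap.fst_apply,
      LinearMap.snd_apply, LinearMap.add_apply, Submodule.subtype_apply, Prod.fst_zero,
      Prod.snd_zero] at h1 h2
    have hp0 : p = 0 := by
      apply hιinj
      apply hinj
      rw [h1, map_zero, map_zero]
    subst hp0
    simp only [map_zero, zero_add] at h2
    have hk0 : k = 0 := Subtype.ext h2
    rw [hk0]
    rfl
  have hΛker : ∀ d, Λ d ∈ LinearMap.ker F := by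
    rintro ⟨p, k⟩
    rw [LinearMap.mem_ker]
    have hk : (k : G ⧸ Γ → ℂ) - At k = 0 := by
      have h' : ((LinearMap.id : (G ⧸ Γ → ℂ) →ₗ[ℂ] (G ⧸ Γ → ℂ)) - At) (k : G ⧸ Γ → ℂ) = 0 := k.2
      simpa only [LinearMap.sub_apply, LinearMap.id_apply] using h'
    have e : Λ (p, k) = ((⟨thetaMap Γ s (ιP p), hm2 _⟩, ⟨thetaMap Γ u (ιP p), hm3 _⟩),
        Qn (thetaMap Γ t (ιP p)) + k) := by
      simp [hΛ, hΘ]
      exact ⟨rfl, rfl⟩
    rw [e, hFapply]
    simp only [map_add]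
    rw [← hrel]
    have h3 := hsolve p
    simp only [LinearMap.sub_apply, Module.End.one_apply] at h3
    have : Qn (thetaMap Γ t (ιP p)) + (k : G ⧸ Γ → ℂ) - (At (Qn (thetaMap Γ t (ιP p))) + At k)
        = (Qn (thetaMap Γ t (ιP p)) - At (Qn (thetaMap Γ t (ιP p)))) + (k - At k) := by abel
    rw [this, hk, add_zero, ← h3, sub_self]
  -- the range of `F` contains the augmentation hyperplane
  have hgen' : Subgroup.closure ({s⁻¹, t} : Set G) = ⊤ := by
    rw [eq_top_iff, ← hgen, Subgroup.closure_le]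
    have h1 : s⁻¹ ∈ Subgroup.closure ({s⁻¹, t} : Set G) := Subgroup.subset_closure (by simp)
    have h2 : t ∈ Subgroup.closure ({s⁻¹, t} : Set G) := Subgroup.subset_closure (by simp)
    rintro g (rfl | hg)
    · have := Subgroup.inv_mem _ h1
      simpa using this
    · rw [Set.mem_singleton_iff] at hg
      subst hg
      have := Subgroup.mul_mem _ (Subgroup.inv_mem _ h1) h2
      simpa [ht] using this
  have hJ : ∀ g : G, ∀ w : G ⧸ Γ → ℂ, w - opA g w ∈ LinearMap.range F := by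
    apply sub_opA_mem_of_closure (LinearMap.range F) {s⁻¹, t} hgen'
    intro g hg w
    rcases hg with rfl | hg
    · have ha : w - opA s w ∈ K2 := by
        rw [hK2, LinearMap.mem_ker]
        have := congrArg (fun f : (G ⧸ Γ → ℂ) →ₗ[ℂ] (G ⧸ Γ → ℂ) => f w) hA2
        simp only [LinearMap.comp_apply, LinearMap.id_apply] at this
        simp only [LinearMap.add_apply, LinearMap.id_apply, map_sub, this]
        abel
      refine ⟨((⟨_, ha⟩, 0), 0), ?_⟩
      rw [hFapply]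
      have h1 : opA s⁻¹ (opA s w) = w := by
        funext x; simp
      simp only [ZeroMemClass.coe_zero, zero_sub, map_neg, map_sub, h1, map_zero, sub_zero]
      abel
    · rw [Set.mem_singleton_iff] at hg
      subst hg
      refine ⟨((0, 0), -w), ?_⟩
      rw [hFapply]
      simp only [ZeroMemClass.coe_zero, sub_self, map_zero, map_neg, zero_sub]
      abel
  have hrange : Fintype.card (G ⧸ Γ) ≤ finrank ℂ (LinearMap.range F) + 1 :=
    card_le_finrank_add_one _ (fun w hw =>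
      mem_of_sum_eq_zero (G := G) _ hJ (QuotientGroup.mk 1) w hw)
  -- dimension count
  have hrn := LinearMap.finrank_range_add_finrank_ker F
  rw [Module.finrank_prod, Module.finrank_prod, Module.finrank_fintype_fun_eq_card] at hrn
  have hdom : finrank ℂ ((P × ({x : G ⧸ Γ // x ≠ QuotientGroup.mk 1} → ℂ)) × Kt) ≤
      finrank ℂ (LinearMap.ker F) :=
    LinearMap.finrank_le_finrank_of_injective
      (f := LinearMap.codRestrict (LinearMap.ker F) Λ hΛker) (by
        intro a b hab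
        apply hΛinj
        have := congrArg Subtype.val hab
        simpa using this)
  rw [Module.finrank_prod, Module.finrank_prod, Module.finrank_fintype_fun_eq_card,
    Fintype.card_subtype_compl, Fintype.card_subtype_eq] at hdom
  have hd2 := finrank_ker_one_add_of_sq (opA s : (G ⧸ Γ → ℂ) →ₗ[ℂ] (G ⧸ Γ → ℂ)) hA2
  have hd3 := finrank_ker_one_add_add_of_cube (opA u : (G ⧸ Γ → ℂ) →ₗ[ℂ] (G ⧸ Γ → ℂ)) hB3
  rw [Module.finrank_fintype_fun_eq_card, trace_opA] at hd2
  have htr2 : LinearMap.trace ℂ (G ⧸ Γ → ℂ) (opA u ∘ₗ opA u) =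
      (Nat.card (MulAction.fixedBy (G ⧸ Γ) (u * u)) : ℂ) := by
    rw [opA_mul, trace_opA]
  rw [Module.finrank_fintype_fun_eq_card, trace_opA, htr2] at hd3
  have hfix : Nat.card (MulAction.fixedBy (G ⧸ Γ) (u * u)) =
      Nat.card (MulAction.fixedBy (G ⧸ Γ) u) := by
    apply Nat.card_congr
    refine Equiv.subtypeEquivRight fun x => ?_
    simp only [MulAction.mem_fixedBy]
    constructor
    · intro hx
      have h3 : (u * u * u) • x = x := by
        rw [hu, ← hzinv]; exact hztriv x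
      calc u • x = u • ((u * u) • x) := by rw [hx]
        _ = (u * u * u) • x := by rw [← mul_smul, ← mul_assoc]
        _ = x := h3
    · intro hx
      rw [mul_smul, hx, hx]
  rw [hfix] at hd3
  have hcard : Nat.card (G ⧸ Γ) = Fintype.card (G ⧸ Γ) := Nat.card_eq_fintype_card
  have e2 : 2 * finrank ℂ K2 + Nat.card (MulAction.fixedBy (G ⧸ Γ) s) = Fintype.card (G ⧸ Γ) := by
    have : ((2 * finrank ℂ K2 + Nat.card (MulAction.fixedBy (G ⧸ Γ) s) : ℕ) : ℂ) =
        ((Fintype.card (G ⧸ Γ) : ℕ) : ℂ) := by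
      push_cast; rw [hd2]; ring
    exact_mod_cast this
  have e3 : 3 * finrank ℂ K3 + 2 * Nat.card (MulAction.fixedBy (G ⧸ Γ) u) =
      2 * Fintype.card (G ⧸ Γ) := by
    have : ((3 * finrank ℂ K3 + 2 * Nat.card (MulAction.fixedBy (G ⧸ Γ) u) : ℕ) : ℂ) =
        ((2 * Fintype.card (G ⧸ Γ) : ℕ) : ℂ) := by
      push_cast; rw [hd3]; ring
    exact_mod_cast this
  have hpos : 0 < Fintype.card (G ⧸ Γ) := Fintype.card_pos_iff.mpr ⟨QuotientGroup.mk 1⟩
  rw [hcard]
  omega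

end main

section sl2

open CongruenceSubgroup ModularGroup ModularCurve ModularCurve.Period
open scoped MatrixGroups

theorem trace_conj_T_pow (g : SL(2, ℤ)) (m : ℕ) :
    ((g⁻¹ * (T ^ m * g) : SL(2, ℤ)) : Matrix (Fin 2) (Fin 2) ℤ).trace = 2 := by
  have h1 : ((g⁻¹ * (T ^ m * g) : SL(2, ℤ)) : Matrix (Fin 2) (Fin 2) ℤ) =
      (g⁻¹ : SL(2, ℤ)).1 * ((T ^ m : SL(2, ℤ)).1 * g.1) := by
    simp only [Matrix.SpecialLinearGroup.coe_mul]
  rw [h1, Matrix.trace_mul_comm, Matrix.mul_assoc]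
  have h2 : g.1 * (g⁻¹ : SL(2, ℤ)).1 = 1 := by
    rw [← Matrix.SpecialLinearGroup.coe_mul, mul_inv_cancel, Matrix.SpecialLinearGroup.coe_one]
  rw [h2, Matrix.mul_one]
  have h3 : (T ^ m : SL(2, ℤ)).1 = !![1, (m : ℤ); 0, 1] := by
    have := coe_T_zpow (m : ℤ)
    rwa [zpow_natCast] at this
  rw [h3, Matrix.trace_fin_two_of]
  norm_num

theorem s_inv_mul_st : (S⁻¹ * (S * T) : SL(2, ℤ)) = T := by group

theorem parHom_bound (N : ℕ) [NeZero N] :
    FiniteDimensional ℂ (parabolicHoms ℂ (Gamma0 N) ℂ) ∧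
      6 * finrank ℂ (parabolicHoms ℂ (Gamma0 N) ℂ) + 3 * nuTwo N + 4 * nuThree N +
          6 * cuspCount N ≤ dedekindPsi N + 12 := by
  classical
  have : (Gamma0 N).FiniteIndex := inferInstance
  have : Finite (SL(2, ℤ) ⧸ Gamma0 N) := Subgroup.finite_quotient_of_finiteIndex
  have : Fintype (SL(2, ℤ) ⧸ Gamma0 N) := Fintype.ofFinite _
  have hfd : FiniteDimensional ℂ (Additive (Gamma0 N) →+ ℂ) := (hom_finrank_bound N).1
  refine ⟨inferInstance, ?_⟩
  have key := par_bound_generic (Gamma0 N) (-1) S (S * T) (neg_one_mem_Gamma0 N)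
    (fun g => by rw [mul_neg, neg_mul, mul_one, one_mul]) (by rw [neg_mul_neg, one_mul])
    sl2_S_mul_S sl2_ST_cube sl2_closure_S_ST (parabolicHoms ℂ (Gamma0 N) ℂ) (by
      intro ψ hψ m g h
      rw [mem_parabolicHoms_iff] at hψ
      apply hψ
      have := trace_conj_T_pow g m
      rw [← s_inv_mul_st] at this
      show ((g⁻¹ * ((S⁻¹ * (S * T)) ^ m * g) : SL(2, ℤ)) : Matrix (Fin 2) (Fin 2) ℤ).trace ^ 2 = 4
      rw [this]; norm_num)
  have horb := card_orbits_le_finrank (X := SL(2, ℤ) ⧸ Gamma0 N) (S⁻¹ * (S * T) : SL(2, ℤ))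
  rw [s_inv_mul_st] at horb key
  have horb' : cuspCount N ≤ finrank ℂ (LinearMap.ker (LinearMap.id - opA (T : SL(2, ℤ)) :
      ((SL(2, ℤ) ⧸ Gamma0 N) → ℂ) →ₗ[ℂ] ((SL(2, ℤ) ⧸ Gamma0 N) → ℂ))) := by
    rw [← Fermat.Agent.S20.card_orbits_T N]
    exact horb
  rw [Fermat.Agent.S20.card_fixedBy_S, Fermat.Agent.S20.card_fixedBy_ST,
    Fermat.Agent.S20.card_quotient_Gamma0] at key
  omega

end sl2

end

end Fermat.Agent.S21.PHB18
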