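import Mathlib
import Fermat.Prelude.Def_ModularCurve_PeriodHomPair
import Fermat.Agent.S20.Defs
import Fermat.Agent.S22.DecayPrimExists

/-!
# S21 / Q3: complex conjugation on cusp forms and on periods

`f^c(z) := conj (f (-conj z)) = (f ∣[2] J) z` is again a cusp form for `Γ₀(N)`;
if `F` is the decaying equivariant primitive of `f` then `z ↦ -conj (F (-conj z))` is the one of
`f^c`, hence `ι (P f) = - conj ∘ P (f^c)` where `ι = charInvolution` and `P = periodMap N`.
-/

set_option autoImplicit false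

namespace Fermat.Agent.S21

open UpperHalfPlane CongruenceSubgroup ModularCurve ModularCurve.Period Filter Topology
open Matrix.SpecialLinearGroup Fermat.Agent.S20
open scoped MatrixGroups ModularForm Manifold ComplexConjugate

noncomputable section

/-- `J γ = (jγj) J` in `GL(2, ℝ)`. -/
theorem J_mul_mapGL (γ : SL(2, ℤ)) :
    J * (mapGL ℝ γ : GL (Fin 2) ℝ) = (mapGL ℝ (jConjSL γ) : GL (Fin 2) ℝ) * J := by
  ext i j
  fin_cases i <;> fin_cases j <;>
    simp [J, Matrix.mul_apply, Fin.sum_univ_two, jConjMat]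

theorem J_smul_smul (γ : SL(2, ℤ)) (z : ℍ) : J • (γ • z) = (jConjSL γ) • (J • z) := by
  rw [ModularGroup.sl_moeb, ModularGroup.sl_moeb, ← mul_smul, ← mul_smul]
  exact congrArg (· • z) (J_mul_mapGL γ)

theorem J_smul_J_smul (z : ℍ) : J • (J • z) = z := by
  rw [← mul_smul, ← sq, J_sq, one_smul]

theorem im_J_smul (z : ℍ) : (J • z).im = z.im := by
  have h : ((J • z : ℍ) : ℂ).im = (z : ℂ).im := by
    rw [coe_J_smul]
    simp
  exact h

theorem tendsto_J_smul_atImInfty : Tendsto (fun z : ℍ => J • z) atImInfty atImInfty := by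
  rw [atImInfty, tendsto_comap_iff]
  have : (im ∘ fun z : ℍ => J • z) = im := funext fun z => im_J_smul z
  rw [this]
  exact tendsto_comap

/-- slash by `J` in any weight: `z ↦ conj (f (J • z))`. -/
theorem slash_J_apply (f : ℍ → ℂ) (k : ℤ) (z : ℍ) : (f ∣[k] J) z = conj (f (J • z)) := by
  simp [ModularForm.slash_apply]

theorem slash_J_slash (f : ℍ → ℂ) (k : ℤ) (γ : SL(2, ℤ)) :
    (f ∣[k] J) ∣[k] γ = (f ∣[k] (jConjSL γ)) ∣[k] J := by
  rw [ModularForm.SL_slash, ModularForm.SL_slash, ← SlashAction.slash_mul,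
    ← SlashAction.slash_mul]
  exact congrArg (f ∣[k] ·) (J_mul_mapGL γ)

theorem slash_J_slash_J (f : ℍ → ℂ) (k : ℤ) : (f ∣[k] J) ∣[k] J = f := by
  rw [← SlashAction.slash_mul, ← sq, J_sq, SlashAction.slash_one]

theorem isCF_slash_J {N : ℕ} {k : ℤ} {f : ℍ → ℂ} (hf : IsCF N k f) : IsCF N k (f ∣[k] J) := by
  refine ⟨hf.1.slash k J, fun γ hγ => ?_, fun δ => ?_⟩
  · rw [slash_J_slash, hf.2.1 _ (jConjSL_mem_Gamma0 hγ)]
  · rw [slash_J_slash]
    exact (hf.2.2 (jConjSL δ)).slash _ (by simp [J])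

/-- The conjugate cusp form `f^c(z) = conj (f (-conj z))`. -/
def conjCF (N : ℕ) [NeZero N] (f : CuspForm (Gamma0 N) 2) : CuspForm (Gamma0 N) 2 :=
  (isCF_slash_J (isCF_coe f)).toCF

variable {N : ℕ} [NeZero N]

theorem coe_conjCF (f : CuspForm (Gamma0 N) 2) : ⇑(conjCF N f) = (⇑f ∣[(2 : ℤ)] J) := rfl

theorem conjCF_apply (f : CuspForm (Gamma0 N) 2) (z : ℍ) :
    conjCF N f z = conj (f (J • z)) := by
  rw [coe_conjCF, slash_J_apply]

theorem conjCF_conjCF (f : CuspForm (Gamma0 N) 2) : conjCF N (conjCF N f) = f := by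
  apply DFunLike.ext
  intro z
  rw [conjCF_apply, conjCF_apply, J_smul_J_smul, Complex.conj_conj]

theorem conjCF_add (f g : CuspForm (Gamma0 N) 2) :
    conjCF N (f + g) = conjCF N f + conjCF N g := by
  apply DFunLike.ext
  intro z
  simp [conjCF_apply]

theorem conjCF_zero : conjCF N (0 : CuspForm (Gamma0 N) 2) = 0 := by
  apply DFunLike.ext
  intro z
  simp [conjCF_apply]

theorem conjCF_neg (f : CuspForm (Gamma0 N) 2) : conjCF N (-f) = -conjCF N f := by
  apply DFunLike.ext
  intro z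
  simp [conjCF_apply]

theorem conjCF_sub (f g : CuspForm (Gamma0 N) 2) :
    conjCF N (f - g) = conjCF N f - conjCF N g := by
  apply DFunLike.ext
  intro z
  simp [conjCF_apply]

theorem conjCF_smul (c : ℂ) (f : CuspForm (Gamma0 N) 2) :
    conjCF N (c • f) = conj c • conjCF N f := by
  apply DFunLike.ext
  intro z
  simp [conjCF_apply]

theorem conjCF_injective : Function.Injective (conjCF N) :=
  Function.LeftInverse.injective (conjCF_conjCF (N := N))

theorem conjCF_eq_zero_iff (f : CuspForm (Gamma0 N) 2) : conjCF N f = 0 ↔ f = 0 := by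
  constructor
  · intro h
    apply conjCF_injective (N := N)
    rw [h, conjCF_zero]
  · rintro rfl
    exact conjCF_zero


/-! ## The conjugate primitive -/

/-- The conjugate primitive `z ↦ -conj (F (-conj z))`. -/
def conjPrim (F : ℍ → ℂ) : ℍ → ℂ := fun z => -conj (F (J • z))

theorem conjPrim_apply (F : ℍ → ℂ) (z : ℍ) : conjPrim F z = -conj (F (J • z)) := rfl

theorem conjPrim_smul (F : ℍ → ℂ) (γ : SL(2, ℤ)) (z : ℍ) :
    conjPrim F (γ • z) = -conj (F (jConjSL γ • (J • z))) := by
  rw [conjPrim_apply, J_smul_smul]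

theorem hasDerivAt_conjPrim {f F : ℍ → ℂ}
    (hF : ∀ τ : ℍ, HasDerivAt (F ∘ ofComplex) (f τ) ↑τ) (τ : ℍ) :
    HasDerivAt (conjPrim F ∘ ofComplex) (conj (f (J • τ))) ↑τ := by
  have h1 : HasDerivAt (F ∘ ofComplex) (f (J • τ)) (conj (-(τ : ℂ))) := by
    have := hF (J • τ)
    rw [coe_J_smul] at this
    simpa using this
  have h2 := h1.conj_conj
  rw [Complex.conj_conj] at h2
  have h3 : HasDerivAt (fun w : ℂ => -w) (-1) (τ : ℂ) := (hasDerivAt_id _).neg
  have h4 := (HasDerivAt.comp (τ : ℂ) h2 h3).neg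
  have h5 : -(conj (f (J • τ)) * -1) = conj (f (J • τ)) := by ring
  rw [h5] at h4
  refine h4.congr_of_eventuallyEq ?_
  have hopen : {w : ℂ | 0 < w.im} ∈ 𝓝 (τ : ℂ) :=
    isOpen_upperHalfPlaneSet.mem_nhds τ.im_pos
  filter_upwards [hopen] with w hw
  have hw' : 0 < w.im := hw
  simp only [Function.comp_apply, conjPrim_apply, Pi.neg_apply, J_smul,
    ofComplex_apply_of_im_pos hw', map_neg]

variable {f : CuspForm (Gamma0 N) 2} {F : ℍ → ℂ}

theorem hasEquivariantPrimitive_conjPrim (h : HasEquivariantPrimitive N f F) :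
    HasEquivariantPrimitive N (conjCF N f) (conjPrim F) := by
  obtain ⟨h1, h2, h3, h4⟩ := h
  refine ⟨fun τ => ?_, ?_, ?_, ?_⟩
  · rw [conjCF_apply]
    exact hasDerivAt_conjPrim h1 τ
  · have := (Complex.continuous_conj.tendsto 0).comp (h2.comp tendsto_J_smul_atImInfty)
    have := this.neg
    rw [map_zero, neg_zero] at this
    exact this
  · intro γ
    refine ⟨-conj (h3.period (jConjGamma0 N γ)), fun z => ?_⟩
    rw [conjPrim_smul, conjPrim_apply, ← h3.sub_eq_period (jConjGamma0 N γ) (J • z),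
      jConjGamma0_coe, map_sub]
    ring
  · intro δ
    obtain ⟨L, hL⟩ := h4 (jConjSL δ)
    refine ⟨-conj L, ?_⟩
    have := ((Complex.continuous_conj.tendsto L).comp (hL.comp tendsto_J_smul_atImInfty)).neg
    refine this.congr fun w => ?_
    simp only [Function.comp_apply, conjPrim_smul]

theorem period_conjPrim (h : HasEquivariantPrimitive N f F) (γ : Gamma0 N) :
    (hasEquivariantPrimitive_conjPrim h).2.2.1.period γ
      = -conj (h.2.2.1.period (jConjGamma0 N γ)) := by
  rw [← (hasEquivariantPrimitive_conjPrim h).2.2.1.sub_eq_period γ UpperHalfPlane.I,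
    conjPrim_smul, conjPrim_apply,
    ← h.2.2.1.sub_eq_period (jConjGamma0 N γ) (J • UpperHalfPlane.I), jConjGamma0_coe, map_sub]
  ring

omit [NeZero N] in
/-- `periodMap` may be computed with any equivariant primitive (uniqueness of the decaying
primitive). -/
theorem periodMap_eq_periodHom_of (h : HasEquivariantPrimitive N f F) :
    periodMap N f = h.2.2.1.periodHom := by
  obtain ⟨F₀, h₀, e⟩ := periodMap_def N f h
  have hFF : F₀ = F :=
    Fermat.Agent.S22.IsDecayPrim.unique ⟨h₀.1, h₀.2.1⟩ ⟨h.1, h.2.1⟩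
  subst hFF
  exact e

omit [NeZero N] in
theorem periodMap_apply_of (h : HasEquivariantPrimitive N f F) (γ : Gamma0 N) (z : ℍ) :
    periodMap N f (Additive.ofMul γ) = F ((γ : SL(2, ℤ)) • z) - F z := by
  rw [periodMap_eq_periodHom_of h, IsEquivariantPrimitive.periodHom_apply,
    h.2.2.1.sub_eq_period]

/-- `P (f^c) = - conj ∘ ι (P f)`. -/
theorem periodMap_conjCF (hf : ∃ F, HasEquivariantPrimitive N f F) (γ : Additive (Gamma0 N)) :
    periodMap N (conjCF N f) γ = -conj (charInvolution N ℂ ℂ (periodMap N f) γ) := by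
  obtain ⟨F, h⟩ := hf
  rw [charInvolution_apply, periodMap_eq_periodHom_of h,
    periodMap_eq_periodHom_of (hasEquivariantPrimitive_conjPrim h),
    IsEquivariantPrimitive.periodHom_apply, ← period_conjPrim h]
  rfl

/-- `ι (P f) = - conj ∘ P (f^c)`. -/
theorem charInvolution_periodMap (hf : ∃ F, HasEquivariantPrimitive N f F)
    (γ : Additive (Gamma0 N)) :
    charInvolution N ℂ ℂ (periodMap N f) γ = -conj (periodMap N (conjCF N f) γ) := by
  rw [periodMap_conjCF hf, map_neg, Complex.conj_conj, neg_neg]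

/-! ## `periodHomPair` in terms of `P(u) - conj ∘ P(v)` -/

/-- `periodHomPair N (f, g) = P (f + g) - conj ∘ P ((f - g)^c)`. -/
theorem periodHomPair_apply_of (hlin : ExistsPeriodMapLinear N)
    (hprim : ∀ f : CuspForm (Gamma0 N) 2, ∃ F, HasEquivariantPrimitive N f F)
    (f g : CuspForm (Gamma0 N) 2) (γ : Additive (Gamma0 N)) :
    periodHomPair N (f, g) γ
      = periodMap N (f + g) γ - conj (periodMap N (conjCF N (f - g)) γ) := by
  obtain ⟨pml, hpml, e⟩ := periodHomPair_def N hlin
  have h1 : -conj (periodMap N (conjCF N (f - g)) γ)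
      = charInvolution N ℂ ℂ (periodMap N (f - g)) γ :=
    (charInvolution_periodMap (hprim (f - g)) γ).symm
  rw [sub_eq_add_neg, h1, e, LinearMap.coprod_apply, ← hpml, ← hpml, map_add, map_sub, map_sub]
  simp only [LinearMap.comp_apply, LinearMap.add_apply, LinearMap.sub_apply, LinearMap.id_apply,
    AddMonoidHom.add_apply, AddMonoidHom.sub_apply]
  ring

/-- The change of variables `(f, g) ↦ (f + g, (f - g)^c)`. -/
def conjPair (N : ℕ) [NeZero N] (p : CuspForm (Gamma0 N) 2 × CuspForm (Gamma0 N) 2) :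
    CuspForm (Gamma0 N) 2 × CuspForm (Gamma0 N) 2 :=
  (p.1 + p.2, conjCF N (p.1 - p.2))

theorem conjPair_injective : Function.Injective (conjPair N) := by
  rintro ⟨f, g⟩ ⟨f', g'⟩ h
  have h1 : f + g = f' + g' := congrArg Prod.fst h
  have h2 : f - g = f' - g' := conjCF_injective (N := N) (congrArg Prod.snd h)
  have hf : (2 : ℂ) • f = (2 : ℂ) • f' := by
    rw [two_smul, two_smul]
    have : f + f = (f + g) + (f - g) := by abel
    rw [this, h1, h2]
    abel
  have hff : f = f' := smul_right_injective _ (two_ne_zero (α := ℂ)) hf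
  subst hff
  have hgg : g = g' := add_left_cancel h1
  rw [hgg]

theorem conjPair_surjective : Function.Surjective (conjPair N) := by
  rintro ⟨u, v⟩
  refine ⟨((1 / 2 : ℂ) • (u + conjCF N v), (1 / 2 : ℂ) • (u - conjCF N v)), ?_⟩
  have e1 : (1 / 2 : ℂ) • (u + conjCF N v) + (1 / 2 : ℂ) • (u - conjCF N v) = u := by
    rw [← smul_add, show u + conjCF N v + (u - conjCF N v) = (2 : ℂ) • u by rw [two_smul]; abel,
      smul_smul]
    norm_num
  have e2 : (1 / 2 : ℂ) • (u + conjCF N v) - (1 / 2 : ℂ) • (u - conjCF N v) = conjCF N v := by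
    rw [← smul_sub, show u + conjCF N v - (u - conjCF N v) = (2 : ℂ) • conjCF N v by
      rw [two_smul]; abel, smul_smul]
    norm_num
  show (_, _) = (u, v)
  rw [e1, e2, conjCF_conjCF]

theorem conjPair_bijective : Function.Bijective (conjPair N) :=
  ⟨conjPair_injective, conjPair_surjective⟩

/-- `periodHomPair N p = P u - conj ∘ P v` where `(u, v) = conjPair N p`. -/
theorem periodHomPair_apply_conjPair (hlin : ExistsPeriodMapLinear N)
    (hprim : ∀ f : CuspForm (Gamma0 N) 2, ∃ F, HasEquivariantPrimitive N f F)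
    (p : CuspForm (Gamma0 N) 2 × CuspForm (Gamma0 N) 2) (γ : Additive (Gamma0 N)) :
    periodHomPair N p γ
      = periodMap N (conjPair N p).1 γ - conj (periodMap N (conjPair N p).2 γ) :=
  periodHomPair_apply_of hlin hprim p.1 p.2 γ

/-- Every `P u - conj ∘ P v` is a value of `periodHomPair`. -/
theorem exists_periodHomPair_eq (hlin : ExistsPeriodMapLinear N)
    (hprim : ∀ f : CuspForm (Gamma0 N) 2, ∃ F, HasEquivariantPrimitive N f F)
    (u v : CuspForm (Gamma0 N) 2) :
    ∃ p, ∀ γ : Additive (Gamma0 N),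
      periodHomPair N p γ = periodMap N u γ - conj (periodMap N v γ) := by
  obtain ⟨p, hp⟩ := conjPair_surjective (N := N) (u, v)
  refine ⟨p, fun γ => ?_⟩
  rw [periodHomPair_apply_conjPair hlin hprim, hp]

/-- Injectivity of `periodHomPair` reduces to: `P u = conj ∘ P v ⇒ u = 0 ∧ v = 0`. -/
theorem periodHomPair_injective_of (hlin : ExistsPeriodMapLinear N)
    (hprim : ∀ f : CuspForm (Gamma0 N) 2, ∃ F, HasEquivariantPrimitive N f F)
    (hreal : ∀ u v : CuspForm (Gamma0 N) 2,
      (∀ γ : Additive (Gamma0 N), periodMap N u γ = conj (periodMap N v γ)) → u = 0 ∧ v = 0) :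
    Function.Injective (periodHomPair N) := by
  rw [injective_iff_map_eq_zero]
  intro p hp
  have h : ∀ γ : Additive (Gamma0 N),
      periodMap N (conjPair N p).1 γ = conj (periodMap N (conjPair N p).2 γ) := by
    intro γ
    have := periodHomPair_apply_conjPair hlin hprim p γ
    rw [hp] at this
    exact sub_eq_zero.mp this.symm
  obtain ⟨h1, h2⟩ := hreal _ _ h
  apply conjPair_injective (N := N)
  show (_, _) = conjPair N 0
  have : conjPair N (0 : CuspForm (Gamma0 N) 2 × CuspForm (Gamma0 N) 2) = (0, 0) := by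
    show (_, _) = _
    simp [conjCF_zero]
  rw [this]
  exact Prod.ext h1 h2

end

end Fermat.Agent.S21
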