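import Mathlib
import Fermat.Prelude.Def_ModularCurve_PeriodMapBundled

/-!
# S21, package Q4: the real Eichler-Shimura injectivity (maximum principle)

Main results (namespace `Fermat.Agent.S21`):

* `MaxP.const_of_re_invariant`: a holomorphic `Φ : ℍ → ℂ` which is an equivariant primitive for
  `Gamma0 N`, has `Gamma0 N`-invariant real part and has limits at all cusps, is constant.
* `const_of_conj_periods`, `eq_zero_of_conj_periods`.
-/

namespace Fermat.Agent.S21.MaxP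

open UpperHalfPlane CongruenceSubgroup Filter Topology ModularCurve ModularCurve.Period Function
open scoped MatrixGroups Manifold

local notation "𝕢" => Periodic.qParam

theorem conj_T_pow_mem_Gamma0 (N : ℕ) (δ : SL(2, ℤ)) :
    δ * ModularGroup.T ^ (N : ℤ) * δ⁻¹ ∈ Gamma0 N := by
  have h1 : ModularGroup.T ^ (N : ℤ) ∈ Gamma N := by
    simpa using ModularGroup_T_pow_mem_Gamma (N : ℤ) (N : ℤ) dvd_rfl
  have h2 := (Gamma_normal N).conj_mem _ h1 δ
  rw [Gamma_mem] at h2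
  rw [Gamma0_mem]; exact h2.2.2.1

theorem periodic_comp_ofComplex (f : ℍ → ℂ) (N : ℕ)
    (h : ∀ w : ℍ, f (ModularGroup.T ^ (N : ℤ) • w) = f w) :
    Periodic (f ∘ ofComplex) (N : ℝ) := by
  intro w
  by_cases hw : 0 < w.im
  · have hw' : 0 < (w + (N : ℝ)).im := by simpa using hw
    simp only [comp_apply, ofComplex_apply_of_im_pos hw', ofComplex_apply_of_im_pos hw]
    rw [← h ⟨w, hw⟩]
    congr 1
    ext
    rw [ModularGroup.coe_T_zpow_smul_eq]
    simp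
  · have hw0 : w.im ≤ 0 := not_lt.mp hw
    have hw' : (w + (N : ℝ)).im ≤ 0 := by simpa using hw0
    simp only [comp_apply]
    rw [ofComplex_apply_of_im_nonpos hw', ofComplex_apply_of_im_nonpos hw0]

theorem tendsto_T_zpow_smul (n : ℤ) :
    Tendsto (fun w : ℍ => ModularGroup.T ^ n • w) atImInfty atImInfty := by
  rw [atImInfty, tendsto_comap_iff]
  have : (im ∘ fun w : ℍ => ModularGroup.T ^ n • w) = im := by
    ext w
    exact ModularGroup.im_T_zpow_smul w n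
  rw [this]
  exact tendsto_comap

/-- the function `w ↦ Φ (δ • w)` -/
noncomputable def sh (Φ : ℍ → ℂ) (δ : SL(2, ℤ)) : ℍ → ℂ := fun w => Φ (δ • w)

theorem sh_apply (Φ : ℍ → ℂ) (δ : SL(2, ℤ)) (w : ℍ) : sh Φ δ w = Φ (δ • w) := rfl

theorem sh_mdiff {Φ : ℍ → ℂ} (hΦ : MDiff Φ) (δ : SL(2, ℤ)) : MDiff (sh Φ δ) := by
  have h : 0 < ((δ : GL (Fin 2) ℝ)).det.val := by simp
  exact hΦ.comp (mdifferentiable_smul h)

section Core

variable {N : ℕ} {Φ : ℍ → ℂ}

theorem sh_T_pow (heq : IsEquivariantPrimitive (Gamma0 N) Φ)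
    (hlim : ∀ δ : SL(2, ℤ), ∃ L : ℂ, Tendsto (sh Φ δ) atImInfty (𝓝 L)) (δ : SL(2, ℤ)) (w : ℍ) :
    sh Φ δ (ModularGroup.T ^ (N : ℤ) • w) = sh Φ δ w := by
  obtain ⟨c, hc⟩ := heq ⟨δ * ModularGroup.T ^ (N : ℤ) * δ⁻¹, conj_T_pow_mem_Gamma0 N δ⟩
  have hc' : ∀ w : ℍ, sh Φ δ (ModularGroup.T ^ (N : ℤ) • w) - sh Φ δ w = c := by
    intro w
    have := hc (δ • w)
    simp only [sh_apply]
    rw [← this]
    congr 2
    rw [← mul_smul, ← mul_smul]
    congr 1
    group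
  obtain ⟨L, hL⟩ := hlim δ
  have h1 : Tendsto (fun w : ℍ => sh Φ δ (ModularGroup.T ^ (N : ℤ) • w) - sh Φ δ w) atImInfty
      (𝓝 (L - L)) := (hL.comp (tendsto_T_zpow_smul (N : ℤ))).sub hL
  have h2 : Tendsto (fun w : ℍ => sh Φ δ (ModularGroup.T ^ (N : ℤ) • w) - sh Φ δ w) atImInfty
      (𝓝 c) := by
    simp only [hc']
    exact tendsto_const_nhds
  have h3 : c = L - L := tendsto_nhds_unique h2 h1
  have h4 := hc' w
  rw [h3, sub_self] at h4
  exact sub_eq_zero.mp h4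

theorem sh_bdd (hlim : ∀ δ : SL(2, ℤ), ∃ L : ℂ, Tendsto (sh Φ δ) atImInfty (𝓝 L))
    (δ : SL(2, ℤ)) : IsBoundedAtImInfty (sh Φ δ) := by
  obtain ⟨L, hL⟩ := hlim δ
  exact hL.isBigO_one ℝ

/-- the cusp function of `w ↦ Φ (δ • w)` in the parameter `q = exp (2 π i w / N)` -/
noncomputable def cf (N : ℕ) (Φ : ℍ → ℂ) (δ : SL(2, ℤ)) : ℂ → ℂ :=
  cuspFunction (N : ℝ) (sh Φ δ)

variable [NeZero N]

theorem natCast_pos_real : (0 : ℝ) < (N : ℝ) := by
  exact_mod_cast Nat.pos_of_ne_zero (NeZero.ne N)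

theorem cf_diff (hΦ : MDiff Φ) (heq : IsEquivariantPrimitive (Gamma0 N) Φ)
    (hlim : ∀ δ : SL(2, ℤ), ∃ L : ℂ, Tendsto (sh Φ δ) atImInfty (𝓝 L)) (δ : SL(2, ℤ)) :
    DifferentiableOn ℂ (cf N Φ δ) (Metric.ball 0 1) :=
  differentiableOn_cuspFunction_ball natCast_pos_real
    (periodic_comp_ofComplex _ N (sh_T_pow heq hlim δ)) (sh_mdiff hΦ δ) (sh_bdd hlim δ)

theorem cf_eq (heq : IsEquivariantPrimitive (Gamma0 N) Φ)
    (hlim : ∀ δ : SL(2, ℤ), ∃ L : ℂ, Tendsto (sh Φ δ) atImInfty (𝓝 L)) (δ : SL(2, ℤ)) (w : ℍ) :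
    cf N Φ δ (𝕢 (N : ℝ) w) = Φ (δ • w) :=
  eq_cuspFunction w natCast_pos_real.ne' (periodic_comp_ofComplex _ N (sh_T_pow heq hlim δ))

theorem exists_qParam_eq {q : ℂ} (hq : ‖q‖ < 1) (hq0 : q ≠ 0) :
    ∃ w : ℍ, 𝕢 (N : ℝ) w = q :=
  ⟨⟨_, Periodic.im_invQParam_pos_of_norm_lt_one natCast_pos_real hq hq0⟩,
    Periodic.qParam_right_inv natCast_pos_real.ne' hq0⟩

/-- the radius corresponding to `im w = 1/2` -/
noncomputable def rad (N : ℕ) : ℝ := Real.exp (-(Real.pi / N))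

omit [NeZero N] in
theorem rad_pos : 0 < rad N := Real.exp_pos _

theorem rad_lt_one : rad N < 1 := by
  unfold rad
  rw [Real.exp_lt_one_iff]
  exact neg_neg_of_pos (div_pos Real.pi_pos natCast_pos_real)

theorem qParam_mem_closedBall {w : ℍ} (hw : 1 / 2 ≤ w.im) :
    𝕢 (N : ℝ) w ∈ Metric.closedBall (0 : ℂ) (rad N) := by
  rw [mem_closedBall_zero_iff, Periodic.norm_qParam, rad, Real.exp_le_exp]
  have hN : (0 : ℝ) < N := natCast_pos_real
  have : Real.pi / N ≤ 2 * Real.pi * w.im / N := by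
    apply div_le_div_of_nonneg_right _ hN.le
    nlinarith [Real.pi_pos]
  have h2 : -2 * Real.pi * (w : ℂ).im / N = -(2 * Real.pi * w.im / N) := by
    rw [coe_im]; ring
  rw [h2]
  linarith

/-- invariance of the real part of the cusp functions under left multiplication by `Γ₀(N)` -/
theorem cf_re_invariant (hΦ : MDiff Φ) (heq : IsEquivariantPrimitive (Gamma0 N) Φ)
    (hre : ∀ γ : Gamma0 N, ∀ z : ℍ, (Φ ((γ : SL(2, ℤ)) • z)).re = (Φ z).re)
    (hlim : ∀ δ : SL(2, ℤ), ∃ L : ℂ, Tendsto (sh Φ δ) atImInfty (𝓝 L))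
    (γ : Gamma0 N) (δ : SL(2, ℤ)) {q : ℂ} (hq : ‖q‖ < 1) :
    (cf N Φ ((γ : SL(2, ℤ)) * δ) q).re = (cf N Φ δ q).re := by
  have hne : ∀ q : ℂ, ‖q‖ < 1 → q ≠ 0 →
      (cf N Φ ((γ : SL(2, ℤ)) * δ) q).re = (cf N Φ δ q).re := by
    intro q hq hq0
    obtain ⟨w, rfl⟩ := exists_qParam_eq (N := N) hq hq0
    rw [cf_eq heq hlim, cf_eq heq hlim, mul_smul, hre]
  by_cases hq0 : q = 0
  · subst hq0
    have hball : Metric.ball (0 : ℂ) 1 ∈ 𝓝 (0 : ℂ) := Metric.ball_mem_nhds _ one_pos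
    have c1 : ContinuousAt (fun q => (cf N Φ ((γ : SL(2, ℤ)) * δ) q).re) 0 :=
      Complex.continuous_re.continuousAt.comp
        ((cf_diff hΦ heq hlim _).differentiableAt hball).continuousAt
    have c2 : ContinuousAt (fun q => (cf N Φ δ q).re) 0 :=
      Complex.continuous_re.continuousAt.comp
        ((cf_diff hΦ heq hlim _).differentiableAt hball).continuousAt
    have t1 : Tendsto (fun q => (cf N Φ ((γ : SL(2, ℤ)) * δ) q).re) (𝓝[≠] 0)
        (𝓝 (cf N Φ ((γ : SL(2, ℤ)) * δ) 0).re) := c1.tendsto.mono_left nhdsWithin_le_nhds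
    have t2 : Tendsto (fun q => (cf N Φ δ q).re) (𝓝[≠] 0)
        (𝓝 (cf N Φ δ 0).re) := c2.tendsto.mono_left nhdsWithin_le_nhds
    have hev : (fun q => (cf N Φ ((γ : SL(2, ℤ)) * δ) q).re) =ᶠ[𝓝[≠] 0]
        (fun q => (cf N Φ δ q).re) := by
      have h1 : ∀ᶠ q in 𝓝[≠] (0 : ℂ), q ∈ Metric.ball (0 : ℂ) 1 :=
        eventually_nhdsWithin_of_eventually_nhds hball
      filter_upwards [h1, self_mem_nhdsWithin] with q hq1 hq2
      exact hne q (by simpa using hq1) hq2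
    exact tendsto_nhds_unique (t1.congr' hev) t2
  · exact hne q hq hq0

/-- **Key lemma**: a holomorphic equivariant primitive with `Γ₀(N)`-invariant real part and
limits at all cusps is constant. -/
theorem const_of_re_invariant (hΦ : MDiff Φ) (heq : IsEquivariantPrimitive (Gamma0 N) Φ)
    (hre : ∀ γ : Gamma0 N, ∀ z : ℍ, (Φ ((γ : SL(2, ℤ)) • z)).re = (Φ z).re)
    (hlim : ∀ δ : SL(2, ℤ), ∃ L : ℂ, Tendsto (fun w : ℍ => Φ (δ • w)) atImInfty (𝓝 L)) :
    ∃ c : ℂ, ∀ z : ℍ, Φ z = c := by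
  have hlim' : ∀ δ : SL(2, ℤ), ∃ L : ℂ, Tendsto (sh Φ δ) atImInfty (𝓝 L) := hlim
  -- maxima on the closed ball of radius `rad N`
  have hmax : ∀ δ : SL(2, ℤ), ∃ p ∈ Metric.closedBall (0 : ℂ) (rad N),
      ∀ q ∈ Metric.closedBall (0 : ℂ) (rad N), (cf N Φ δ q).re ≤ (cf N Φ δ p).re := by
    intro δ
    have hc : ContinuousOn (fun q => (cf N Φ δ q).re) (Metric.closedBall (0 : ℂ) (rad N)) :=
      Complex.continuous_re.comp_continuousOn
        ((cf_diff hΦ heq hlim' δ).continuousOn.mono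
          (Metric.closedBall_subset_ball rad_lt_one))
    obtain ⟨p, hp, hpmax⟩ := (isCompact_closedBall (0 : ℂ) (rad N)).exists_isMaxOn
      (Metric.nonempty_closedBall.mpr rad_pos.le) hc
    exact ⟨p, hp, fun q hq => hpmax hq⟩
  choose p hp hpmax using hmax
  let A : SL(2, ℤ) → ℝ := fun δ => (cf N Φ δ (p δ)).re
  -- invariance of `A`
  have hball : ∀ δ, ‖p δ‖ < 1 := fun δ =>
    lt_of_le_of_lt (mem_closedBall_zero_iff.mp (hp δ)) rad_lt_one
  have hAinv : ∀ (γ : Gamma0 N) (δ : SL(2, ℤ)), A ((γ : SL(2, ℤ)) * δ) = A δ := by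
    intro γ δ
    apply le_antisymm
    · calc A ((γ : SL(2, ℤ)) * δ) = (cf N Φ δ (p ((γ : SL(2, ℤ)) * δ))).re :=
            cf_re_invariant hΦ heq hre hlim' γ δ (hball _)
        _ ≤ A δ := hpmax δ _ (hp _)
    · calc A δ = (cf N Φ ((γ : SL(2, ℤ)) * δ) (p δ)).re :=
            (cf_re_invariant hΦ heq hre hlim' γ δ (hball _)).symm
        _ ≤ A ((γ : SL(2, ℤ)) * δ) := hpmax _ _ (hp _)
  -- a maximiser over the finitely many cosets
  obtain ⟨x0, hx0⟩ := Finite.exists_max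
    (fun x : SL(2, ℤ) ⧸ Gamma0 N => A (x.out)⁻¹)
  set δ0 : SL(2, ℤ) := (x0.out)⁻¹ with hδ0
  have hAmax : ∀ δ : SL(2, ℤ), A δ ≤ A δ0 := by
    intro δ
    have h1 := hx0 (QuotientGroup.mk δ⁻¹)
    obtain ⟨γ, hγ⟩ := QuotientGroup.mk_out_eq_mul (Gamma0 N) δ⁻¹
    have h2 : ((QuotientGroup.mk δ⁻¹ : SL(2, ℤ) ⧸ Gamma0 N).out)⁻¹ = ((γ⁻¹ : Gamma0 N) : SL(2, ℤ)) * δ := by
      rw [hγ]; simp
    simp only [h2, hAinv] at h1
    exact h1
  -- global bound
  have hglob : ∀ z : ℍ, (Φ z).re ≤ A δ0 := by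
    intro z
    obtain ⟨γ, hγ⟩ := ModularGroup.exists_one_half_le_im_smul z
    have h1 : Φ z = cf N Φ γ⁻¹ (𝕢 (N : ℝ) ((γ • z : ℍ) : ℂ)) := by
      rw [cf_eq heq hlim', ← mul_smul, inv_mul_cancel, one_smul]
    rw [h1]
    exact (hpmax γ⁻¹ _ (qParam_mem_closedBall hγ)).trans (hAmax γ⁻¹)
  -- bound on the whole unit ball for `cf δ0`
  have hunit : Metric.ball (0 : ℂ) 1 ∈ 𝓝 (0 : ℂ) := Metric.ball_mem_nhds _ one_pos
  have hbound : ∀ q ∈ Metric.ball (0 : ℂ) 1, (cf N Φ δ0 q).re ≤ A δ0 := by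
    have hne : ∀ q : ℂ, ‖q‖ < 1 → q ≠ 0 → (cf N Φ δ0 q).re ≤ A δ0 := by
      intro q hq hq0
      obtain ⟨w, rfl⟩ := exists_qParam_eq (N := N) hq hq0
      rw [cf_eq heq hlim']
      exact hglob _
    intro q hq
    have hq' : ‖q‖ < 1 := by simpa using hq
    by_cases hq0 : q = 0
    · subst hq0
      have c1 : ContinuousAt (fun q => (cf N Φ δ0 q).re) 0 :=
        Complex.continuous_re.continuousAt.comp
          ((cf_diff hΦ heq hlim' _).differentiableAt hunit).continuousAt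
      have t1 : Tendsto (fun q => (cf N Φ δ0 q).re) (𝓝[≠] 0) (𝓝 (cf N Φ δ0 0).re) :=
        c1.tendsto.mono_left nhdsWithin_le_nhds
      refine le_of_tendsto t1 ?_
      have h1 : ∀ᶠ q in 𝓝[≠] (0 : ℂ), q ∈ Metric.ball (0 : ℂ) 1 :=
        eventually_nhdsWithin_of_eventually_nhds hunit
      filter_upwards [h1, self_mem_nhdsWithin] with q hq1 hq2
      exact hne q (by simpa using hq1) hq2
    · exact hne q hq' hq0
  -- maximum modulus principle for `exp ∘ cf δ0`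
  have hd : DifferentiableOn ℂ (fun q => Complex.exp (cf N Φ δ0 q)) (Metric.ball 0 1) :=
    (cf_diff hΦ heq hlim' δ0).cexp
  have hp0 : p δ0 ∈ Metric.ball (0 : ℂ) 1 := by simpa using hball δ0
  have hmaxE : IsMaxOn (norm ∘ fun q => Complex.exp (cf N Φ δ0 q)) (Metric.ball 0 1) (p δ0) := by
    intro q hq
    simp only [comp_apply, Complex.norm_exp]
    exact Real.exp_le_exp.mpr (hbound q hq)
  have hE := Complex.eq_const_of_exists_max hd hp0 hmaxE
  -- hence `cf δ0` has zero derivative on the ball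
  have hderiv : ∀ q ∈ Metric.ball (0 : ℂ) 1, deriv (cf N Φ δ0) q = 0 := by
    intro q hq
    have hqn : Metric.ball (0 : ℂ) 1 ∈ 𝓝 q := Metric.isOpen_ball.mem_nhds hq
    have hdq : DifferentiableAt ℂ (cf N Φ δ0) q := (cf_diff hΦ heq hlim' δ0).differentiableAt hqn
    have h1 : deriv (fun q => Complex.exp (cf N Φ δ0 q)) q =
        Complex.exp (cf N Φ δ0 q) * deriv (cf N Φ δ0) q := by
      exact (hdq.hasDerivAt.cexp).deriv
    have h2 : deriv (fun q => Complex.exp (cf N Φ δ0 q)) q = 0 := by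
      have hev : (fun q => Complex.exp (cf N Φ δ0 q)) =ᶠ[𝓝 q]
          (fun _ => Complex.exp (cf N Φ δ0 (p δ0))) := by
        filter_upwards [hqn] with q' hq'
        exact hE hq'
      rw [hev.deriv_eq, deriv_const]
    rw [h2] at h1
    exact (mul_eq_zero.mp h1.symm).resolve_left (Complex.exp_ne_zero _)
  have hconst : ∀ q ∈ Metric.ball (0 : ℂ) 1, cf N Φ δ0 q = cf N Φ δ0 0 := by
    intro q hq
    refine Metric.isOpen_ball.is_const_of_fderiv_eq_zero (convex_ball (0 : ℂ) 1).isPreconnected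
      (cf_diff hΦ heq hlim' δ0) ?_ hq (Metric.mem_ball_self one_pos)
    intro q hq
    ext
    rw [fderiv_eq_smul_deriv, hderiv q hq]
    simp
  refine ⟨cf N Φ δ0 0, fun z => ?_⟩
  have h1 : Φ z = cf N Φ δ0 (𝕢 (N : ℝ) ((δ0⁻¹ • z : ℍ) : ℂ)) := by
    rw [cf_eq heq hlim', ← mul_smul, mul_inv_cancel, one_smul]
  rw [h1]
  apply hconst
  rw [mem_ball_zero_iff]
  exact Periodic.norm_qParam_lt_one natCast_pos_real (δ0⁻¹ • z).im_pos

end Core

end Fermat.Agent.S21.MaxP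

namespace Fermat.Agent.S21

open UpperHalfPlane CongruenceSubgroup Filter Topology ModularCurve ModularCurve.Period Function
open scoped MatrixGroups Manifold ComplexConjugate

/-- **Real Eichler-Shimura injectivity, abstract form.** If `U`, `V` are holomorphic equivariant
primitives for `Γ₀(N)` with limits at all cusps and the periods of `U` are the complex conjugates
of the periods of `V`, then `U` and `V` are constant. -/
theorem const_of_conj_periods {N : ℕ} [NeZero N] {U V : ℍ → ℂ} (hU : MDiff U) (hV : MDiff V)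
    (hUeq : IsEquivariantPrimitive (Gamma0 N) U) (hVeq : IsEquivariantPrimitive (Gamma0 N) V)
    (hUlim : ∀ δ : SL(2, ℤ), ∃ L : ℂ, Tendsto (fun w : ℍ => U (δ • w)) atImInfty (𝓝 L))
    (hVlim : ∀ δ : SL(2, ℤ), ∃ L : ℂ, Tendsto (fun w : ℍ => V (δ • w)) atImInfty (𝓝 L))
    (hper : ∀ γ : Gamma0 N, ∀ z : ℍ,
      U ((γ : SL(2, ℤ)) • z) - U z = conj (V ((γ : SL(2, ℤ)) • z) - V z)) :
    (∃ c : ℂ, ∀ z : ℍ, U z = c) ∧ ∃ c : ℂ, ∀ z : ℍ, V z = c := by
  -- Φ₁ = U - V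
  have h1 : ∃ c : ℂ, ∀ z : ℍ, (U - V) z = c := by
    refine MaxP.const_of_re_invariant (N := N) (hU.sub hV) ?_ ?_ ?_
    · intro γ
      obtain ⟨a, ha⟩ := hUeq γ
      obtain ⟨b, hb⟩ := hVeq γ
      refine ⟨a - b, fun z => ?_⟩
      simp only [Pi.sub_apply]
      rw [← ha z, ← hb z]; ring
    · intro γ z
      have h := hper γ z
      have h2 : (U - V) ((γ : SL(2, ℤ)) • z) - (U - V) z =
          conj (V ((γ : SL(2, ℤ)) • z) - V z) - (V ((γ : SL(2, ℤ)) • z) - V z) := by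
        simp only [Pi.sub_apply]
        rw [← h]; ring
      have h3 := congrArg Complex.re h2
      simp only [Complex.sub_re, Complex.conj_re, sub_self] at h3
      linarith
    · intro δ
      obtain ⟨a, ha⟩ := hUlim δ
      obtain ⟨b, hb⟩ := hVlim δ
      exact ⟨a - b, ha.sub hb⟩
  -- Φ₂ = -i (U + V)
  have h2 : ∃ c : ℂ, ∀ z : ℍ, ((-Complex.I) • (U + V)) z = c := by
    refine MaxP.const_of_re_invariant (N := N) ((hU.add hV).const_smul _) ?_ ?_ ?_
    · intro γ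
      obtain ⟨a, ha⟩ := hUeq γ
      obtain ⟨b, hb⟩ := hVeq γ
      refine ⟨-Complex.I * (a + b), fun z => ?_⟩
      simp only [Pi.smul_apply, Pi.add_apply, smul_eq_mul]
      rw [← ha z, ← hb z]; ring
    · intro γ z
      have h := hper γ z
      have h2 : ((-Complex.I) • (U + V)) ((γ : SL(2, ℤ)) • z) - ((-Complex.I) • (U + V)) z =
          -Complex.I * (conj (V ((γ : SL(2, ℤ)) • z) - V z) + (V ((γ : SL(2, ℤ)) • z) - V z)) := by
        simp only [Pi.smul_apply, Pi.add_apply, smul_eq_mul]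
        rw [← h]; ring
      have h3 := congrArg Complex.re h2
      simp only [Complex.sub_re, Complex.mul_re, Complex.neg_re, Complex.I_re, Complex.neg_im,
        Complex.I_im, Complex.add_re, Complex.add_im, Complex.conj_re, Complex.conj_im] at h3
      linarith
    · intro δ
      obtain ⟨a, ha⟩ := hUlim δ
      obtain ⟨b, hb⟩ := hVlim δ
      exact ⟨(-Complex.I) • (a + b), (ha.add hb).const_smul _⟩
  obtain ⟨c1, hc1⟩ := h1
  obtain ⟨c2, hc2⟩ := h2
  have hsum : ∀ z, U z + V z = Complex.I * c2 := by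
    intro z
    have := hc2 z
    simp only [Pi.smul_apply, Pi.add_apply, smul_eq_mul] at this
    rw [← this, ← mul_assoc]
    simp
  have hdiff : ∀ z, U z - V z = c1 := fun z => by simpa using hc1 z
  refine ⟨⟨(c1 + Complex.I * c2) / 2, fun z => ?_⟩, ⟨(Complex.I * c2 - c1) / 2, fun z => ?_⟩⟩
  · rw [← hsum z, ← hdiff z]; ring
  · rw [← hsum z, ← hdiff z]; ring

theorem mdiff_of_hasDerivAt {U u : ℍ → ℂ}
    (h : ∀ τ : ℍ, HasDerivAt (U ∘ ofComplex) (u τ) ↑τ) : MDiff U := by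
  intro τ
  rw [UpperHalfPlane.mdifferentiableAt_iff]
  exact (h τ).differentiableAt

theorem eq_zero_of_hasDerivAt_of_const {U u : ℍ → ℂ}
    (h : ∀ τ : ℍ, HasDerivAt (U ∘ ofComplex) (u τ) ↑τ) {c : ℂ} (hc : ∀ z, U z = c) (τ : ℍ) :
    u τ = 0 := by
  have h2 : U ∘ ofComplex = fun _ => c := funext fun z => hc _
  rw [h2] at h
  exact (h τ).unique (hasDerivAt_const _ _)

/-- **Real Eichler-Shimura injectivity** for weight-2 cusp forms on `Γ₀(N)`: if the periods of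
`u` are the complex conjugates of the periods of `v`, then `u = v = 0`. -/
theorem eq_zero_of_conj_periods {N : ℕ} [NeZero N] {u v : CuspForm (Gamma0 N) 2} {U V : ℍ → ℂ}
    (hU : HasEquivariantPrimitive N u U) (hV : HasEquivariantPrimitive N v V)
    (h : ∀ γ : Gamma0 N, hU.2.2.1.period γ = conj (hV.2.2.1.period γ)) : u = 0 ∧ v = 0 := by
  obtain ⟨⟨c1, hc1⟩, ⟨c2, hc2⟩⟩ := const_of_conj_periods (N := N)
    (mdiff_of_hasDerivAt hU.1) (mdiff_of_hasDerivAt hV.1) hU.2.2.1 hV.2.2.1 hU.2.2.2 hV.2.2.2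
    (fun γ z => by rw [hU.2.2.1.sub_eq_period γ z, hV.2.2.1.sub_eq_period γ z, h γ])
  constructor
  · ext τ
    exact eq_zero_of_hasDerivAt_of_const hU.1 hc1 τ
  · ext τ
    exact eq_zero_of_hasDerivAt_of_const hV.1 hc2 τ

end Fermat.Agent.S21
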