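import Mathlib
import Fermat.Prelude.Def_ModularCurve_PeriodHomPair

/-!
# S21, package Q2 (part a): periods of cusp forms vanish on parabolic elements

* `exists_conj_c_eq_zero`: an element of `SL(2, ℤ)` with `trace ^ 2 = 4` is conjugate (in
  `SL(2, ℤ)`) to an upper triangular matrix, i.e. it fixes a cusp.
* `period_eq_zero_of_trace_sq`: an equivariant primitive having limits at all cusps has zero
  period along such elements.
* `periodMap_mem_parabolicHoms`, `range_periodHomPair_le`.
-/

set_option autoImplicit false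

namespace Fermat.Agent.S21

open UpperHalfPlane CongruenceSubgroup Filter Topology ModularCurve ModularCurve.Period
  ModularGroup Matrix

open scoped MatrixGroups

/-- An element of `SL(2, ℤ)` with `trace ^ 2 = 4` fixes a cusp: some conjugate is upper
triangular. -/
theorem exists_conj_c_eq_zero (γ : SL(2, ℤ))
    (htr : (γ : Matrix (Fin 2) (Fin 2) ℤ).trace ^ 2 = 4) :
    ∃ δ : SL(2, ℤ), (δ⁻¹ * γ * δ) 1 0 = 0 := by
  by_cases hc : γ 1 0 = 0
  · exact ⟨1, by simpa using hc⟩
  -- the fixed cusp is `(a - d) / (2 c)`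
  set a := γ 0 0 with ha
  set b := γ 0 1 with hb
  set c := γ 1 0 with hc'
  set d := γ 1 1 with hd
  have hdet : a * d - b * c = 1 := by
    have := γ.det_coe
    rw [Matrix.det_fin_two] at this
    exact this
  have htr' : (a + d) ^ 2 = 4 := by
    rw [Matrix.trace_fin_two] at htr
    exact htr
  have hg0 : 0 < Int.gcd (a - d) (2 * c) := by
    apply Nat.pos_of_ne_zero
    intro h
    rw [Int.gcd_eq_zero_iff] at h
    apply hc
    have := h.2
    omega
  obtain ⟨x, y, hxy, hx, hy⟩ := Int.exists_gcd_one hg0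
  obtain ⟨u, v, huv⟩ := Int.isCoprime_iff_gcd_eq_one.mpr hxy
  have hgne : ((Int.gcd (a - d) (2 * c) : ℕ) : ℤ) ≠ 0 := by exact_mod_cast hg0.ne'
  generalize ((Int.gcd (a - d) (2 * c) : ℕ) : ℤ) = g at hx hy hgne
  -- `δ` has first column `(x, y)`
  let δ : SL(2, ℤ) := ⟨!![x, -v; y, u], by
    rw [Matrix.det_fin_two_of]
    linear_combination huv⟩
  refine ⟨δ, ?_⟩
  have hδ : (δ : Matrix (Fin 2) (Fin 2) ℤ) = !![x, -v; y, u] := rfl
  have hδinv : ((δ⁻¹ : SL(2, ℤ)) : Matrix (Fin 2) (Fin 2) ℤ) = !![u, v; -y, x] := by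
    rw [Matrix.SpecialLinearGroup.coe_inv, hδ, Matrix.adjugate_fin_two_of]
    simp
  have hγ : (γ : Matrix (Fin 2) (Fin 2) ℤ) = !![a, b; c, d] := by
    ext i j
    fin_cases i <;> fin_cases j <;> rfl
  have hentry : (δ⁻¹ * γ * δ) 1 0 = c * x ^ 2 + (d - a) * x * y - b * y ^ 2 := by
    rw [Matrix.SpecialLinearGroup.coe_mul, Matrix.SpecialLinearGroup.coe_mul, hδinv, hγ, hδ]
    simp only [Matrix.mul_apply, Fin.sum_univ_two, Matrix.of_apply, Matrix.cons_val',
      Matrix.cons_val_zero, Matrix.cons_val_one, Matrix.empty_val', Matrix.cons_val_fin_one]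
    ring
  rw [hentry]
  have hkey : g ^ 2 * (c * x ^ 2 + (d - a) * x * y - b * y ^ 2) = 0 := by
    have h1 : g ^ 2 * (c * x ^ 2 + (d - a) * x * y - b * y ^ 2) =
        c * (x * g) ^ 2 + (d - a) * (x * g) * (y * g) - b * (y * g) ^ 2 := by ring
    rw [h1, ← hx, ← hy]
    linear_combination (-c) * htr' + (4 * c) * hdet
  rcases mul_eq_zero.mp hkey with h | h
  · exact absurd (pow_eq_zero_iff (n := 2) (by norm_num) |>.mp h) hgne
  · exact h


/-- Translation by `T ^ n` preserves the filter `atImInfty`. -/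
theorem tendsto_T_zpow_smul_atImInfty (n : ℤ) :
    Tendsto (fun w : ℍ => (T ^ n) • w) atImInfty atImInfty := by
  rw [atImInfty, tendsto_comap_iff]
  have : (UpperHalfPlane.im ∘ fun w : ℍ => (T ^ n) • w) = UpperHalfPlane.im := by
    funext w
    exact im_T_zpow_smul w n
  rw [this]
  exact tendsto_comap

/-- An equivariant primitive with limits at all cusps has zero period along every element of
trace `±2`. -/
theorem period_eq_zero_of_trace_sq {Γ : Subgroup SL(2, ℤ)} {F : ℍ → ℂ}
    (hF : IsEquivariantPrimitive Γ F)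
    (hcusp : ∀ δ : SL(2, ℤ), ∃ L : ℂ, Tendsto (fun w : ℍ => F (δ • w)) atImInfty (𝓝 L))
    (γ : Γ) (htr : ((γ : SL(2, ℤ)) : Matrix (Fin 2) (Fin 2) ℤ).trace ^ 2 = 4) :
    hF.period γ = 0 := by
  obtain ⟨δ, hδ⟩ := exists_conj_c_eq_zero (γ : SL(2, ℤ)) htr
  obtain ⟨n, hn⟩ := exists_eq_T_zpow_of_c_eq_zero hδ
  obtain ⟨L, hL⟩ := hcusp δ
  -- `F (δ • (T^n • w)) - F (δ • w)` is constantly the period
  have hconst : ∀ w : ℍ, F (δ • ((T ^ n) • w)) - F (δ • w) = hF.period γ := by
    intro w
    have h1 := hF.sub_eq_period γ (δ • w)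
    have h2 : (γ : SL(2, ℤ)) • (δ • w) = δ • ((T ^ n) • w) := by
      rw [← hn w, ← mul_smul, ← mul_smul]
      congr 1
      group
    rw [h2] at h1
    exact h1
  have hlim1 : Tendsto (fun w : ℍ => F (δ • ((T ^ n) • w))) atImInfty (𝓝 L) :=
    hL.comp (tendsto_T_zpow_smul_atImInfty n)
  have hlim : Tendsto (fun w : ℍ => F (δ • ((T ^ n) • w)) - F (δ • w)) atImInfty (𝓝 (L - L)) :=
    hlim1.sub hL
  have hlim' : Tendsto (fun _ : ℍ => hF.period γ) atImInfty (𝓝 (L - L)) := by
    refine hlim.congr ?_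
    intro w
    exact hconst w
  rw [sub_self] at hlim'
  exact tendsto_nhds_unique tendsto_const_nhds hlim'

/-- The period homomorphism of an equivariant primitive of a cusp form is parabolic. -/
theorem periodHom_mem_parabolicHoms {N : ℕ} {f : CuspForm (Gamma0 N) 2} {F : ℍ → ℂ}
    (hF : HasEquivariantPrimitive N f F) :
    hF.2.2.1.periodHom ∈ parabolicHoms ℂ (Gamma0 N) ℂ := by
  rw [mem_parabolicHoms_iff]
  intro γ hγ
  rw [IsEquivariantPrimitive.periodHom_apply]
  exact period_eq_zero_of_trace_sq hF.2.2.1 hF.2.2.2 γ hγ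

/-- Q2 (a): the period map of a cusp form takes values in the parabolic homomorphisms. -/
theorem periodMap_mem_parabolicHoms (N : ℕ) (f : CuspForm (Gamma0 N) 2) :
    periodMap N f ∈ parabolicHoms ℂ (Gamma0 N) ℂ := by
  classical
  by_cases h : ∃ F : ℍ → ℂ, HasEquivariantPrimitive N f F
  · obtain ⟨F, hF⟩ := h
    obtain ⟨F₀, h₀, heq⟩ := periodMap_def N f hF
    rw [heq]
    exact periodHom_mem_parabolicHoms h₀
  · have : periodMap N f = 0 := by
      unfold periodMap
      rw [dif_neg h]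
    rw [this]
    exact Submodule.zero_mem _

/-- The range of `periodHomPair` consists of parabolic homomorphisms. -/
theorem range_periodHomPair_le (N : ℕ) :
    LinearMap.range (periodHomPair N) ≤ parabolicHoms ℂ (Gamma0 N) ℂ := by
  classical
  by_cases h : ExistsPeriodMapLinear N
  · obtain ⟨pml, hpml, heq⟩ := periodHomPair_def N h
    rw [heq]
    rintro _ ⟨⟨f, g⟩, rfl⟩
    rw [LinearMap.coprod_apply]
    have hf : pml f ∈ parabolicHoms ℂ (Gamma0 N) ℂ := by
      rw [hpml]; exact periodMap_mem_parabolicHoms N f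
    have hg : pml g ∈ parabolicHoms ℂ (Gamma0 N) ℂ := by
      rw [hpml]; exact periodMap_mem_parabolicHoms N g
    refine Submodule.add_mem _ ?_ ?_
    · simp only [LinearMap.comp_apply, LinearMap.add_apply, LinearMap.id_apply]
      exact Submodule.add_mem _ hf (charInvolution_mem_parabolicHoms N ℂ ℂ hf)
    · simp only [LinearMap.comp_apply, LinearMap.sub_apply, LinearMap.id_apply]
      exact Submodule.sub_mem _ hg (charInvolution_mem_parabolicHoms N ℂ ℂ hg)
  · have : periodHomPair N = 0 := by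
      unfold periodHomPair
      rw [dif_neg h]
    rw [this, LinearMap.range_zero]
    exact bot_le

end Fermat.Agent.S21
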