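import Fermat.Agent.S21.PeriodPrim
import Fermat.Agent.S21.Parabolic
import Fermat.Agent.S21.Conj
import Fermat.Agent.S21.MaxPrinciple
import Fermat.Prelude.Def_ModularCurve_GenusNumerics

/-!
# S21 assembly

Eichler-Shimura from: Q1 (equivariant primitives, linearity of the period map), Q2 (periods are
parabolic), Q3 (conjugation), Q4 (real injectivity), plus the dimension count, which is taken as
two hypotheses: the genus formula (S20) and the group-theoretic bound for parabolic homs (Q7).
-/

set_option autoImplicit false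

namespace Fermat.Agent.S21

open CongruenceSubgroup ModularCurve ModularCurve.Period Module
open scoped MatrixGroups ComplexConjugate

/-- Injectivity of `periodHomPair` (Q1 + Q3 + Q4), unconditional. -/
theorem periodHomPair_injective (N : ℕ) [NeZero N] : Function.Injective (periodHomPair N) := by
  refine periodHomPair_injective_of (existsPeriodMapLinear N)
    (fun f => ⟨_, hasEquivariantPrimitive N f⟩) (fun u v h => ?_)
  have hU := hasEquivariantPrimitive N u
  have hV := hasEquivariantPrimitive N v
  refine eq_zero_of_conj_periods hU hV (fun γ => ?_)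
  have := h (Additive.ofMul γ)
  rw [periodMap_eq_periodHom_of hU, periodMap_eq_periodHom_of hV] at this
  exact this

/-- The S21 statement from the genus formula (S20) and the parabolic bound (Q7). -/
theorem result_of (N : ℕ) [NeZero N]
    (hS20 : (finrank ℂ (CuspForm (Gamma0 N) 2) : ℚ) = genusFormula N)
    (hQ7 : FiniteDimensional ℂ (parabolicHoms ℂ (Gamma0 N) ℂ) ∧
      6 * finrank ℂ (parabolicHoms ℂ (Gamma0 N) ℂ) + 3 * nuTwo N + 4 * nuThree N
        + 6 * cuspCount N ≤ dedekindPsi N + 12) :
    Function.Injective (periodHomPair N) ∧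
      LinearMap.range (periodHomPair N) = parabolicHoms ℂ (Gamma0 N) ℂ := by
  have hinj := periodHomPair_injective N
  refine ⟨hinj, ?_⟩
  obtain ⟨hfd, hbound⟩ := hQ7
  have hle := range_periodHomPair_le N
  -- the source is finite-dimensional, as it embeds into the parabolic homs
  let φ : (CuspForm (Gamma0 N) 2 × CuspForm (Gamma0 N) 2) →ₗ[ℂ] parabolicHoms ℂ (Gamma0 N) ℂ :=
    (periodHomPair N).codRestrict _ (fun p => hle ⟨p, rfl⟩)
  have hφ : Function.Injective φ := by
    intro p q hpq
    apply hinj
    exact congrArg Subtype.val hpq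
  have hfdS : FiniteDimensional ℂ (CuspForm (Gamma0 N) 2 × CuspForm (Gamma0 N) 2) :=
    FiniteDimensional.of_injective φ hφ
  have hfdS1 : FiniteDimensional ℂ (CuspForm (Gamma0 N) 2) :=
    FiniteDimensional.of_injective (LinearMap.inl ℂ _ (CuspForm (Gamma0 N) 2))
      LinearMap.inl_injective
  have hrange : finrank ℂ (LinearMap.range (periodHomPair N))
      = 2 * finrank ℂ (CuspForm (Gamma0 N) 2) := by
    rw [LinearMap.finrank_range_of_inj hinj, Module.finrank_prod, two_mul]
  refine Submodule.eq_of_le_of_finrank_le hle ?_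
  rw [hrange]
  -- arithmetic
  have h1 : (12 : ℚ) * (finrank ℂ (CuspForm (Gamma0 N) 2) : ℚ)
      = 12 + (dedekindPsi N : ℚ) - 3 * nuTwo N - 4 * nuThree N - 6 * cuspCount N := by
    rw [hS20, genusFormula]
    ring
  have h2 : (6 : ℚ) * (finrank ℂ (parabolicHoms ℂ (Gamma0 N) ℂ) : ℚ) + 3 * nuTwo N
      + 4 * nuThree N + 6 * cuspCount N ≤ dedekindPsi N + 12 := by
    exact_mod_cast hbound
  have h3 : (finrank ℂ (parabolicHoms ℂ (Gamma0 N) ℂ) : ℚ)
      ≤ 2 * (finrank ℂ (CuspForm (Gamma0 N) 2) : ℚ) := by
    linarith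
  exact_mod_cast h3

end Fermat.Agent.S21
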