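import Mathlib

/-!
# Kernels of `1 + σ` and `1 + σ + σ²` on a permutation module

For a finite type `X` and `σ : X → X`, let `A := LinearMap.funLeft ℂ ℂ σ` be the operator
`f ↦ f ∘ σ` on `X → ℂ`.

* if `σ ∘ σ = id` then `2 * dim ker (1 + A) + #Fix σ = #X`;
* if `σ ∘ σ ∘ σ = id` then `3 * dim ker (1 + A + A * A) + 2 * #Fix σ = 2 * #X`.

Both are proved by exhibiting the projector onto the kernel and computing its trace
(the trace of a permutation operator is its number of fixed points).
-/

namespace Fermat.Agent.S21

open Module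

section
variable {X : Type*}

/-- The operator `f ↦ f ∘ σ` on `X → ℂ`. -/
noncomputable abbrev permOp (σ : X → X) : (X → ℂ) →ₗ[ℂ] (X → ℂ) := LinearMap.funLeft ℂ ℂ σ

theorem permOp_apply (σ : X → X) (f : X → ℂ) (x : X) : permOp σ f x = f (σ x) := rfl

theorem permOp_mul (σ τ : X → X) : permOp σ * permOp τ = permOp (τ ∘ σ) := by
  ext f x
  rfl

theorem permOp_id : permOp (id : X → X) = 1 := by
  ext f x
  rfl

variable [Fintype X]

/-- Trace of a permutation operator = number of fixed points. -/
theorem trace_permOp [DecidableEq X] (σ : X → X) :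
    LinearMap.trace ℂ (X → ℂ) (permOp σ) = (Fintype.card {x : X // σ x = x} : ℂ) := by
  rw [LinearMap.trace_eq_matrix_trace ℂ (Pi.basisFun ℂ X), Matrix.trace]
  simp only [Matrix.diag_apply, LinearMap.toMatrix_apply, Pi.basisFun_apply, Pi.basisFun_repr,
    permOp, LinearMap.funLeft_apply, Pi.single_apply]
  rw [Fintype.card_subtype, Finset.card_filter, Nat.cast_sum]
  refine Finset.sum_congr rfl fun x _ => ?_
  split_ifs <;> simp

/-- For an involution `σ`: `2 * dim ker (1 + σ) + #Fix σ = #X`. -/
theorem two_mul_finrank_ker_one_add_permOp [DecidableEq X] (σ : X → X) (hσ : ∀ x, σ (σ x) = x) :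
    2 * finrank ℂ (LinearMap.ker (1 + permOp σ)) + Fintype.card {x : X // σ x = x}
      = Fintype.card X := by
  set A := permOp σ with hA
  have hAA : A * A = 1 := by
    rw [hA, permOp_mul, ← permOp_id]
    congr 1
    funext x
    exact hσ x
  have hproj : LinearMap.IsProj (LinearMap.ker (1 + A)) ((1 / 2 : ℂ) • (1 - A)) := by
    constructor
    · intro f
      rw [LinearMap.mem_ker, LinearMap.smul_apply, map_smul]
      have : (1 + A) ((1 - A) f) = 0 := by
        have h : (1 + A) * (1 - A) = 0 := by
          rw [add_mul, mul_sub, mul_sub, hAA]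
          simp
        have := congrArg (fun L => L f) h
        simpa using this
      rw [this, smul_zero]
    · intro f hf
      rw [LinearMap.mem_ker] at hf
      have hAf : A f = -f := by
        have : f + A f = 0 := by simpa using hf
        exact eq_neg_of_add_eq_zero_right this
      rw [LinearMap.smul_apply, LinearMap.sub_apply, hAf]
      simp only [Module.End.one_apply, sub_neg_eq_add]
      rw [← two_smul ℂ f, smul_smul]
      norm_num
  have htr := hproj.trace
  rw [map_smul, map_sub, hA, trace_permOp, LinearMap.trace_one, finrank_pi_fintype] at htr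
  simp only [finrank_self, Finset.sum_const, Finset.card_univ, smul_eq_mul, mul_one] at htr
  have : ((2 * finrank ℂ (LinearMap.ker (1 + permOp σ)) + Fintype.card {x : X // σ x = x} : ℕ) : ℂ)
      = (Fintype.card X : ℂ) := by
    push_cast
    rw [← htr]
    ring
  exact_mod_cast this

/-- For `σ` of order dividing three: `3 * dim ker (1 + σ + σ²) + 2 * #Fix σ = 2 * #X`. -/
theorem three_mul_finrank_ker_permOp [DecidableEq X] (σ : X → X) (hσ : ∀ x, σ (σ (σ x)) = x) :
    3 * finrank ℂ (LinearMap.ker (1 + permOp σ + permOp σ * permOp σ))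
      + 2 * Fintype.card {x : X // σ x = x} = 2 * Fintype.card X := by
  set A := permOp σ with hA
  have hAAA : A * A * A = 1 := by
    rw [hA, permOp_mul, permOp_mul, ← permOp_id]
    congr 1
    funext x
    exact hσ x
  set E := 1 + A + A * A with hE
  have hAE : A * E = E := by
    rw [hE, mul_add, mul_add, mul_one, ← mul_assoc, hAAA]
    abel
  have hEE : E * E = (3 : ℂ) • E := by
    have hAAE : A * A * E = E := by rw [mul_assoc, hAE, hAE]
    conv_lhs => rw [hE, add_mul, add_mul, one_mul, ← hE, hAE, hAAE]
    rw [show (3 : ℂ) • E = E + E + E by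
      rw [show (3 : ℂ) = 1 + 1 + 1 by norm_num, add_smul, add_smul, one_smul]]
  have hproj : LinearMap.IsProj (LinearMap.ker E) (1 - (1 / 3 : ℂ) • E) := by
    constructor
    · intro f
      rw [LinearMap.mem_ker]
      have h : E * (1 - (1 / 3 : ℂ) • E) = 0 := by
        rw [mul_sub, mul_one, mul_smul_comm, hEE, smul_smul]
        norm_num
      have := congrArg (fun L => L f) h
      simpa using this
    · intro f hf
      rw [LinearMap.mem_ker] at hf
      rw [LinearMap.sub_apply, LinearMap.smul_apply, hf]
      simp
  have hfix : Fintype.card {x : X // (σ ∘ σ) x = x} = Fintype.card {x : X // σ x = x} := by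
    refine Fintype.card_congr (Equiv.subtypeEquivRight fun x => ?_)
    constructor
    · intro h
      have h1 : σ (σ x) = x := h
      have h2 := hσ x
      rw [h1] at h2
      exact h2
    · intro h
      show σ (σ x) = x
      rw [h, h]
  have htrE : LinearMap.trace ℂ (X → ℂ) (1 - (1 / 3 : ℂ) • E)
      = (Fintype.card X : ℂ) - 1 / 3 * ((Fintype.card X : ℂ)
        + (Fintype.card {x : X // σ x = x} : ℂ) + (Fintype.card {x : X // σ x = x} : ℂ)) := by
    rw [map_sub, map_smul, hE, map_add, map_add, hA, permOp_mul, trace_permOp, trace_permOp, hfix,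
      LinearMap.trace_one, finrank_pi_fintype]
    simp only [finrank_self, Finset.sum_const, Finset.card_univ, smul_eq_mul, mul_one]
  have htr := hproj.trace
  rw [htrE] at htr
  have : ((3 * finrank ℂ (LinearMap.ker (1 + permOp σ + permOp σ * permOp σ))
      + 2 * Fintype.card {x : X // σ x = x} : ℕ) : ℂ) = ((2 * Fintype.card X : ℕ) : ℂ) := by
    push_cast
    rw [← htr]
    ring
  exact_mod_cast this

end

end Fermat.Agent.S21
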