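import Mathlib
import Fermat.Prelude.Def_ModularCurve_PeriodMap
import Fermat.Agent.S21.PermKernel
import Fermat.Agent.S20.Psi
import Fermat.Agent.S20.FixPoints
import Fermat.Agent.S20.Cusps

/-!
# A group-theoretic bound for the dimension of the parabolic homomorphisms

For a finite index subgroup `Γ ≤ SL(2,ℤ)` containing `-1`, with `X = SL(2,ℤ) ⧸ Γ`,
`μ = #X`, `c = #(orbits of T on X)`, we show

`dim parabolicHoms Γ + μ + c ≤ dim ker (1 + S) + dim ker (1 + U + U²) + 2`  (`U = S T`),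

where `S`, `U` act on `X → ℂ` by `f ↦ f ∘ (g • ·)`.  This is "Shapiro by hand": a homomorphism
`ψ : Γ → ℂ` induces a cocycle `SL(2,ℤ) → (X → ℂ)`, which is determined by its values at the
generators `S` and `U`; parabolicity forces the orbit sums of its value at `T` to vanish.
-/

set_option autoImplicit false
set_option linter.unusedSectionVars false

namespace Fermat.Agent.S21.ParHom

open scoped MatrixGroups
open ModularGroup Module

noncomputable section

/-! ## Part 1: abstract finite `SL(2,ℤ)`-sets -/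

section abstract

variable {X : Type*} [Fintype X] [MulAction SL(2, ℤ) X]

/-- the orbits of `T` on `X`. -/
abbrev Orb (X : Type*) [MulAction SL(2, ℤ) X] : Type _ :=
  MulAction.orbitRel.Quotient (Subgroup.zpowers T) X

/-- the class of a point in the orbit space. -/
def omk (x : X) : Orb X := Quotient.mk'' x

theorem omk_smul_T (x : X) : omk (T • x) = omk x := by
  apply Quotient.sound'
  change T • x ∈ MulAction.orbit (Subgroup.zpowers T) x
  exact ⟨⟨T, Subgroup.mem_zpowers T⟩, rfl⟩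

theorem omk_smul_T_pow (n : ℕ) (x : X) : omk (T ^ n • x) = omk x := by
  induction n with
  | zero => simp
  | succ n ih => rw [pow_succ', mul_smul, omk_smul_T, ih]

open Classical in
/-- the orbit sum map. -/
def orbSum : (X → ℂ) →ₗ[ℂ] (Orb X → ℂ) where
  toFun f o := ∑ x, if omk x = o then f x else 0
  map_add' f g := by
    funext o
    simp only [Pi.add_apply, ← Finset.sum_add_distrib]
    refine Finset.sum_congr rfl fun x _ => ?_
    split_ifs <;> simp
  map_smul' a f := by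
    funext o
    simp only [Pi.smul_apply, smul_eq_mul, RingHom.id_apply, Finset.mul_sum]
    refine Finset.sum_congr rfl fun x _ => ?_
    split_ifs <;> simp

open Classical in
theorem orbSum_apply (f : X → ℂ) (o : Orb X) :
    orbSum f o = ∑ x, if omk x = o then f x else 0 := rfl

theorem orbSum_comp_T (f : X → ℂ) : orbSum (fun x => f (T • x)) = orbSum f := by
  classical
  funext o
  rw [orbSum_apply, orbSum_apply]
  refine Fintype.sum_equiv (MulAction.toPerm T) _ _ fun x => ?_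
  simp only [MulAction.toPerm_apply, omk_smul_T]

theorem orbSum_comp_T_pow (n : ℕ) (f : X → ℂ) : orbSum (fun x => f (T ^ n • x)) = orbSum f := by
  induction n generalizing f with
  | zero => simp
  | succ n ih =>
    have := ih (fun x => f (T • x))
    rw [orbSum_comp_T] at this
    rw [← this]
    congr 1
    funext x
    rw [pow_succ', mul_smul]

theorem sum_orbSum [Fintype (Orb X)] (f : X → ℂ) : ∑ o, orbSum f o = ∑ x, f x := by
  classical
  simp only [orbSum_apply]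
  rw [Finset.sum_comm]
  refine Finset.sum_congr rfl fun x _ => ?_
  rw [Finset.sum_ite_eq]
  simp

theorem exists_orbSum_eq (h : Orb X → ℂ) : ∃ f : X → ℂ, orbSum f = h := by
  classical
  refine ⟨fun x => if x = Quotient.out (omk x) then h (omk x) else 0, ?_⟩
  funext o
  rw [orbSum_apply]
  have : ∀ x : X, (if omk x = o then (if x = Quotient.out (omk x) then h (omk x) else 0) else 0)
      = if x = Quotient.out o then h o else 0 := by
    intro x
    by_cases h1 : omk x = o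
    · subst h1
      simp
    · have h2 : x ≠ Quotient.out o := by
        rintro rfl
        exact h1 (Quotient.out_eq' o)
      simp [h1, h2]
  simp only [this]
  rw [Finset.sum_ite_eq']
  simp

/-- the operator `f ↦ f ∘ (g • ·)`. -/
abbrev Lop (g : SL(2, ℤ)) : (X → ℂ) →ₗ[ℂ] (X → ℂ) := permOp (fun x : X => g • x)

theorem Lop_apply (g : SL(2, ℤ)) (f : X → ℂ) (x : X) : Lop g f x = f (g • x) := rfl

/-- `A = ker (1 + S)`. -/
abbrev Asub (X : Type*) [MulAction SL(2, ℤ) X] : Submodule ℂ (X → ℂ) :=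
  LinearMap.ker (1 + permOp (fun x : X => S • x))

/-- `B = ker (1 + U + U²)`, `U = S * T`. -/
abbrev Bsub (X : Type*) [MulAction SL(2, ℤ) X] : Submodule ℂ (X → ℂ) :=
  LinearMap.ker (1 + permOp (fun x : X => (S * T) • x)
    + permOp (fun x : X => (S * T) • x) * permOp (fun x : X => (S * T) • x))

theorem mem_Asub_iff (f : X → ℂ) : f ∈ Asub X ↔ ∀ x, f x + f (S • x) = 0 := by
  rw [LinearMap.mem_ker]
  constructor
  · intro h x
    have := congrFun h x
    simpa using this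
  · intro h
    funext x
    simpa using h x

theorem mem_Bsub_iff (f : X → ℂ) :
    f ∈ Bsub X ↔ ∀ x, f x + f ((S * T) • x) + f ((S * T) • ((S * T) • x)) = 0 := by
  rw [LinearMap.mem_ker]
  constructor
  · intro h x
    have := congrFun h x
    simpa using this
  · intro h
    funext x
    simpa using h x

theorem S_mul_S : (S * S : SL(2, ℤ)) = -1 := by
  apply Subtype.ext
  rw [Matrix.SpecialLinearGroup.coe_mul, S_mul_S_eq]
  simp

theorem U_cube : ((S * T) * (S * T) * (S * T) : SL(2, ℤ)) = -1 := by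
  apply Subtype.ext
  simp only [Matrix.SpecialLinearGroup.coe_mul, coe_S, coe_T, Matrix.SpecialLinearGroup.coe_neg,
    Matrix.SpecialLinearGroup.coe_one]
  ext i j
  fin_cases i <;> fin_cases j <;> simp [Matrix.mul_apply, Fin.sum_univ_two]

section sup

variable (hX : ∀ x : X, (-1 : SL(2, ℤ)) • x = x)
include hX

theorem SS_smul (x : X) : S • (S • x) = x := by
  rw [← mul_smul, S_mul_S, hX]

theorem UUU_smul (x : X) : (S * T) • ((S * T) • ((S * T) • x)) = x := by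
  have h := hX x
  rw [← U_cube, mul_smul, mul_smul] at h
  exact h

/-- `v ∘ g - v ∈ A ⊔ B` for all `g`. -/
theorem comp_sub_mem_sup (g : SL(2, ℤ)) (v : X → ℂ) :
    (fun x => v (g • x)) - v ∈ Asub X ⊔ Bsub X := by
  have hg : g ∈ Subgroup.closure ({S, T} : Set SL(2, ℤ)) := by
    rw [_root_.SpecialLinearGroup.SL2Z_generators]; trivial
  -- the statement for `S` and `U`
  have hS : ∀ v : X → ℂ, (fun x => v (S • x)) - v ∈ Asub X ⊔ Bsub X := by
    intro v
    apply Submodule.mem_sup_left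
    rw [mem_Asub_iff]
    intro x
    simp only [Pi.sub_apply, SS_smul hX]
    ring
  have hU : ∀ v : X → ℂ, (fun x => v ((S * T) • x)) - v ∈ Asub X ⊔ Bsub X := by
    intro v
    apply Submodule.mem_sup_right
    rw [mem_Bsub_iff]
    intro x
    simp only [Pi.sub_apply, UUU_smul hX]
    ring
  have hmul : ∀ g h : SL(2, ℤ), (∀ v : X → ℂ, (fun x => v (g • x)) - v ∈ Asub X ⊔ Bsub X) →
      (∀ v : X → ℂ, (fun x => v (h • x)) - v ∈ Asub X ⊔ Bsub X) →
      ∀ v : X → ℂ, (fun x => v ((g * h) • x)) - v ∈ Asub X ⊔ Bsub X := by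
    intro g h hg hh v
    have h1 := hh (fun x => v (g • x))
    have h2 := hg v
    have : (fun x => v ((g * h) • x)) - v
        = ((fun x => (fun y => v (g • y)) (h • x)) - fun y => v (g • y))
          + ((fun x => v (g • x)) - v) := by
      funext x
      simp [mul_smul]
    rw [this]
    exact Submodule.add_mem _ h1 h2
  have hinv : ∀ g : SL(2, ℤ), (∀ v : X → ℂ, (fun x => v (g • x)) - v ∈ Asub X ⊔ Bsub X) →
      ∀ v : X → ℂ, (fun x => v (g⁻¹ • x)) - v ∈ Asub X ⊔ Bsub X := by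
    intro g hg v
    have h1 := hg (fun x => v (g⁻¹ • x))
    have : (fun x => v (g⁻¹ • x)) - v
        = -((fun x => (fun y => v (g⁻¹ • y)) (g • x)) - fun y => v (g⁻¹ • y)) := by
      funext x
      simp
    rw [this]
    exact Submodule.neg_mem _ h1
  have hT : ∀ v : X → ℂ, (fun x => v (T • x)) - v ∈ Asub X ⊔ Bsub X := by
    have : (T : SL(2, ℤ)) = S⁻¹ * (S * T) := by group
    rw [this]
    exact hmul _ _ (hinv _ hS) hU
  revert v
  induction hg using Subgroup.closure_induction with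
  | mem g hg =>
    rcases hg with rfl | rfl
    · exact hS
    · exact hT
  | one =>
    intro v
    simp
  | mul g h _ _ ihg ihh => exact hmul g h ihg ihh
  | inv g _ ih => exact hinv g ih

variable [MulAction.IsPretransitive SL(2, ℤ) X]

/-- functions of total sum zero lie in `A ⊔ B`. -/
theorem mem_sup_of_sum_eq_zero (x0 : X) (f : X → ℂ) (hf : ∑ x, f x = 0) :
    f ∈ Asub X ⊔ Bsub X := by
  classical
  have key : ∀ x : X, (Pi.single x (1 : ℂ) - Pi.single x0 (1 : ℂ) : X → ℂ) ∈ Asub X ⊔ Bsub X := by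
    intro x
    obtain ⟨g, hg⟩ := MulAction.exists_smul_eq SL(2, ℤ) x0 x
    have h1 := comp_sub_mem_sup hX g (Pi.single x (1 : ℂ))
    have : (Pi.single x (1 : ℂ) - Pi.single x0 (1 : ℂ) : X → ℂ)
        = -((fun y => (Pi.single x (1 : ℂ) : X → ℂ) (g • y)) - Pi.single x (1 : ℂ)) := by
      funext y
      simp only [Pi.sub_apply, Pi.neg_apply, Pi.single_apply, neg_sub]
      congr 1
      by_cases hy : y = x0
      · subst hy
        simp [hg]
      · have : g • y ≠ x := by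
          intro h
          apply hy
          rw [← hg] at h
          exact MulAction.injective g h
        simp [hy, this]
    rw [this]
    exact Submodule.neg_mem _ h1
  have hdecomp : f = ∑ x, f x • (Pi.single x (1 : ℂ) - Pi.single x0 (1 : ℂ) : X → ℂ) := by
    funext z
    simp only [Finset.sum_apply, Pi.smul_apply, Pi.sub_apply, Pi.single_apply, smul_eq_mul,
      mul_sub, Finset.sum_sub_distrib, mul_ite, mul_one, mul_zero]
    rw [Finset.sum_ite_eq]
    simp only [Finset.mem_univ, if_true]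
    by_cases hz : z = x0
    · simp [hz, hf]
    · simp [hz]
  rw [hdecomp]
  exact Submodule.sum_mem _ fun x _ => Submodule.smul_mem _ _ (key x)

end sup

/-- total sum functional. -/
def totSum (Y : Type*) [Fintype Y] : (Y → ℂ) →ₗ[ℂ] ℂ where
  toFun h := ∑ y, h y
  map_add' f g := by simp [Finset.sum_add_distrib]
  map_smul' a f := by simp [Finset.mul_sum]

theorem totSum_apply {Y : Type*} [Fintype Y] (h : Y → ℂ) : totSum Y h = ∑ y, h y := rfl

theorem finrank_ker_totSum (Y : Type*) [Fintype Y] [Nonempty Y] :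
    finrank ℂ (LinearMap.ker (totSum Y)) + 1 = Fintype.card Y := by
  classical
  have h1 := LinearMap.finrank_range_add_finrank_ker (totSum Y)
  have h2 : LinearMap.range (totSum Y) = ⊤ := by
    rw [LinearMap.range_eq_top]
    intro a
    obtain ⟨y0⟩ := ‹Nonempty Y›
    refine ⟨Pi.single y0 a, ?_⟩
    rw [totSum_apply]
    simp
  rw [h2, finrank_top, Module.finrank_self, Module.finrank_fintype_fun_eq_card] at h1
  omega

/-- the map `(a, b) ↦ orbit sums of b - a`. -/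
def lam (X : Type*) [Fintype X] [MulAction SL(2, ℤ) X] :
    (Asub X × Bsub X) →ₗ[ℂ] (Orb X → ℂ) :=
  orbSum ∘ₗ ((Bsub X).subtype ∘ₗ LinearMap.snd ℂ (Asub X) (Bsub X)
    - (Asub X).subtype ∘ₗ LinearMap.fst ℂ (Asub X) (Bsub X))

theorem lam_apply (p : Asub X × Bsub X) :
    lam X p = orbSum ((p.2 : X → ℂ) - (p.1 : X → ℂ)) := rfl

section rank

variable (hX : ∀ x : X, (-1 : SL(2, ℤ)) • x = x) [MulAction.IsPretransitive SL(2, ℤ) X]
  [Fintype (Orb X)]
include hX

theorem ker_totSum_le_range_lam (x0 : X) :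
    LinearMap.ker (totSum (Orb X)) ≤ LinearMap.range (lam X) := by
  intro h hh
  rw [LinearMap.mem_ker, totSum_apply] at hh
  obtain ⟨f, hf⟩ := exists_orbSum_eq h
  have hsum : ∑ x, f x = 0 := by
    rw [← sum_orbSum, hf, hh]
  have hmem := mem_sup_of_sum_eq_zero hX x0 f hsum
  obtain ⟨a, ha, b, hb, hab⟩ := Submodule.mem_sup.mp hmem
  refine ⟨(⟨-a, Submodule.neg_mem _ ha⟩, ⟨b, hb⟩), ?_⟩
  rw [lam_apply]
  simp only
  rw [← hf, ← hab]
  congr 1
  abel

theorem finrank_ker_lam_le (x0 : X) :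
    finrank ℂ (LinearMap.ker (lam X)) + Fintype.card (Orb X)
      ≤ finrank ℂ (Asub X) + finrank ℂ (Bsub X) + 1 := by
  have h1 := LinearMap.finrank_range_add_finrank_ker (lam X)
  rw [Module.finrank_prod] at h1
  have h2 : finrank ℂ (LinearMap.ker (totSum (Orb X))) ≤ finrank ℂ (LinearMap.range (lam X)) :=
    Submodule.finrank_mono (ker_totSum_le_range_lam hX x0)
  have : Nonempty (Orb X) := ⟨omk x0⟩
  have h3 := finrank_ker_totSum (Orb X)
  omega

end rank

/-! ### right cocycles -/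

/-- right cocycles `SL(2,ℤ) → (X → ℂ)`. -/
def IsCoc (c : SL(2, ℤ) → X → ℂ) : Prop := ∀ g h x, c (g * h) x = c g (h • x) + c h x

namespace IsCoc

variable {c : SL(2, ℤ) → X → ℂ} (hc : IsCoc c)
include hc

theorem one (x : X) : c 1 x = 0 := by
  have := hc 1 1 x
  rw [one_mul, one_smul] at this
  linear_combination -this

theorem add {c' : SL(2, ℤ) → X → ℂ} (hc' : IsCoc c') : IsCoc (fun g => c g + c' g) := by
  intro g h x
  simp only [Pi.add_apply, hc g h x, hc' g h x]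
  ring

theorem T_apply (x : X) : c T x = c (S * T) x - c S (T • x) := by
  rw [hc S T x]
  ring

theorem orbSum_T : orbSum (c T) = orbSum (c (S * T)) - orbSum (c S) := by
  have h : c T = c (S * T) - fun x => c S (T • x) := by
    funext x
    simp only [Pi.sub_apply]
    exact hc.T_apply x
  rw [h, map_sub, orbSum_comp_T]

theorem T_pow (n : ℕ) (x : X) : c (T ^ n) x = ∑ j ∈ Finset.range n, c T (T ^ j • x) := by
  induction n generalizing x with
  | zero => simp [hc.one]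
  | succ n ih =>
    rw [pow_succ, hc (T ^ n) T x, ih, Finset.sum_range_succ']
    simp only [pow_zero, one_smul, pow_succ, mul_smul]

theorem orbSum_T_eq_zero (n : ℕ) (hn : 0 < n) (h : ∀ x, c (T ^ n) x = 0) : orbSum (c T) = 0 := by
  have h1 : (n : ℂ) • orbSum (c T) = orbSum (c (T ^ n)) := by
    have : c (T ^ n) = ∑ j ∈ Finset.range n, fun x => c T (T ^ j • x) := by
      funext x
      rw [hc.T_pow n x, Finset.sum_apply]
    rw [this, map_sum]
    simp only [orbSum_comp_T_pow, Finset.sum_const, Finset.card_range]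
    rw [Nat.cast_smul_eq_nsmul]
  have h2 : c (T ^ n) = 0 := funext h
  rw [h2, map_zero] at h1
  have hn' : (n : ℂ) ≠ 0 := by exact_mod_cast hn.ne'
  exact (smul_eq_zero.mp h1).resolve_left hn'

theorem vanish (hS : c S = 0) (hU : c (S * T) = 0) (g : SL(2, ℤ)) : c g = 0 := by
  have hT : c T = 0 := by
    funext x
    rw [hc.T_apply, hS, hU]
    simp
  have hg : g ∈ Subgroup.closure ({S, T} : Set SL(2, ℤ)) := by
    rw [_root_.SpecialLinearGroup.SL2Z_generators]; trivial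
  induction hg using Subgroup.closure_induction with
  | mem g hg =>
    rcases hg with rfl | rfl
    · exact hS
    · exact hT
  | one => exact funext hc.one
  | mul g h _ _ ihg ihh =>
    funext x
    rw [hc g h x, ihg, ihh]
    simp
  | inv g _ ih =>
    funext x
    have h1 := hc g⁻¹ g (g⁻¹ • x)
    rw [inv_mul_cancel, hc.one, smul_inv_smul, ih] at h1
    simp only [Pi.zero_apply, add_zero] at h1
    simp only [Pi.zero_apply]
    exact h1.symm

section negone

variable (hX : ∀ x : X, (-1 : SL(2, ℤ)) • x = x)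
include hX

theorem neg_one (x : X) : c (-1) x = 0 := by
  have := hc (-1) (-1) x
  rw [neg_mul_neg, one_mul, hc.one, hX] at this
  linear_combination -(1 / 2 : ℂ) * this

theorem S_mem : c S ∈ Asub X := by
  rw [mem_Asub_iff]
  intro x
  have := hc S S x
  rw [S_mul_S, hc.neg_one hX] at this
  linear_combination -this

theorem U_mem : c (S * T) ∈ Bsub X := by
  rw [mem_Bsub_iff]
  intro x
  have h1 := hc ((S * T) * (S * T)) (S * T) x
  have h2 := hc (S * T) (S * T) ((S * T) • x)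
  rw [U_cube, hc.neg_one hX] at h1
  linear_combination -h1 - h2

theorem lam_eq : lam X (⟨c S, hc.S_mem hX⟩, ⟨c (S * T), hc.U_mem hX⟩) = orbSum (c T) := by
  rw [lam_apply, hc.orbSum_T, map_sub]

end negone

end IsCoc

/-- the coboundary of `v`. -/
def cob (v : X → ℂ) : SL(2, ℤ) → X → ℂ := fun g x => v (g • x) - v x

theorem isCoc_cob (v : X → ℂ) : IsCoc (cob v) := by
  intro g h x
  simp only [cob, mul_smul]
  ring

end abstract

/-! ## Part 2: the coset space `SL(2,ℤ) ⧸ Γ` -/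

section concrete

open ModularCurve.Period

variable (Γ : Subgroup SL(2, ℤ))

/-- the `Γ`-valued cocycle attached to the section `Quotient.out`. -/
def kap (g : SL(2, ℤ)) (x : SL(2, ℤ) ⧸ Γ) : Γ :=
  ⟨(Quotient.out (g • x))⁻¹ * (g * Quotient.out x), by
    rw [← QuotientGroup.eq, QuotientGroup.out_eq']
    conv_lhs => rw [← QuotientGroup.out_eq' x]
    rfl⟩

theorem kap_mul (g h : SL(2, ℤ)) (x : SL(2, ℤ) ⧸ Γ) :
    kap Γ (g * h) x = kap Γ g (h • x) * kap Γ h x := by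
  apply Subtype.ext
  simp only [kap, mul_smul, Subgroup.coe_mul]
  group

/-- the cocycle induced by a homomorphism `ψ : Γ → ℂ`. -/
def dco (ψ : Additive Γ →+ ℂ) : SL(2, ℤ) → (SL(2, ℤ) ⧸ Γ) → ℂ :=
  fun g x => ψ (Additive.ofMul (kap Γ g x))

theorem isCoc_dco (ψ : Additive Γ →+ ℂ) : IsCoc (dco Γ ψ) := by
  intro g h x
  simp only [dco, kap_mul, ofMul_mul, map_add]

theorem neg_one_smul_quot (hneg : (-1 : SL(2, ℤ)) ∈ Γ) (x : SL(2, ℤ) ⧸ Γ) :
    (-1 : SL(2, ℤ)) • x = x := by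
  induction x using QuotientGroup.induction_on with
  | H g =>
    rw [MulAction.Quotient.smul_mk, smul_eq_mul, neg_one_mul, ← mul_neg_one]
    exact QuotientGroup.mk_mul_of_mem g hneg

theorem trace_T_pow (n : ℕ) : ((T ^ n : SL(2, ℤ)) : Matrix (Fin 2) (Fin 2) ℤ).trace = 2 := by
  have := coe_T_zpow (n : ℤ)
  rw [zpow_natCast] at this
  rw [this, Matrix.trace_fin_two]
  simp

theorem trace_kap_T_pow (n : ℕ) (x : SL(2, ℤ) ⧸ Γ) (hx : T ^ n • x = x) :
    (((kap Γ (T ^ n) x : Γ) : SL(2, ℤ)) : Matrix (Fin 2) (Fin 2) ℤ).trace = 2 := by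
  simp only [kap, hx, Matrix.SpecialLinearGroup.coe_mul]
  rw [Matrix.trace_mul_comm, Matrix.mul_assoc, ← Matrix.SpecialLinearGroup.coe_mul,
    mul_inv_cancel, Matrix.SpecialLinearGroup.coe_one, Matrix.mul_one, trace_T_pow]

theorem dco_T_pow_eq_zero {ψ : Additive Γ →+ ℂ} (hψ : ψ ∈ parabolicHoms ℂ Γ ℂ) (n : ℕ)
    (x : SL(2, ℤ) ⧸ Γ) (hx : T ^ n • x = x) : dco Γ ψ (T ^ n) x = 0 := by
  rw [mem_parabolicHoms_iff] at hψ
  apply hψ
  rw [trace_kap_T_pow Γ n x hx]
  norm_num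

/-- the base point. -/
abbrev x0 : SL(2, ℤ) ⧸ Γ := QuotientGroup.mk 1

theorem smul_x0 (γ : SL(2, ℤ)) (hγ : γ ∈ Γ) : γ • x0 Γ = x0 Γ := by
  rw [MulAction.Quotient.smul_mk, smul_eq_mul, QuotientGroup.eq]
  simpa using hγ

theorem out_x0_mem : (Quotient.out (x0 Γ) : SL(2, ℤ)) ∈ Γ := by
  have h : (QuotientGroup.mk (Quotient.out (x0 Γ)) : SL(2, ℤ) ⧸ Γ) = QuotientGroup.mk 1 :=
    QuotientGroup.out_eq' _
  rw [QuotientGroup.eq] at h
  have := Γ.inv_mem h
  simpa using this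

theorem dco_x0 (ψ : Additive Γ →+ ℂ) (γ : SL(2, ℤ)) (hγ : γ ∈ Γ) :
    dco Γ ψ γ (x0 Γ) = ψ (Additive.ofMul ⟨γ, hγ⟩) := by
  have hk : kap Γ γ (x0 Γ)
      = (⟨_, out_x0_mem Γ⟩ : Γ)⁻¹ * (⟨γ, hγ⟩ * ⟨_, out_x0_mem Γ⟩) := by
    apply Subtype.ext
    simp only [kap, smul_x0 Γ γ hγ, Subgroup.coe_mul, Subgroup.coe_inv]
  rw [dco, hk, ofMul_mul, ofMul_mul, ofMul_inv, map_add, map_add, map_neg]
  ring

variable [Γ.FiniteIndex]

/-- a `Fintype` structure on the coset space. -/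
local instance fintypeQuot : Fintype (SL(2, ℤ) ⧸ Γ) := Fintype.ofFinite _

/-- a `Fintype` structure on the orbit space. -/
local instance fintypeOrb : Fintype (Orb (SL(2, ℤ) ⧸ Γ)) := Fintype.ofFinite _

/-- injectivity of the Shapiro map. -/
theorem eq_zero_of_vanish (ψ : Additive Γ →+ ℂ) (v : (SL(2, ℤ) ⧸ Γ) → ℂ) (hv : v (x0 Γ) = 0)
    (hS : (fun x => dco Γ ψ S x + cob v S x) = 0)
    (hU : (fun x => dco Γ ψ (S * T) x + cob v (S * T) x) = 0) : ψ = 0 ∧ v = 0 := by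
  have hc : IsCoc (fun g => dco Γ ψ g + cob v g) := (isCoc_dco Γ ψ).add (isCoc_cob v)
  have hall : ∀ g x, dco Γ ψ g x + cob v g x = 0 := by
    intro g x
    have := hc.vanish hS hU g
    exact congrFun this x
  have hψ : ψ = 0 := by
    ext γ
    obtain ⟨γ, hγ⟩ := γ
    have h1 := hall γ (x0 Γ)
    rw [dco_x0 Γ ψ γ hγ, cob, smul_x0 Γ γ hγ, sub_self, add_zero] at h1
    simpa using h1
  refine ⟨hψ, ?_⟩
  funext x
  obtain ⟨g, hg⟩ := MulAction.exists_smul_eq SL(2, ℤ) (x0 Γ) x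
  have h1 := hall g (x0 Γ)
  rw [hψ] at h1
  simp only [dco, AddMonoidHom.zero_apply, zero_add, cob, hg, hv, sub_zero] at h1
  simpa using h1

/-- `ψ ↦ dco ψ g` as a linear map. -/
def dcoL (g : SL(2, ℤ)) : (Additive Γ →+ ℂ) →ₗ[ℂ] ((SL(2, ℤ) ⧸ Γ) → ℂ) where
  toFun ψ := dco Γ ψ g
  map_add' ψ ψ' := by
    funext x
    simp [dco]
  map_smul' a ψ := by
    funext x
    simp [dco]

/-- `v ↦ cob v g` as a linear map. -/
def cobL (g : SL(2, ℤ)) : ((SL(2, ℤ) ⧸ Γ) → ℂ) →ₗ[ℂ] ((SL(2, ℤ) ⧸ Γ) → ℂ) where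
  toFun v := cob v g
  map_add' v v' := by
    funext x
    simp only [cob, Pi.add_apply]
    ring
  map_smul' a v := by
    funext x
    simp only [cob, Pi.smul_apply, smul_eq_mul, RingHom.id_apply]
    ring

/-- functions vanishing at the base point. -/
abbrev V0 : Submodule ℂ ((SL(2, ℤ) ⧸ Γ) → ℂ) :=
  LinearMap.ker (LinearMap.proj (x0 Γ) : ((SL(2, ℤ) ⧸ Γ) → ℂ) →ₗ[ℂ] ℂ)

/-- the cocycle value at `g`, as a linear map in `(ψ, v)`. -/
def theta (g : SL(2, ℤ)) :
    (parabolicHoms ℂ Γ ℂ × V0 Γ) →ₗ[ℂ] ((SL(2, ℤ) ⧸ Γ) → ℂ) :=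
  dcoL Γ g ∘ₗ (parabolicHoms ℂ Γ ℂ).subtype ∘ₗ LinearMap.fst ℂ _ _
    + cobL Γ g ∘ₗ (V0 Γ).subtype ∘ₗ LinearMap.snd ℂ _ _

theorem theta_apply (g : SL(2, ℤ)) (p : parabolicHoms ℂ Γ ℂ × V0 Γ) :
    theta Γ g p = (fun g => dco Γ (p.1 : Additive Γ →+ ℂ) g + cob (p.2 : (SL(2, ℤ) ⧸ Γ) → ℂ) g) g :=
  rfl

theorem isCoc_theta (p : parabolicHoms ℂ Γ ℂ × V0 Γ) : IsCoc (fun g => theta Γ g p) :=
  (isCoc_dco Γ _).add (isCoc_cob _)

theorem exists_period : ∃ n : ℕ, 0 < n ∧ ∀ x : SL(2, ℤ) ⧸ Γ, T ^ n • x = x := by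
  classical
  refine ⟨orderOf (MulAction.toPermHom SL(2, ℤ) (SL(2, ℤ) ⧸ Γ) T), orderOf_pos _, fun x => ?_⟩
  have h := pow_orderOf_eq_one (MulAction.toPermHom SL(2, ℤ) (SL(2, ℤ) ⧸ Γ) T)
  rw [← map_pow] at h
  have := congrArg (fun σ : Equiv.Perm (SL(2, ℤ) ⧸ Γ) => σ x) h
  simpa using this

variable (hneg : (-1 : SL(2, ℤ)) ∈ Γ)
include hneg

theorem theta_T_orbSum (p : parabolicHoms ℂ Γ ℂ × V0 Γ) : orbSum (theta Γ T p) = 0 := by
  obtain ⟨n, hn, hper⟩ := exists_period Γ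
  refine (isCoc_theta Γ p).orbSum_T_eq_zero n hn fun x => ?_
  rw [theta_apply]
  simp only [Pi.add_apply, cob, hper x, sub_self, add_zero]
  exact dco_T_pow_eq_zero Γ p.1.2 n x (hper x)

/-- the Shapiro map into `A × B`. -/
def Theta : (parabolicHoms ℂ Γ ℂ × V0 Γ) →ₗ[ℂ] (Asub (SL(2, ℤ) ⧸ Γ) × Bsub (SL(2, ℤ) ⧸ Γ)) :=
  LinearMap.prod
    (LinearMap.codRestrict _ (theta Γ S)
      fun p => (isCoc_theta Γ p).S_mem (neg_one_smul_quot Γ hneg))
    (LinearMap.codRestrict _ (theta Γ (S * T))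
      fun p => (isCoc_theta Γ p).U_mem (neg_one_smul_quot Γ hneg))

theorem Theta_mem_ker (p : parabolicHoms ℂ Γ ℂ × V0 Γ) :
    Theta Γ hneg p ∈ LinearMap.ker (lam (SL(2, ℤ) ⧸ Γ)) := by
  rw [LinearMap.mem_ker]
  have := (isCoc_theta Γ p).lam_eq (neg_one_smul_quot Γ hneg)
  rw [theta_T_orbSum Γ hneg p] at this
  exact this

theorem Theta_injective : Function.Injective (Theta Γ hneg) := by
  rw [← LinearMap.ker_eq_bot, LinearMap.ker_eq_bot']
  intro p hp
  have h1 : theta Γ S p = 0 := by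
    have := congrArg (fun q : Asub (SL(2, ℤ) ⧸ Γ) × Bsub (SL(2, ℤ) ⧸ Γ) =>
      (q.1 : (SL(2, ℤ) ⧸ Γ) → ℂ)) hp
    exact this
  have h2 : theta Γ (S * T) p = 0 := by
    have := congrArg (fun q : Asub (SL(2, ℤ) ⧸ Γ) × Bsub (SL(2, ℤ) ⧸ Γ) =>
      (q.2 : (SL(2, ℤ) ⧸ Γ) → ℂ)) hp
    exact this
  have hv : (p.2 : (SL(2, ℤ) ⧸ Γ) → ℂ) (x0 Γ) = 0 := by
    have := p.2.2
    rw [LinearMap.mem_ker] at this
    exact this
  obtain ⟨hψ, hv'⟩ := eq_zero_of_vanish Γ (p.1 : Additive Γ →+ ℂ) (p.2 : (SL(2, ℤ) ⧸ Γ) → ℂ) hv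
    h1 h2
  apply Prod.ext
  · exact Subtype.ext hψ
  · exact Subtype.ext hv'

theorem finrank_V0 : finrank ℂ (V0 Γ) + 1 = Fintype.card (SL(2, ℤ) ⧸ Γ) := by
  classical
  have h1 := LinearMap.finrank_range_add_finrank_ker
    (LinearMap.proj (x0 Γ) : ((SL(2, ℤ) ⧸ Γ) → ℂ) →ₗ[ℂ] ℂ)
  have h2 : LinearMap.range (LinearMap.proj (x0 Γ) : ((SL(2, ℤ) ⧸ Γ) → ℂ) →ₗ[ℂ] ℂ) = ⊤ := by
    rw [LinearMap.range_eq_top]
    exact LinearMap.proj_surjective _
  rw [h2, finrank_top, Module.finrank_self, Module.finrank_fintype_fun_eq_card, add_comm] at h1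
  exact h1

/-- **The general bound.** -/
theorem parHom_bound :
    FiniteDimensional ℂ (parabolicHoms ℂ Γ ℂ) ∧
      finrank ℂ (parabolicHoms ℂ Γ ℂ) + Nat.card (SL(2, ℤ) ⧸ Γ)
          + Nat.card (Orb (SL(2, ℤ) ⧸ Γ))
        ≤ finrank ℂ (Asub (SL(2, ℤ) ⧸ Γ)) + finrank ℂ (Bsub (SL(2, ℤ) ⧸ Γ)) + 2 := by
  -- the restricted map into `ker lam`
  let ΘK : (parabolicHoms ℂ Γ ℂ × V0 Γ) →ₗ[ℂ] LinearMap.ker (lam (SL(2, ℤ) ⧸ Γ)) :=
    LinearMap.codRestrict _ (Theta Γ hneg) (Theta_mem_ker Γ hneg)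
  have hinj : Function.Injective ΘK := by
    intro p q hpq
    apply Theta_injective Γ hneg
    exact congrArg Subtype.val hpq
  have hfinD : Module.Finite ℂ (parabolicHoms ℂ Γ ℂ × V0 Γ) := Module.Finite.of_injective ΘK hinj
  have hfinW : Module.Finite ℂ (parabolicHoms ℂ Γ ℂ) :=
    Module.Finite.of_injective (LinearMap.inl ℂ (parabolicHoms ℂ Γ ℂ) (V0 Γ)) LinearMap.inl_injective
  refine ⟨hfinW, ?_⟩
  have h1 : finrank ℂ (parabolicHoms ℂ Γ ℂ × V0 Γ)
      ≤ finrank ℂ (LinearMap.ker (lam (SL(2, ℤ) ⧸ Γ))) :=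
    LinearMap.finrank_le_finrank_of_injective hinj
  rw [Module.finrank_prod] at h1
  have h2 := finrank_ker_lam_le (neg_one_smul_quot Γ hneg) (x0 Γ)
  have h3 := finrank_V0 Γ hneg
  rw [Nat.card_eq_fintype_card, Nat.card_eq_fintype_card]
  omega

end concrete

/-! ## Part 3: numerics -/

section numerics

open ModularCurve.Period

variable (Γ : Subgroup SL(2, ℤ)) [Γ.FiniteIndex]

theorem two_mul_finrank_Asub (hneg : (-1 : SL(2, ℤ)) ∈ Γ) :
    2 * finrank ℂ (Asub (SL(2, ℤ) ⧸ Γ)) + Nat.card (MulAction.fixedBy (SL(2, ℤ) ⧸ Γ) S)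
      = Nat.card (SL(2, ℤ) ⧸ Γ) := by
  classical
  let _ : Fintype (SL(2, ℤ) ⧸ Γ) := Fintype.ofFinite _
  have h := two_mul_finrank_ker_one_add_permOp (fun x : SL(2, ℤ) ⧸ Γ => S • x)
    (fun x => SS_smul (neg_one_smul_quot Γ hneg) x)
  have e1 : Nat.card (MulAction.fixedBy (SL(2, ℤ) ⧸ Γ) S)
      = Fintype.card {x : SL(2, ℤ) ⧸ Γ // S • x = x} := by
    rw [← Nat.card_eq_fintype_card]
    rfl
  rw [e1, Nat.card_eq_fintype_card (α := SL(2, ℤ) ⧸ Γ)]
  exact h

theorem three_mul_finrank_Bsub (hneg : (-1 : SL(2, ℤ)) ∈ Γ) :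
    3 * finrank ℂ (Bsub (SL(2, ℤ) ⧸ Γ))
        + 2 * Nat.card (MulAction.fixedBy (SL(2, ℤ) ⧸ Γ) (S * T))
      = 2 * Nat.card (SL(2, ℤ) ⧸ Γ) := by
  classical
  let _ : Fintype (SL(2, ℤ) ⧸ Γ) := Fintype.ofFinite _
  have h := three_mul_finrank_ker_permOp (fun x : SL(2, ℤ) ⧸ Γ => (S * T) • x)
    (fun x => UUU_smul (neg_one_smul_quot Γ hneg) x)
  have e1 : Nat.card (MulAction.fixedBy (SL(2, ℤ) ⧸ Γ) (S * T))
      = Fintype.card {x : SL(2, ℤ) ⧸ Γ // (S * T) • x = x} := by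
    rw [← Nat.card_eq_fintype_card]
    rfl
  rw [e1, Nat.card_eq_fintype_card (α := SL(2, ℤ) ⧸ Γ)]
  exact h

/-- the bound in terms of fixed point and orbit counts. -/
theorem parHom_bound_card (hneg : (-1 : SL(2, ℤ)) ∈ Γ) :
    FiniteDimensional ℂ (parabolicHoms ℂ Γ ℂ) ∧
      6 * finrank ℂ (parabolicHoms ℂ Γ ℂ)
          + 3 * Nat.card (MulAction.fixedBy (SL(2, ℤ) ⧸ Γ) S)
          + 4 * Nat.card (MulAction.fixedBy (SL(2, ℤ) ⧸ Γ) (S * T))
          + 6 * Nat.card (MulAction.orbitRel.Quotient (Subgroup.zpowers T) (SL(2, ℤ) ⧸ Γ))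
        ≤ Nat.card (SL(2, ℤ) ⧸ Γ) + 12 := by
  obtain ⟨hfin, h⟩ := parHom_bound Γ hneg
  refine ⟨hfin, ?_⟩
  change _ + Nat.card (MulAction.orbitRel.Quotient (Subgroup.zpowers T) (SL(2, ℤ) ⧸ Γ)) ≤ _ at h
  have h2 := two_mul_finrank_Asub Γ hneg
  have h3 := three_mul_finrank_Bsub Γ hneg
  omega

end numerics

end

end Fermat.Agent.S21.ParHom

namespace Fermat.Agent.S21

open scoped MatrixGroups
open ModularGroup Module CongruenceSubgroup ModularCurve ModularCurve.Period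

/-- **Q7.** The parabolic homomorphisms of `Γ₀(N)` have dimension at most `2g`. -/
theorem finrank_parabolicHoms_Gamma0_le (N : ℕ) [NeZero N] :
    FiniteDimensional ℂ (parabolicHoms ℂ (Gamma0 N) ℂ) ∧
      6 * finrank ℂ (parabolicHoms ℂ (Gamma0 N) ℂ) + 3 * nuTwo N + 4 * nuThree N
          + 6 * cuspCount N ≤ dedekindPsi N + 12 := by
  have hneg : (-1 : SL(2, ℤ)) ∈ Gamma0 N := by
    rw [Gamma0_mem]
    simp
  have h := ParHom.parHom_bound_card (Gamma0 N) hneg
  rw [Fermat.Agent.S20.card_fixedBy_S, Fermat.Agent.S20.card_fixedBy_ST,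
    Fermat.Agent.S20.card_orbits_T, Fermat.Agent.S20.card_quotient_Gamma0] at h
  exact h

/-- Combined with the genus formula for `dim S₂(Γ₀(N))` (statement S20, taken as a hypothesis):
`dim parabolicHoms ≤ 2 dim S₂`. -/
theorem finrank_parabolicHoms_le_two_mul (N : ℕ) [NeZero N]
    (hgenus : (finrank ℂ (CuspForm (Gamma0 N) 2) : ℚ) = genusFormula N) :
    finrank ℂ (parabolicHoms ℂ (Gamma0 N) ℂ) ≤ 2 * finrank ℂ (CuspForm (Gamma0 N) 2) := by
  have h := (finrank_parabolicHoms_Gamma0_le N).2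
  have hq : (6 * (finrank ℂ (parabolicHoms ℂ (Gamma0 N) ℂ) : ℚ) + 3 * (nuTwo N : ℚ)
      + 4 * (nuThree N : ℚ) + 6 * (cuspCount N : ℚ)) ≤ (dedekindPsi N : ℚ) + 12 := by
    exact_mod_cast h
  rw [genusFormula] at hgenus
  have : (finrank ℂ (parabolicHoms ℂ (Gamma0 N) ℂ) : ℚ)
      ≤ 2 * (finrank ℂ (CuspForm (Gamma0 N) 2) : ℚ) := by
    rw [hgenus]
    linarith
  exact_mod_cast this

end Fermat.Agent.S21
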