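import Fermat.Agent.S22.EichlerPoly
import Fermat.Agent.S22.CuspFormFacts
import Fermat.Prelude.Def_ModularCurve_PeriodHomPair

/-! S21 Q1: the decaying primitive of a weight two cusp form is an equivariant primitive; the
period map is linear. -/

set_option autoImplicit false

namespace Fermat.Agent.S21

open UpperHalfPlane CongruenceSubgroup Matrix.SpecialLinearGroup Filter Topology
open ModularCurve ModularCurve.Period Fermat.Agent.S22
open scoped MatrixGroups ModularForm Manifold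

noncomputable section

/-- Chain rule for a primitive composed with a Moebius transformation (weight two slash). -/
theorem hasDerivAt_comp_smul {g F : ℍ → ℂ}
    (hF : ∀ τ : ℍ, HasDerivAt (F ∘ ofComplex) (g τ) (τ : ℂ))
    (α : GL (Fin 2) ℝ) (hα : 0 < α.det.val) (τ : ℍ) :
    HasDerivAt ((fun w : ℍ => F (α • w)) ∘ ofComplex) ((g ∣[(2 : ℤ)] α) τ) (τ : ℂ) := by
  have hfun : ((fun w : ℍ => F (α • w)) ∘ ofComplex) =
      (F ∘ ofComplex) ∘ (fun z : ℂ => ((α • ofComplex z : ℍ) : ℂ)) := by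
    funext z
    simp only [Function.comp_apply, ofComplex_apply]
  rw [hfun]
  have hγ := EPAux.hasDerivAt_coe_smul_ofComplex α hα τ
  have hΦ := hF (α • τ)
  have hγτ : ((α • ofComplex (τ : ℂ) : ℍ) : ℂ) = ((α • τ : ℍ) : ℂ) := by rw [ofComplex_apply]
  have hcomp := HasDerivAt.comp (τ : ℂ) (hγτ ▸ hΦ) hγ
  refine hcomp.congr_deriv ?_
  rw [ModularForm.slash_apply, UpperHalfPlane.σ, if_pos hα]
  simp only [ContinuousAlgEquiv.refl_apply, abs_of_pos hα]
  have h2 := denom_ne_zero α τ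
  rw [show (2 : ℤ) - 1 = 1 by norm_num, zpow_one, zpow_neg, zpow_ofNat]
  field_simp

theorem hasDerivAt_comp_SL_smul {g F : ℍ → ℂ}
    (hF : ∀ τ : ℍ, HasDerivAt (F ∘ ofComplex) (g τ) (τ : ℂ)) (δ : SL(2, ℤ)) (τ : ℍ) :
    HasDerivAt ((fun w : ℍ => F (δ • w)) ∘ ofComplex) ((g ∣[(2 : ℤ)] δ) τ) (τ : ℂ) :=
  hasDerivAt_comp_smul hF (mapGL ℝ δ) (by simp) τ

/-- A primitive composed with `δ` is the decaying primitive of the slashed function plus a
constant. -/
theorem exists_comp_smul_eq {h : ℝ} (hh : 0 < h) {g F : ℍ → ℂ}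
    (hF : ∀ τ : ℍ, HasDerivAt (F ∘ ofComplex) (g τ) (τ : ℂ)) (δ : SL(2, ℤ))
    (hg : IsDecayHolo h (g ∣[(2 : ℤ)] δ)) :
    ∃ L : ℂ, ∀ w : ℍ, F (δ • w) = dprim (g ∣[(2 : ℤ)] δ) w + L :=
  exists_eq_add_const_of_hasDerivAt (G₁ := fun w : ℍ => F (δ • w))
    (hasDerivAt_comp_SL_smul hF δ) (isDecayPrim_dprim hh hg).1

variable (N : ℕ) [NeZero N]

theorem isDecayPrim_dprim_cuspForm (f : CuspForm (Gamma0 N) 2) :
    IsDecayPrim ⇑f (dprim ⇑f) :=
  isDecayPrim_dprim one_pos (isDecayHolo_cuspForm f)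

/-- For every `δ`, the decaying primitive composed with `δ` is the decaying primitive of the
slashed form plus a constant. -/
theorem exists_dprim_smul_eq (f : CuspForm (Gamma0 N) 2) (δ : SL(2, ℤ)) :
    ∃ L : ℂ, ∀ w : ℍ, dprim ⇑f (δ • w) = dprim (⇑f ∣[(2 : ℤ)] δ) w + L :=
  exists_comp_smul_eq (Nat.cast_pos.mpr (NeZero.pos N)) (isDecayPrim_dprim_cuspForm N f).1 δ
    (isDecayHolo_cuspForm_slash f δ)

theorem isDecayPrim_dprim_cuspForm_slash (f : CuspForm (Gamma0 N) 2) (δ : SL(2, ℤ)) :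
    IsDecayPrim (⇑f ∣[(2 : ℤ)] δ) (dprim (⇑f ∣[(2 : ℤ)] δ)) :=
  isDecayPrim_dprim (Nat.cast_pos.mpr (NeZero.pos N)) (isDecayHolo_cuspForm_slash f δ)

theorem isEquivariantPrimitive_dprim (f : CuspForm (Gamma0 N) 2) :
    IsEquivariantPrimitive (Gamma0 N) (dprim ⇑f) := by
  intro γ
  have hsl : ⇑f ∣[(2 : ℤ)] (γ : SL(2, ℤ)) = ⇑f := slash_eq_of_mem_Gamma0 f γ.2
  have h1 : ∀ τ : ℍ, HasDerivAt ((fun w : ℍ => dprim ⇑f ((γ : SL(2, ℤ)) • w)) ∘ ofComplex)
      (f τ) (τ : ℂ) := by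
    intro τ
    have := hasDerivAt_comp_SL_smul (isDecayPrim_dprim_cuspForm N f).1 (γ : SL(2, ℤ)) τ
    rwa [hsl] at this
  obtain ⟨c, hc⟩ := exists_eq_add_const_of_hasDerivAt h1 (isDecayPrim_dprim_cuspForm N f).1
  exact ⟨c, fun z => by rw [hc z]; ring⟩

/-- (a) the decaying primitive is an equivariant primitive in the sense of the Prelude. -/
theorem hasEquivariantPrimitive (f : CuspForm (Gamma0 N) 2) :
    HasEquivariantPrimitive N f (dprim ⇑f) := by
  refine ⟨(isDecayPrim_dprim_cuspForm N f).1, (isDecayPrim_dprim_cuspForm N f).2,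
    isEquivariantPrimitive_dprim N f, fun δ => ?_⟩
  obtain ⟨L, hL⟩ := exists_dprim_smul_eq N f δ
  refine ⟨L, ?_⟩
  have h0 : Tendsto (dprim (⇑f ∣[(2 : ℤ)] δ)) atImInfty (𝓝 0) :=
    (isDecayPrim_dprim_cuspForm_slash N f δ).2
  have h1 : Tendsto (fun w : ℍ => dprim (⇑f ∣[(2 : ℤ)] δ) w + L) atImInfty (𝓝 (0 + L)) :=
    h0.add tendsto_const_nhds
  rw [zero_add] at h1
  exact h1.congr fun w => (hL w).symm

omit [NeZero N] in
/-- Any equivariant primitive is the decaying primitive. -/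
theorem eq_dprim_of_hasEquivariantPrimitive {f : CuspForm (Gamma0 N) 2} {F : ℍ → ℂ}
    (hF : HasEquivariantPrimitive N f F) : F = dprim ⇑f :=
  (dprim_eq ⟨hF.1, hF.2.1⟩).symm

/-- (b) the period map computed with the decaying primitive, at any base point. -/
theorem periodMap_apply (f : CuspForm (Gamma0 N) 2) (γ : Gamma0 N) (z : ℍ) :
    periodMap N f (Additive.ofMul γ) = dprim ⇑f ((γ : SL(2, ℤ)) • z) - dprim ⇑f z := by
  obtain ⟨F₀, h₀, hP⟩ := periodMap_def N f (hasEquivariantPrimitive N f)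
  have hF₀ : F₀ = dprim ⇑f := eq_dprim_of_hasEquivariantPrimitive N h₀
  subst hF₀
  rw [hP, IsEquivariantPrimitive.periodHom_apply, ← h₀.2.2.1.sub_eq_period γ z]

theorem periodMap_apply' (f : CuspForm (Gamma0 N) 2) (γ : Additive (Gamma0 N)) (z : ℍ) :
    periodMap N f γ =
      dprim ⇑f (((Additive.toMul γ : Gamma0 N) : SL(2, ℤ)) • z) - dprim ⇑f z :=
  periodMap_apply N f (Additive.toMul γ) z

theorem periodMap_add (f g : CuspForm (Gamma0 N) 2) :
    periodMap N (f + g) = periodMap N f + periodMap N g := by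
  refine AddMonoidHom.ext fun γ => ?_
  rw [AddMonoidHom.add_apply, periodMap_apply' N _ γ I, periodMap_apply' N f γ I,
    periodMap_apply' N g γ I, FunLike.coe_add,
    dprim_add one_pos (isDecayHolo_cuspForm f) (isDecayHolo_cuspForm g)]
  simp only [Pi.add_apply]
  ring

theorem periodMap_smul (c : ℂ) (f : CuspForm (Gamma0 N) 2) :
    periodMap N (c • f) = c • periodMap N f := by
  refine AddMonoidHom.ext fun γ => ?_
  rw [AddMonoidHom.smul_apply, periodMap_apply' N _ γ I, periodMap_apply' N f γ I,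
    FunLike.coe_smul, dprim_smul one_pos (isDecayHolo_cuspForm f)]
  simp only [Pi.smul_apply, smul_eq_mul]
  ring

/-- The period map as a linear map. -/
def periodMapLinear : CuspForm (Gamma0 N) 2 →ₗ[ℂ] (Additive (Gamma0 N) →+ ℂ) where
  toFun f := periodMap N f
  map_add' := periodMap_add N
  map_smul' c f := periodMap_smul N c f

@[simp] theorem periodMapLinear_apply (f : CuspForm (Gamma0 N) 2) :
    periodMapLinear N f = periodMap N f := rfl

theorem existsPeriodMapLinear : ExistsPeriodMapLinear N :=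
  ⟨periodMapLinear N, fun _ => rfl⟩

theorem periodHomPair_apply (f g : CuspForm (Gamma0 N) 2) :
    periodHomPair N (f, g) =
      (periodMap N f + charInvolution N ℂ ℂ (periodMap N f)) +
        (periodMap N g - charInvolution N ℂ ℂ (periodMap N g)) := by
  obtain ⟨pml, hpml, hP⟩ := periodHomPair_def N (existsPeriodMapLinear N)
  rw [hP]
  simp only [LinearMap.coprod_apply, LinearMap.comp_apply, LinearMap.add_apply,
    LinearMap.sub_apply, LinearMap.id_apply, hpml]

end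

end Fermat.Agent.S21
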