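import Fermat.Agent.S21.PeriodPrim
import Fermat.Agent.S22.Inject

/-! S21 Q1 (c): periods of weight two modular forms for `Γ₀(N)` (not necessarily cuspidal). -/

set_option autoImplicit false

namespace Fermat.Agent.S21

open UpperHalfPlane CongruenceSubgroup Matrix.SpecialLinearGroup Filter Topology
open ModularCurve ModularCurve.Period Fermat.Agent.S22
open scoped MatrixGroups ModularForm Manifold

noncomputable section

/-- Holomorphic on `ℍ`, periodic of period `h`, bounded at `i∞`. -/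
def IsBddHolo (h : ℝ) (g : ℍ → ℂ) : Prop :=
  MDiff g ∧ (∀ τ : ℍ, g (h +ᵥ τ) = g τ) ∧ IsBoundedAtImInfty g

theorem IsBddHolo.tendsto_valueAtInfty {h : ℝ} (hh : 0 < h) {g : ℍ → ℂ} (hg : IsBddHolo h g) :
    Tendsto g atImInfty (𝓝 (valueAtInfty g)) := by
  obtain ⟨hhol, hper, hbdd⟩ := hg
  have hfper := periodic_comp_ofComplex_of_vadd hper
  have hana := analyticAt_cuspFunction_zero hh hfper hhol hbdd
  rw [← cuspFunction_apply_zero hh hana hfper]
  have : (cuspFunction h g ∘ fun τ : ℍ => Function.Periodic.qParam h τ : ℍ → ℂ) = g := by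
    funext τ
    simpa using eq_cuspFunction τ hh.ne' hfper
  have h2 := hana.continuousAt.tendsto.comp (qParam_tendsto_atImInfty hh)
  rwa [this] at h2

theorem valueAtInfty_eq_of_tendsto {g : ℍ → ℂ} {a : ℂ} (ha : Tendsto g atImInfty (𝓝 a)) :
    valueAtInfty g = a :=
  ha.limUnder_eq

theorem IsDecayHolo.isBddHolo {h : ℝ} {g : ℍ → ℂ} (hg : IsDecayHolo h g) : IsBddHolo h g :=
  ⟨hg.1, hg.2.1, hg.2.2.isBoundedAtImInfty⟩

theorem IsBddHolo.add {h : ℝ} {g₁ g₂ : ℍ → ℂ} (h₁ : IsBddHolo h g₁) (h₂ : IsBddHolo h g₂) :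
    IsBddHolo h (g₁ + g₂) := by
  refine ⟨h₁.1.add h₂.1, fun τ => ?_, h₁.2.2.add h₂.2.2⟩
  simp only [Pi.add_apply, h₁.2.1 τ, h₂.2.1 τ]

theorem IsBddHolo.smul {h : ℝ} {g : ℍ → ℂ} (hg : IsBddHolo h g) (c : ℂ) :
    IsBddHolo h (c • g) := by
  refine ⟨hg.1.const_smul c, fun τ => ?_, hg.2.2.const_smul_left c⟩
  simp only [Pi.smul_apply, hg.2.1 τ]

/-- Subtracting the value at infinity gives a decaying function. -/
theorem IsBddHolo.isDecayHolo_sub {h : ℝ} (hh : 0 < h) {g : ℍ → ℂ} (hg : IsBddHolo h g) :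
    IsDecayHolo h (fun w => g w - valueAtInfty g) := by
  refine ⟨?_, fun τ => by simp only [hg.2.1 τ], ?_⟩
  · exact hg.1.sub (mdifferentiable_const (c := valueAtInfty g))
  · have := (hg.tendsto_valueAtInfty hh).sub_const (valueAtInfty g)
    rwa [sub_self] at this

/-- The normalised primitive: `a₀ z +` the decaying primitive of `g - a₀`. -/
def mprim (g : ℍ → ℂ) (z : ℍ) : ℂ :=
  valueAtInfty g * (z : ℂ) + dprim (fun w => g w - valueAtInfty g) z

theorem hasDerivAt_mprim {h : ℝ} (hh : 0 < h) {g : ℍ → ℂ} (hg : IsBddHolo h g) (τ : ℍ) :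
    HasDerivAt (mprim g ∘ ofComplex) (g τ) (τ : ℂ) := by
  have hG := (isDecayPrim_dprim hh (hg.isDecayHolo_sub hh)).1 τ
  have hlin : HasDerivAt (fun z : ℂ => valueAtInfty g * z) (valueAtInfty g) (τ : ℂ) := by
    simpa using (hasDerivAt_id (τ : ℂ)).const_mul (valueAtInfty g)
  have hsum := hlin.add hG
  have hval : valueAtInfty g + (g τ - valueAtInfty g) = g τ := by ring
  rw [hval] at hsum
  refine hsum.congr_of_eventuallyEq ?_
  filter_upwards [isOpen_upperHalfPlaneSet.mem_nhds τ.im_pos] with z hz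
  simp only [Function.comp_apply, mprim, Pi.add_apply, ofComplex_apply_of_im_pos hz,
    UpperHalfPlane.coe_mk]

theorem mprim_eq_dprim {g : ℍ → ℂ} (hg : IsZeroAtImInfty g) : mprim g = dprim g := by
  funext z
  have h0 : valueAtInfty g = 0 := hg.valueAtInfty_eq_zero
  have h1 : (fun w => g w - valueAtInfty g) = g := by
    funext w; rw [h0, sub_zero]
  rw [mprim, h1, h0, zero_mul, zero_add]

theorem valueAtInfty_add {h : ℝ} (hh : 0 < h) {g₁ g₂ : ℍ → ℂ} (h₁ : IsBddHolo h g₁)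
    (h₂ : IsBddHolo h g₂) : valueAtInfty (g₁ + g₂) = valueAtInfty g₁ + valueAtInfty g₂ :=
  valueAtInfty_eq_of_tendsto ((h₁.tendsto_valueAtInfty hh).add (h₂.tendsto_valueAtInfty hh))

theorem valueAtInfty_smul {h : ℝ} (hh : 0 < h) {g : ℍ → ℂ} (hg : IsBddHolo h g) (c : ℂ) :
    valueAtInfty (c • g) = c * valueAtInfty g :=
  valueAtInfty_eq_of_tendsto ((hg.tendsto_valueAtInfty hh).const_mul c)

theorem mprim_add {h : ℝ} (hh : 0 < h) {g₁ g₂ : ℍ → ℂ} (h₁ : IsBddHolo h g₁)
    (h₂ : IsBddHolo h g₂) : mprim (g₁ + g₂) = mprim g₁ + mprim g₂ := by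
  funext z
  have hfun : (fun w => (g₁ + g₂) w - valueAtInfty (g₁ + g₂)) =
      (fun w => g₁ w - valueAtInfty g₁) + (fun w => g₂ w - valueAtInfty g₂) := by
    funext w
    rw [valueAtInfty_add hh h₁ h₂]
    simp only [Pi.add_apply]
    ring
  have e : mprim (g₁ + g₂) z = valueAtInfty (g₁ + g₂) * (z : ℂ) +
      dprim (fun w => (g₁ + g₂) w - valueAtInfty (g₁ + g₂)) z := rfl
  rw [e, hfun, dprim_add hh (h₁.isDecayHolo_sub hh) (h₂.isDecayHolo_sub hh),
    valueAtInfty_add hh h₁ h₂]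
  simp only [mprim, Pi.add_apply]
  ring

theorem mprim_smul {h : ℝ} (hh : 0 < h) {g : ℍ → ℂ} (hg : IsBddHolo h g) (c : ℂ) :
    mprim (c • g) = c • mprim g := by
  funext z
  have hfun : (fun w => (c • g) w - valueAtInfty (c • g)) =
      c • (fun w => g w - valueAtInfty g) := by
    funext w
    rw [valueAtInfty_smul hh hg]
    simp only [Pi.smul_apply, smul_eq_mul]
    ring
  have e : mprim (c • g) z = valueAtInfty (c • g) * (z : ℂ) +
      dprim (fun w => (c • g) w - valueAtInfty (c • g)) z := rfl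
  rw [e, hfun, dprim_smul hh (hg.isDecayHolo_sub hh), valueAtInfty_smul hh hg]
  simp only [mprim, Pi.smul_apply, smul_eq_mul]
  ring

/-- Behaviour of the normalised primitive under the period translation. -/
theorem mprim_vadd {h : ℝ} (hh : 0 < h) {g : ℍ → ℂ} (hg : IsBddHolo h g) (w : ℍ) :
    mprim g (h +ᵥ w) = mprim g w + valueAtInfty g * h := by
  have hper := (isDecayHolo_dprim hh (hg.isDecayHolo_sub hh)).2.1 w
  simp only [mprim, hper, UpperHalfPlane.coe_vadd]
  ring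

/-- A primitive composed with `δ` is the normalised primitive of the slashed function plus a
constant. -/
theorem exists_comp_smul_eq_mprim {h : ℝ} (hh : 0 < h) {g F : ℍ → ℂ}
    (hF : ∀ τ : ℍ, HasDerivAt (F ∘ ofComplex) (g τ) (τ : ℂ)) (δ : SL(2, ℤ))
    (hg : IsBddHolo h (g ∣[(2 : ℤ)] δ)) :
    ∃ C : ℂ, ∀ w : ℍ, F (δ • w) = mprim (g ∣[(2 : ℤ)] δ) w + C :=
  exists_eq_add_const_of_hasDerivAt (G₁ := fun w : ℍ => F (δ • w))
    (hasDerivAt_comp_SL_smul hF δ) (hasDerivAt_mprim hh hg)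

variable (N : ℕ) [NeZero N]

theorem isBddHolo_modularForm {k : ℤ} (E : ModularForm (Gamma0 N) k) : IsBddHolo 1 ⇑E := by
  refine ⟨ModularFormClass.holo E, fun τ => ?_, ?_⟩
  · apply SlashInvariantForm.vAdd_apply_of_mem_strictPeriods E τ
    rw [strictPeriods_Gamma0]
    exact AddSubgroup.mem_zmultiples 1
  · have h := ModularFormClass.bdd_at_cusps E (isCusp_mapGL_smul_infty (N := N) 1)
    have h2 := (OnePoint.isBoundedAt_iff rfl).mp h
    simpa using h2

open ConjAct Pointwise in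
theorem isBddHolo_modularForm_slash {k : ℤ} (E : ModularForm (Gamma0 N) k) (δ : SL(2, ℤ)) :
    IsBddHolo N (⇑E ∣[k] δ) := by
  refine ⟨(ModularFormClass.holo E).slash k _, fun τ => ?_, ?_⟩
  · have hmem : ((N : ℕ) : ℝ) ∈
        (ConjAct.toConjAct (mapGL ℝ δ)⁻¹ •
          (Gamma0 N : Subgroup (GL (Fin 2) ℝ))).strictPeriods := by
      have hN : ((N : ℕ) : ℝ) ∈ (Gamma N : Subgroup (GL (Fin 2) ℝ)).strictPeriods := by
        rw [strictPeriods_Gamma]
        exact AddSubgroup.mem_zmultiples _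
      rw [Subgroup.mem_strictPeriods_iff] at hN ⊢
      obtain ⟨t, ht, hteq⟩ := Subgroup.mem_map.mp hN
      rw [map_inv, Subgroup.mem_inv_pointwise_smul_iff, ConjAct.toConjAct_smul]
      refine Subgroup.mem_map.mpr ⟨δ * t * δ⁻¹, Gamma_le_Gamma0 N ?_, ?_⟩
      · exact (Gamma_normal N).conj_mem t ht δ
      · rw [map_mul, map_mul, map_inv, hteq]
    have := SlashInvariantForm.vAdd_apply_of_mem_strictPeriods
      (SlashInvariantForm.translate E (mapGL ℝ δ)) τ hmem
    rw [SlashInvariantForm.coe_translate] at this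
    exact this
  · have h := ModularFormClass.bdd_at_cusps E (isCusp_mapGL_smul_infty (N := N) δ)
    exact (OnePoint.isBoundedAt_iff rfl).mp h

omit [NeZero N] in
theorem modularForm_slash_eq {k : ℤ} (E : ModularForm (Gamma0 N) k) {γ : SL(2, ℤ)}
    (hγ : γ ∈ Gamma0 N) : ⇑E ∣[k] γ = ⇑E :=
  SlashInvariantFormClass.slash_action_eq E _ (Subgroup.mem_map_of_mem _ hγ)

theorem hasDerivAt_mprim_modularForm (E : ModularForm (Gamma0 N) 2) (τ : ℍ) :
    HasDerivAt (mprim ⇑E ∘ ofComplex) (E τ) (τ : ℂ) :=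
  hasDerivAt_mprim one_pos (isBddHolo_modularForm N E) τ

theorem isEquivariantPrimitive_mprim (E : ModularForm (Gamma0 N) 2) :
    IsEquivariantPrimitive (Gamma0 N) (mprim ⇑E) := by
  intro γ
  have hsl : ⇑E ∣[(2 : ℤ)] (γ : SL(2, ℤ)) = ⇑E := modularForm_slash_eq N E γ.2
  have h1 : ∀ τ : ℍ, HasDerivAt ((fun w : ℍ => mprim ⇑E ((γ : SL(2, ℤ)) • w)) ∘ ofComplex)
      (E τ) (τ : ℂ) := by
    intro τ
    have := hasDerivAt_comp_SL_smul (hasDerivAt_mprim_modularForm N E) (γ : SL(2, ℤ)) τ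
    rwa [hsl] at this
  obtain ⟨c, hc⟩ := exists_eq_add_const_of_hasDerivAt h1 (hasDerivAt_mprim_modularForm N E)
  exact ⟨c, fun z => by rw [hc z]; ring⟩

/-- The period homomorphism of a weight two modular form. -/
def modPeriod (E : ModularForm (Gamma0 N) 2) : Additive (Gamma0 N) →+ ℂ :=
  (isEquivariantPrimitive_mprim N E).periodHom

theorem modPeriod_apply (E : ModularForm (Gamma0 N) 2) (γ : Gamma0 N) (z : ℍ) :
    modPeriod N E (Additive.ofMul γ) = mprim ⇑E ((γ : SL(2, ℤ)) • z) - mprim ⇑E z := by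
  rw [modPeriod, IsEquivariantPrimitive.periodHom_apply,
    ← (isEquivariantPrimitive_mprim N E).sub_eq_period γ z]

theorem modPeriod_apply' (E : ModularForm (Gamma0 N) 2) (γ : Additive (Gamma0 N)) (z : ℍ) :
    modPeriod N E γ =
      mprim ⇑E (((Additive.toMul γ : Gamma0 N) : SL(2, ℤ)) • z) - mprim ⇑E z :=
  modPeriod_apply N E (Additive.toMul γ) z

theorem modPeriod_add (E₁ E₂ : ModularForm (Gamma0 N) 2) :
    modPeriod N (E₁ + E₂) = modPeriod N E₁ + modPeriod N E₂ := by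
  refine AddMonoidHom.ext fun γ => ?_
  rw [AddMonoidHom.add_apply, modPeriod_apply' N _ γ I, modPeriod_apply' N E₁ γ I,
    modPeriod_apply' N E₂ γ I, FunLike.coe_add,
    mprim_add one_pos (isBddHolo_modularForm N E₁) (isBddHolo_modularForm N E₂)]
  simp only [Pi.add_apply]
  ring

theorem modPeriod_smul (c : ℂ) (E : ModularForm (Gamma0 N) 2) :
    modPeriod N (c • E) = c • modPeriod N E := by
  refine AddMonoidHom.ext fun γ => ?_
  rw [AddMonoidHom.smul_apply, modPeriod_apply' N _ γ I, modPeriod_apply' N E γ I,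
    FunLike.coe_smul, mprim_smul one_pos (isBddHolo_modularForm N E)]
  simp only [Pi.smul_apply, smul_eq_mul]
  ring

/-- The period homomorphism as a linear map on weight two modular forms. -/
def modPeriodLinear : ModularForm (Gamma0 N) 2 →ₗ[ℂ] (Additive (Gamma0 N) →+ ℂ) where
  toFun E := modPeriod N E
  map_add' := modPeriod_add N
  map_smul' c E := modPeriod_smul N c E

@[simp] theorem modPeriodLinear_apply (E : ModularForm (Gamma0 N) 2) :
    modPeriodLinear N E = modPeriod N E := rfl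

/-- On cusp forms the period homomorphism is the period map of the Prelude. -/
theorem modPeriod_eq_periodMap (E : ModularForm (Gamma0 N) 2) (f : CuspForm (Gamma0 N) 2)
    (h : ⇑E = ⇑f) : modPeriod N E = periodMap N f := by
  refine AddMonoidHom.ext fun γ => ?_
  rw [modPeriod_apply' N E γ I, periodMap_apply' N f γ I, h,
    mprim_eq_dprim (isDecayHolo_cuspForm f).2.2]

/-- Expansion at the cusp `δ • ∞`. -/
theorem exists_mprim_smul_eq (E : ModularForm (Gamma0 N) 2) (δ : SL(2, ℤ)) :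
    ∃ C : ℂ, ∀ w : ℍ, mprim ⇑E (δ • w) = mprim (⇑E ∣[(2 : ℤ)] δ) w + C :=
  exists_comp_smul_eq_mprim (Nat.cast_pos.mpr (NeZero.pos N)) (hasDerivAt_mprim_modularForm N E) δ
    (isBddHolo_modularForm_slash N E δ)

/-- The period along the stabiliser of the cusp `δ • ∞` is `N` times the constant term. -/
theorem modPeriod_conj_T_pow (E : ModularForm (Gamma0 N) 2) (δ : SL(2, ℤ)) :
    modPeriod N E (Additive.ofMul
        ⟨δ * ModularGroup.T ^ (N : ℤ) * δ⁻¹, conj_T_pow_mem_Gamma0 N δ⟩) =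
      N * valueAtInfty (⇑E ∣[(2 : ℤ)] δ) := by
  obtain ⟨C, hC⟩ := exists_mprim_smul_eq N E δ
  have hN : (0 : ℝ) < (N : ℝ) := Nat.cast_pos.mpr (NeZero.pos N)
  rw [modPeriod_apply N E _ (δ • I)]
  have hsm : (δ * ModularGroup.T ^ (N : ℤ) * δ⁻¹) • (δ • I) = δ • (((N : ℕ) : ℝ) +ᵥ I) := by
    rw [← mul_smul, inv_mul_cancel_right, mul_smul, modular_T_zpow_smul]
    simp
  show mprim ⇑E ((δ * ModularGroup.T ^ (N : ℤ) * δ⁻¹) • (δ • I)) - mprim ⇑E (δ • I) = _
  rw [hsm, hC, hC, mprim_vadd hN (isBddHolo_modularForm_slash N E δ)]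
  push_cast
  ring

omit [NeZero N] in
theorem trace_conj_T_pow (δ : SL(2, ℤ)) :
    ((δ * ModularGroup.T ^ (N : ℤ) * δ⁻¹ : SL(2, ℤ)) : Matrix (Fin 2) (Fin 2) ℤ).trace = 2 := by
  rw [Matrix.SpecialLinearGroup.coe_mul, Matrix.trace_mul_comm, ← Matrix.SpecialLinearGroup.coe_mul,
    inv_mul_cancel_left, ModularGroup.coe_T_zpow, Matrix.trace_fin_two_of]
  norm_num

/-- A weight two modular form all of whose parabolic periods vanish is a cusp form. -/
theorem exists_cuspForm_of_modPeriod_mem (E : ModularForm (Gamma0 N) 2)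
    (h : modPeriod N E ∈ parabolicHoms ℂ (Gamma0 N) ℂ) :
    ∃ f : CuspForm (Gamma0 N) 2, ⇑f = ⇑E := by
  have hN : (0 : ℝ) < (N : ℝ) := Nat.cast_pos.mpr (NeZero.pos N)
  have hzero : ∀ δ : SL(2, ℤ), IsZeroAtImInfty (⇑E ∣[(2 : ℤ)] δ) := by
    intro δ
    have h1 := h ⟨δ * ModularGroup.T ^ (N : ℤ) * δ⁻¹, conj_T_pow_mem_Gamma0 N δ⟩
      (by rw [trace_conj_T_pow N δ]; norm_num)
    rw [modPeriod_conj_T_pow N E δ] at h1
    have hN0 : (N : ℂ) ≠ 0 := Nat.cast_ne_zero.mpr (NeZero.ne N)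
    have h2 : valueAtInfty (⇑E ∣[(2 : ℤ)] δ) = 0 := by
      rcases mul_eq_zero.mp h1 with h3 | h3
      · exact absurd h3 hN0
      · exact h3
    have h3 := (isBddHolo_modularForm_slash N E δ).tendsto_valueAtInfty hN
    rwa [h2] at h3
  refine ⟨{ toFun := ⇑E
            slash_action_eq' := fun γ hγ => SlashInvariantFormClass.slash_action_eq E γ hγ
            holo' := ModularFormClass.holo E
            zero_at_cusps' := ?_ }, rfl⟩
  intro c hc
  rw [Subgroup.IsArithmetic.isCusp_iff_isCusp_SL2Z, isCusp_SL2Z_iff'] at hc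
  obtain ⟨δ, rfl⟩ := hc
  exact (OnePoint.isZeroAt_iff rfl).mpr (hzero δ)

end

end Fermat.Agent.S21
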